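import Fermat.Agent.S24.P1

/-!
# S24 piece D1: the index of `Γ₀(N)` in `SL(2,ℤ)` is the Dedekind psi function

Induction on `N`: `[Γ₀(M) : Γ₀(Mp)]` is `p` if `p ∣ M` and `p + 1` otherwise.
-/

set_option autoImplicit false

namespace Fermat.Agent.S24

open scoped MatrixGroups
open CongruenceSubgroup ModularGroup ModularCurve

/-! ### The recursion for the Dedekind psi function -/

theorem idx_sqfree_dvd_of_dvd_mul {M p d : ℕ} (hp : p.Prime) (hpM : p ∣ M) (hd : Squarefree d)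
    (hdM : d ∣ M * p) : d ∣ M := by
  by_cases hpd : p ∣ d
  · obtain ⟨e, rfl⟩ := hpd
    have hcop : Nat.Coprime p e := (Nat.squarefree_mul_iff.mp hd).1
    have he : e ∣ M := by
      rw [mul_comm M p] at hdM
      exact Nat.dvd_of_mul_dvd_mul_left hp.pos hdM
    exact Nat.Coprime.mul_dvd_of_dvd_of_dvd hcop hpM he
  · have hcop : Nat.Coprime d p := ((Nat.Prime.coprime_iff_not_dvd hp).mpr hpd).symm
    exact Nat.Coprime.dvd_of_dvd_mul_right hcop hdM

theorem idx_dedekindPsi_mul_of_dvd {M p : ℕ} (hM : M ≠ 0) (hp : p.Prime) (hpM : p ∣ M) :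
    dedekindPsi (M * p) = dedekindPsi M * p := by
  unfold dedekindPsi
  have hset : (M * p).divisors.filter Squarefree = M.divisors.filter Squarefree := by
    ext d
    simp only [Finset.mem_filter, Nat.mem_divisors]
    constructor
    · rintro ⟨⟨hd, -⟩, hsq⟩
      exact ⟨⟨idx_sqfree_dvd_of_dvd_mul hp hpM hsq hd, hM⟩, hsq⟩
    · rintro ⟨⟨hd, -⟩, hsq⟩
      exact ⟨⟨Dvd.dvd.mul_right hd p, mul_ne_zero hM hp.ne_zero⟩, hsq⟩
  rw [hset, Finset.sum_mul]
  refine Finset.sum_congr rfl fun d hd => ?_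
  have hdM : d ∣ M := (Nat.mem_divisors.mp (Finset.mem_filter.mp hd).1).1
  exact Nat.mul_div_right_comm hdM p

theorem idx_dedekindPsi_mul_of_not_dvd {M p : ℕ} (hM : M ≠ 0) (hp : p.Prime) (hpM : ¬ p ∣ M) :
    dedekindPsi (M * p) = dedekindPsi M * (p + 1) := by
  unfold dedekindPsi
  rw [← Finset.sum_filter_add_sum_filter_not ((M * p).divisors.filter Squarefree) (fun d => p ∣ d)]
  have hB : ((M * p).divisors.filter Squarefree).filter (fun d => p ∣ d) =
      (M.divisors.filter Squarefree).image (fun e => e * p) := by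
    ext d
    simp only [Finset.mem_filter, Nat.mem_divisors, Finset.mem_image]
    constructor
    · rintro ⟨⟨⟨hd, -⟩, hsq⟩, hpd⟩
      obtain ⟨e, rfl⟩ := hpd
      have hsq' := Nat.squarefree_mul_iff.mp hsq
      refine ⟨e, ⟨⟨?_, hM⟩, hsq'.2.2⟩, mul_comm e p⟩
      rw [mul_comm M p] at hd
      exact Nat.dvd_of_mul_dvd_mul_left hp.pos hd
    · rintro ⟨e, ⟨⟨he, -⟩, hsq⟩, rfl⟩
      have hpe : ¬ p ∣ e := fun h => hpM (h.trans he)
      refine ⟨⟨⟨Nat.mul_dvd_mul he dvd_rfl, mul_ne_zero hM hp.ne_zero⟩, ?_⟩, Dvd.intro_left e rfl⟩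
      rw [Nat.squarefree_mul_iff]
      exact ⟨((Nat.Prime.coprime_iff_not_dvd hp).mpr hpe).symm, hsq, hp.prime.squarefree⟩
  have hA : ((M * p).divisors.filter Squarefree).filter (fun d => ¬ p ∣ d) =
      M.divisors.filter Squarefree := by
    ext d
    simp only [Finset.mem_filter, Nat.mem_divisors]
    constructor
    · rintro ⟨⟨⟨hd, -⟩, hsq⟩, hpd⟩
      have hcop : Nat.Coprime d p := ((Nat.Prime.coprime_iff_not_dvd hp).mpr hpd).symm
      exact ⟨⟨Nat.Coprime.dvd_of_dvd_mul_right hcop hd, hM⟩, hsq⟩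
    · rintro ⟨⟨hd, -⟩, hsq⟩
      exact ⟨⟨⟨Dvd.dvd.mul_right hd p, mul_ne_zero hM hp.ne_zero⟩, hsq⟩, fun h => hpM (h.trans hd)⟩
  rw [hA, hB, Finset.sum_image (fun x _ y _ h => Nat.eq_of_mul_eq_mul_right hp.pos h), mul_add,
    mul_one, add_comm, Finset.sum_mul]
  congr 1
  · refine Finset.sum_congr rfl fun d hd => ?_
    have hdM : d ∣ M := (Nat.mem_divisors.mp (Finset.mem_filter.mp hd).1).1
    exact Nat.mul_div_right_comm hdM p
  · refine Finset.sum_congr rfl fun d _ => ?_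
    exact Nat.mul_div_mul_right M d hp.pos

/-! ### The relative index of `Γ₀(Mp)` in `Γ₀(M)` -/

section relindex

variable (M p : ℕ)

theorem idx_Gamma0_le : Gamma0 (M * p) ≤ Gamma0 M := by
  intro γ hγ
  rw [p1_mem_Gamma0_iff] at hγ ⊢
  exact (Dvd.intro _ (by push_cast; rfl)).trans hγ

/-- The invariant separating the cosets of `Γ₀(Mp)` in `Γ₀(M)`: the point `(a : c/M)` of the
projective line over `𝔽_p`, written as an element of `Option (ZMod p)`. -/
noncomputable def idxInv (γ : SL(2, ℤ)) : Option (ZMod p) :=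
  if (p : ℤ) ∣ γ 0 0 then none
  else some (((γ 1 0 / (M : ℤ) : ℤ) : ZMod p) * ((γ 0 0 : ℤ) : ZMod p)⁻¹)

variable {M p}

theorem idx_mul_ediv {γ : SL(2, ℤ)} (hγ : γ ∈ Gamma0 M) :
    (M : ℤ) * (γ 1 0 / (M : ℤ)) = γ 1 0 :=
  Int.mul_ediv_cancel' ((p1_mem_Gamma0_iff M γ).mp hγ)

theorem idx_not_both_dvd (hp : p.Prime) {γ : SL(2, ℤ)} (hγ : γ ∈ Gamma0 M)
    (h1 : (p : ℤ) ∣ γ 0 0) (h2 : (p : ℤ) ∣ γ 1 0 / (M : ℤ)) : False := by
  have hc : (p : ℤ) ∣ γ 1 0 := by
    rw [← idx_mul_ediv hγ]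
    exact Dvd.dvd.mul_left h2 _
  have hcop := p1_isCoprime_col γ
  have hunit : IsUnit (p : ℤ) := hcop.isUnit_of_dvd' h1 hc
  have : (p : ℤ) = 1 ∨ (p : ℤ) = -1 := Int.isUnit_iff.mp hunit
  have hp2 := hp.two_le
  omega

/-- Coset criterion for `Γ₀(Mp)` inside `Γ₀(M)`. -/
theorem idx_rel_iff (hM : M ≠ 0) {γ γ' : SL(2, ℤ)} (hγ : γ ∈ Gamma0 M) (hγ' : γ' ∈ Gamma0 M) :
    γ⁻¹ * γ' ∈ Gamma0 (M * p) ↔
      (p : ℤ) ∣ γ 0 0 * (γ' 1 0 / (M : ℤ)) - γ' 0 0 * (γ 1 0 / (M : ℤ)) := by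
  rw [p1_mem_Gamma0_iff, p1_inv_mul_apply_10]
  have hM' : (M : ℤ) ≠ 0 := by exact_mod_cast hM
  have e : γ 0 0 * γ' 1 0 - γ' 0 0 * γ 1 0 =
      (M : ℤ) * (γ 0 0 * (γ' 1 0 / (M : ℤ)) - γ' 0 0 * (γ 1 0 / (M : ℤ))) := by
    conv_lhs => rw [← idx_mul_ediv hγ, ← idx_mul_ediv hγ']
    ring
  rw [e]
  push_cast
  exact mul_dvd_mul_iff_left hM'

theorem idx_inv_eq_iff (hp : p.Prime) {γ γ' : SL(2, ℤ)} (hγ : γ ∈ Gamma0 M)
    (hγ' : γ' ∈ Gamma0 M) :
    idxInv M p γ = idxInv M p γ' ↔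
      (p : ℤ) ∣ γ 0 0 * (γ' 1 0 / (M : ℤ)) - γ' 0 0 * (γ 1 0 / (M : ℤ)) := by
  haveI := Fact.mk hp
  have hpZ : Prime (p : ℤ) := Nat.prime_iff_prime_int.mp hp
  unfold idxInv
  by_cases h1 : (p : ℤ) ∣ γ 0 0 <;> by_cases h2 : (p : ℤ) ∣ γ' 0 0
  · rw [if_pos h1, if_pos h2]
    simp only [true_iff]
    exact dvd_sub (Dvd.dvd.mul_right h1 _) (Dvd.dvd.mul_right h2 _)
  · rw [if_pos h1, if_neg h2]
    simp only [reduceCtorEq, false_iff]
    intro h
    have h3 : (p : ℤ) ∣ γ' 0 0 * (γ 1 0 / (M : ℤ)) := by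
      have := dvd_sub (Dvd.dvd.mul_right h1 (γ' 1 0 / (M : ℤ))) h
      simpa using this
    rcases hpZ.dvd_or_dvd h3 with h4 | h4
    · exact h2 h4
    · exact idx_not_both_dvd hp hγ h1 h4
  · rw [if_neg h1, if_pos h2]
    simp only [reduceCtorEq, false_iff]
    intro h
    have h3 : (p : ℤ) ∣ γ 0 0 * (γ' 1 0 / (M : ℤ)) := by
      have := dvd_add h (Dvd.dvd.mul_right h2 (γ 1 0 / (M : ℤ)))
      simpa using this
    rcases hpZ.dvd_or_dvd h3 with h4 | h4
    · exact h1 h4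
    · exact idx_not_both_dvd hp hγ' h2 h4
  · rw [if_neg h1, if_neg h2, Option.some_inj]
    have ha : ((γ 0 0 : ℤ) : ZMod p) ≠ 0 := by
      rwa [Ne, ZMod.intCast_zmod_eq_zero_iff_dvd]
    have ha' : ((γ' 0 0 : ℤ) : ZMod p) ≠ 0 := by
      rwa [Ne, ZMod.intCast_zmod_eq_zero_iff_dvd]
    rw [← ZMod.intCast_zmod_eq_zero_iff_dvd]
    push_cast
    constructor
    · intro h
      have h' : ((γ 1 0 / (M : ℤ) : ℤ) : ZMod p) * ((γ' 0 0 : ℤ) : ZMod p) =
          ((γ' 1 0 / (M : ℤ) : ℤ) : ZMod p) * ((γ 0 0 : ℤ) : ZMod p) := by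
        field_simp at h
        linear_combination h
      linear_combination -h'
    · intro h
      field_simp
      linear_combination -h

/-- The invariant is never `none` when `p ∣ M`. -/
theorem idx_inv_ne_none_of_dvd (hp : p.Prime) (hpM : p ∣ M) {γ : SL(2, ℤ)} (hγ : γ ∈ Gamma0 M) :
    ¬ (p : ℤ) ∣ γ 0 0 := by
  intro h1
  have hc : (p : ℤ) ∣ γ 1 0 := by
    have h2 : (M : ℤ) ∣ γ 1 0 := (p1_mem_Gamma0_iff M γ).mp hγ
    exact (Int.natCast_dvd_natCast.mpr hpM).trans h2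
  have hunit : IsUnit (p : ℤ) := (p1_isCoprime_col γ).isUnit_of_dvd' h1 hc
  have : (p : ℤ) = 1 ∨ (p : ℤ) = -1 := Int.isUnit_iff.mp hunit
  have hp2 := hp.two_le
  omega

/-- The lower unipotent element realising the value `some t`. -/
def idxLower (M : ℕ) (n : ℤ) : SL(2, ℤ) :=
  ⟨!![1, 0; (M : ℤ) * n, 1], by simp [Matrix.det_fin_two]⟩

theorem idxLower_mem (M : ℕ) (n : ℤ) : idxLower M n ∈ Gamma0 M := by
  rw [p1_mem_Gamma0_iff]
  exact Dvd.intro _ rfl

theorem idx_inv_lower (hM : M ≠ 0) (hp : p.Prime) (t : ZMod p) :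
    idxInv M p (idxLower M (t.val : ℤ)) = some t := by
  haveI := Fact.mk hp
  have hM' : (M : ℤ) ≠ 0 := by exact_mod_cast hM
  have h00 : (idxLower M (t.val : ℤ)) 0 0 = 1 := rfl
  have h10 : (idxLower M (t.val : ℤ)) 1 0 = (M : ℤ) * (t.val : ℤ) := rfl
  have hnd : ¬ (p : ℤ) ∣ 1 := by
    intro h
    have : (p : ℤ) = 1 ∨ (p : ℤ) = -1 := Int.isUnit_iff.mp (isUnit_of_dvd_one h)
    have hp2 := hp.two_le
    omega
  unfold idxInv
  rw [h00, h10, if_neg hnd, Int.mul_ediv_cancel_left _ hM']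
  simp

theorem idx_exists_inv_none (hp : p.Prime) (hpM : ¬ p ∣ M) :
    ∃ γ : SL(2, ℤ), γ ∈ Gamma0 M ∧ idxInv M p γ = none := by
  have hcop : IsCoprime (p : ℤ) (M : ℤ) :=
    Nat.isCoprime_iff_coprime.mpr ((Nat.Prime.coprime_iff_not_dvd hp).mpr hpM)
  obtain ⟨γ, h0, h1⟩ := p1_exists_col hcop
  refine ⟨γ, ?_, ?_⟩
  · rw [p1_mem_Gamma0_iff, h1]
  · unfold idxInv
    rw [if_pos (by rw [h0])]

/-- The invariant, on the coset space of `Γ₀(Mp)` in `Γ₀(M)`. -/
noncomputable def idxInvQuot (hM : M ≠ 0) (hp : p.Prime) :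
    (Gamma0 M ⧸ (Gamma0 (M * p)).subgroupOf (Gamma0 M)) → Option (ZMod p) :=
  fun q => Quotient.liftOn' q (fun k => idxInv M p (k : SL(2, ℤ))) (by
    intro x y hxy
    rw [QuotientGroup.leftRel_apply, Subgroup.mem_subgroupOf] at hxy
    have hxy' : (x : SL(2, ℤ))⁻¹ * (y : SL(2, ℤ)) ∈ Gamma0 (M * p) := by simpa using hxy
    exact (idx_inv_eq_iff hp x.2 y.2).mpr ((idx_rel_iff hM x.2 y.2).mp hxy'))

theorem idxInvQuot_mk (hM : M ≠ 0) (hp : p.Prime) (k : Gamma0 M) :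
    idxInvQuot hM hp (QuotientGroup.mk k) = idxInv M p (k : SL(2, ℤ)) := rfl

theorem idxInvQuot_injective (hM : M ≠ 0) (hp : p.Prime) :
    Function.Injective (idxInvQuot (M := M) (p := p) hM hp) := by
  intro q q'
  induction q using QuotientGroup.induction_on with
  | _ x =>
    induction q' using QuotientGroup.induction_on with
    | _ y =>
      intro h
      rw [idxInvQuot_mk, idxInvQuot_mk] at h
      rw [QuotientGroup.eq, Subgroup.mem_subgroupOf]
      have := (idx_rel_iff (p := p) hM x.2 y.2).mpr ((idx_inv_eq_iff hp x.2 y.2).mp h)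
      simpa using this

/-- The relative index of `Γ₀(Mp)` in `Γ₀(M)`. -/
theorem idx_card_quot (hM : M ≠ 0) (hp : p.Prime) :
    Nat.card (Gamma0 M ⧸ (Gamma0 (M * p)).subgroupOf (Gamma0 M)) =
      if p ∣ M then p else p + 1 := by
  haveI := Fact.mk hp
  rw [← Nat.card_range_of_injective (idxInvQuot_injective hM hp)]
  have hsome : ∀ t : ZMod p, some t ∈ Set.range (idxInvQuot (M := M) (p := p) hM hp) := fun t =>
    ⟨QuotientGroup.mk ⟨idxLower M (t.val : ℤ), idxLower_mem M _⟩, by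
      rw [idxInvQuot_mk]; exact idx_inv_lower hM hp t⟩
  by_cases hpM : p ∣ M
  · rw [if_pos hpM]
    have hrange : Set.range (idxInvQuot (M := M) (p := p) hM hp) =
        Set.range (some : ZMod p → Option (ZMod p)) := by
      ext v
      constructor
      · rintro ⟨q, rfl⟩
        induction q using QuotientGroup.induction_on with
        | _ x =>
          rw [idxInvQuot_mk]
          unfold idxInv
          rw [if_neg (idx_inv_ne_none_of_dvd hp hpM x.2)]
          exact ⟨_, rfl⟩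
      · rintro ⟨t, rfl⟩
        exact hsome t
    rw [hrange, Nat.card_range_of_injective (Option.some_injective _), Nat.card_zmod]
  · rw [if_neg hpM]
    have hrange : Set.range (idxInvQuot (M := M) (p := p) hM hp) = Set.univ := by
      ext v
      simp only [Set.mem_univ, iff_true]
      cases v with
      | none =>
        obtain ⟨γ, hγ, hnone⟩ := idx_exists_inv_none hp hpM
        exact ⟨QuotientGroup.mk ⟨γ, hγ⟩, by rw [idxInvQuot_mk]; exact hnone⟩
      | some t => exact hsome t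
    rw [hrange, Nat.card_congr (Equiv.Set.univ _), Nat.card_eq_fintype_card, Fintype.card_option,
      ZMod.card]

/-- The index recursion. -/
theorem idx_index_mul (hM : M ≠ 0) (hp : p.Prime) :
    (Gamma0 (M * p)).index = (if p ∣ M then p else p + 1) * (Gamma0 M).index := by
  rw [← Subgroup.relIndex_mul_index (idx_Gamma0_le M p)]
  congr 1
  exact idx_card_quot hM hp

end relindex

/-- The index of `Γ₀(N)` in `SL(2,ℤ)` is the Dedekind psi function. -/
theorem idx_index_eq (N : ℕ) (hN : N ≠ 0) : (Gamma0 N).index = dedekindPsi N := by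
  induction N using Nat.strong_induction_on with
  | _ N ih =>
    by_cases h1 : N = 1
    · subst h1
      have htop : Gamma0 1 = ⊤ := by
        ext γ
        simp only [Subgroup.mem_top, iff_true]
        rw [p1_mem_Gamma0_iff, Nat.cast_one]
        exact one_dvd _
      rw [dedekindPsi_one, htop, Subgroup.index_top]
    · have hp : N.minFac.Prime := Nat.minFac_prime h1
      obtain ⟨M, hMdef⟩ : ∃ M, N = M * N.minFac :=
        ⟨N / N.minFac, (Nat.div_mul_cancel (Nat.minFac_dvd N)).symm⟩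
      have hM : M ≠ 0 := by
        rintro rfl
        rw [zero_mul] at hMdef
        exact hN hMdef
      have hlt : M < N := by
        conv_rhs => rw [hMdef]
        exact lt_mul_of_one_lt_right (Nat.pos_of_ne_zero hM) hp.one_lt
      have key : (Gamma0 (M * N.minFac)).index = dedekindPsi (M * N.minFac) := by
        rw [idx_index_mul hM hp, ih M hlt hM]
        by_cases hpM : N.minFac ∣ M
        · rw [if_pos hpM, idx_dedekindPsi_mul_of_dvd hM hp hpM, mul_comm]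
        · rw [if_neg hpM, idx_dedekindPsi_mul_of_not_dvd hM hp hpM, mul_comm]
      rw [← hMdef] at key
      exact key

/-- **S24 piece D1**: the number of cosets of `Γ₀(N)` in `SL(2,ℤ)` is the Dedekind psi
function. -/
theorem card_quot_Gamma0 (N : ℕ) [NeZero N] : Nat.card (SL(2, ℤ) ⧸ Gamma0 N) = dedekindPsi N :=
  idx_index_eq N (NeZero.ne N)

end Fermat.Agent.S24
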