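import Mathlib
import Fermat.Agent.S28.Defs

/-!
# S24, piece C2: the `j`-function is surjective

For every `c : ℂ` there is `τ` in the upper half plane with `E₄ τ ^ 3 = c * Δ τ`
(equivalently `j τ = c` for `j = E₄³/Δ`).

Proof: otherwise `E₄³ - c Δ` is a level-one modular form of weight `12` without zeros, tending to
`1` at `i∞`; its inverse is a level-one modular form of weight `-12`, hence zero. Contradiction.
-/

set_option autoImplicit false

open UpperHalfPlane ModularForm SlashInvariantForm SlashInvariantFormClass ModularFormClass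
  CuspFormClass MatrixGroups OnePoint Filter EisensteinSeries Asymptotics

open scoped Topology Manifold

noncomputable section

namespace Fermat.Agent.S24

local notation "Δ" => ModularForm.discriminant

/-- A level-one modular form tends to its constant `q`-coefficient at `i∞`. -/
theorem jsurj_tendsto_coeff_zero {k : ℤ} (f : ModularForm 𝒮ℒ k) :
    Tendsto (fun τ : ℍ => f τ) atImInfty (𝓝 ((qExpansion 1 f).coeff 0)) := by
  have han := ModularFormClass.analyticAt_cuspFunction_zero f one_pos one_mem_strictPeriods_SL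
  have h0 : (qExpansion 1 f).coeff 0 = cuspFunction 1 f 0 := by
    simp [qExpansion_coeff]
  rw [h0]
  have hcomp : (fun τ : ℍ => f τ) = (cuspFunction 1 f) ∘ (fun τ : ℍ => Function.Periodic.qParam 1 τ) := by
    funext τ
    exact (SlashInvariantFormClass.eq_cuspFunction f τ one_mem_strictPeriods_SL one_ne_zero).symm
  rw [hcomp]
  exact han.continuousAt.tendsto.comp (qParam_tendsto_atImInfty one_pos)

/-- `E₄³ - c Δ` as a level-one modular form of weight `12`. -/
def jsurjForm (c : ℂ) : ModularForm 𝒮ℒ 12 :=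
  ModularForm.mcast (by decide) (E₄.pow 3) - c • (CuspForm.discriminant : ModularForm 𝒮ℒ 12)

theorem jsurjForm_apply (c : ℂ) (τ : ℍ) : jsurjForm c τ = E₄ τ ^ 3 - c * Δ τ := by
  simp only [jsurjForm, coe_mcast, coe_pow, sub_apply, Pi.pow_apply]
  rfl

theorem jsurjForm_tendsto (c : ℂ) : Tendsto (fun τ : ℍ => jsurjForm c τ) atImInfty (𝓝 1) := by
  have h4 : Tendsto (fun τ : ℍ => E₄ τ) atImInfty (𝓝 1) := by
    have := jsurj_tendsto_coeff_zero E₄
    rwa [E_qExpansion_coeff_zero _ ⟨2, rfl⟩] at this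
  have hΔ : Tendsto (fun τ : ℍ => Δ τ) atImInfty (𝓝 0) := discriminant_isZeroAtImInfty
  have := (h4.pow 3).sub (hΔ.const_mul c)
  simp only [one_pow, mul_zero, sub_zero] at this
  refine this.congr fun τ => ?_
  rw [jsurjForm_apply]

/-- **Surjectivity of `j`**: for every `c` there is `τ` with `E₄(τ)³ = c Δ(τ)`. -/
theorem exists_E₄_cube_eq_mul_discriminant (c : ℂ) : ∃ τ : ℍ, E₄ τ ^ 3 = c * Δ τ := by
  by_contra hne
  push Not at hne
  have hF : ∀ τ : ℍ, jsurjForm c τ ≠ 0 := by
    intro τ h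
    rw [jsurjForm_apply, sub_eq_zero] at h
    exact hne τ h
  have hslash : ∀ γ : SL(2, ℤ),
      ((1 : ℍ → ℂ) / ⇑(jsurjForm c)) ∣[(0 : ℤ) - 12] γ = (1 : ℍ → ℂ) / ⇑(jsurjForm c) := by
    intro γ
    have hγ : (γ : GL (Fin 2) ℝ) ∈ 𝒮ℒ := ⟨γ, rfl⟩
    rw [div_slash_SL2, is_invariant_one, SL_slash, slash_action_eqn _ _ hγ]
  let G : ModularForm 𝒮ℒ (-12) :=
    { toFun := (1 : ℍ → ℂ) / ⇑(jsurjForm c)
      slash_action_eq' := fun _ ⟨γ, hγ⟩ ↦ hγ ▸ hslash γ
      holo' := (mdifferentiable_const).div (jsurjForm c).holo' hF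
      bdd_at_cusps' := fun {cc} hc => by
        rw [Subgroup.IsArithmetic.isCusp_iff_isCusp_SL2Z] at hc
        rw [isBoundedAt_iff_forall_SL2Z hc]
        intro γ _
        have := hslash γ
        rw [show ((0 : ℤ) - 12) = -12 by norm_num] at this
        rw [this]
        have ht : Tendsto ((1 : ℍ → ℂ) / ⇑(jsurjForm c)) atImInfty (𝓝 (1 / 1)) := by
          have := (tendsto_const_nhds (x := (1 : ℂ))).div (jsurjForm_tendsto c) one_ne_zero
          exact this
        exact ht.isBigO_one ℝ }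
  have hG : (⇑G : ℍ → ℂ) = 0 := levelOne_neg_weight_eq_zero (by norm_num) G
  have h1 := congr_fun hG UpperHalfPlane.I
  have h2 : G UpperHalfPlane.I = 1 / jsurjForm c UpperHalfPlane.I := rfl
  rw [h2] at h1
  simp only [Pi.zero_apply, one_div, inv_eq_zero] at h1
  exact hF _ h1

/-- **C2**: the `j`-function is surjective. -/
theorem Jfun_surjective : Function.Surjective Fermat.Agent.S28.Jfun := by
  intro c
  obtain ⟨τ, hτ⟩ := exists_E₄_cube_eq_mul_discriminant c
  exact ⟨τ, by rw [Fermat.Agent.S28.Jfun, hτ, mul_div_cancel_right₀ _ (discriminant_ne_zero τ)]⟩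

end Fermat.Agent.S24
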