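import Mathlib
import Fermat.Agent.S24.JSurj

/-!
# S24, piece C3: orders of `j` at `i`, `ρ` and at generic points

* `E₆ i = 0`, `E₄ ρ = 0`;
* the zeros of `E₄` and `E₆` are simple, via the weight-12 cusp form
  `2 E₄ D E₆ - 3 E₆ D E₄ = c Δ` with `c ≠ 0`;
* `D j = (c / 1728) E₄² E₆ / Δ`.
-/

set_option autoImplicit false

open UpperHalfPlane ModularForm SlashInvariantForm SlashInvariantFormClass ModularFormClass
  CuspFormClass MatrixGroups OnePoint Filter EisensteinSeries Asymptotics ModularGroup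

open scoped Topology Manifold Real

noncomputable section

namespace Fermat.Agent.S24

local notation "Δ" => ModularForm.discriminant

/-- Level-one modular forms: the functional equation under `SL(2, ℤ)`. -/
theorem jord_SL_eq {k : ℤ} (f : ModularForm 𝒮ℒ k) (γ : SL(2, ℤ)) (τ : ℍ) :
    f (γ • τ) = (denom γ τ) ^ k * f τ :=
  SlashInvariantForm.slash_action_eqn'' f (γ := (γ : GL (Fin 2) ℝ)) (MonoidHom.mem_range.mpr ⟨γ, rfl⟩) τ

/-- Level-one modular forms: the functional equation under `S`. -/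
theorem jord_S_eq {k : ℤ} (f : ModularForm 𝒮ℒ k) (τ : ℍ) :
    f (S • τ) = (τ : ℂ) ^ k * f τ := by
  have h := jord_SL_eq f S τ
  rwa [denom_S] at h

set_option backward.isDefEq.respectTransparency false in
theorem jord_denom_T (τ : ℍ) : denom T τ = 1 := by simp [T, ModularGroup.denom_apply]

/-- Level-one modular forms are invariant under `T`. -/
theorem jord_T_eq {k : ℤ} (f : ModularForm 𝒮ℒ k) (τ : ℍ) :
    f (T • τ) = f τ := by
  have h := jord_SL_eq f T τ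
  have hd : denom T τ = 1 := jord_denom_T τ
  rwa [hd, one_zpow, one_mul] at h

theorem jord_S_smul_I : S • UpperHalfPlane.I = UpperHalfPlane.I := by
  apply UpperHalfPlane.ext
  rw [modular_S_smul]
  simp

/-- `E₆ (i) = 0`. -/
theorem E₆_I : E₆ UpperHalfPlane.I = 0 := by
  have h := jord_S_eq E₆ UpperHalfPlane.I
  rw [jord_S_smul_I] at h
  have h6 : ((UpperHalfPlane.I : ℍ) : ℂ) ^ (6 : ℤ) = -1 := by
    rw [UpperHalfPlane.coe_I]
    norm_cast
    rw [show (6 : ℕ) = 2 * 3 by norm_num, pow_mul, Complex.I_sq]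
    norm_num
  rw [h6] at h
  have : (2 : ℂ) * E₆ UpperHalfPlane.I = 0 := by linear_combination h
  simpa using this

/-- The point `ρ = -1/2 + (√3/2) i`. -/
def rhoPt : ℍ := ⟨-1 / 2 + (Real.sqrt 3 / 2 : ℝ) * Complex.I, by
  simp⟩

theorem coe_rhoPt : (rhoPt : ℂ) = -1 / 2 + (Real.sqrt 3 / 2 : ℝ) * Complex.I := rfl

theorem rhoPt_sq : (rhoPt : ℂ) ^ 2 + (rhoPt : ℂ) + 1 = 0 := by
  rw [coe_rhoPt]
  have h3 : ((Real.sqrt 3 : ℝ) : ℂ) ^ 2 = 3 := by
    norm_cast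
    exact Real.sq_sqrt (by norm_num)
  push_cast
  linear_combination (-1 / 4 : ℂ) * h3 + ((Real.sqrt 3 : ℂ) ^ 2 / 4) * Complex.I_sq

theorem rhoPt_ne_zero : (rhoPt : ℂ) ≠ 0 := UpperHalfPlane.ne_zero rhoPt

theorem rhoPt_cube : (rhoPt : ℂ) ^ 3 = 1 := by
  linear_combination ((rhoPt : ℂ) - 1) * rhoPt_sq

theorem rhoPt_ne_one : (rhoPt : ℂ) ≠ 1 := by
  intro h
  have := rhoPt_sq
  rw [h] at this
  norm_num at this

theorem jord_S_smul_rho : S • rhoPt = T • rhoPt := by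
  apply UpperHalfPlane.ext
  rw [modular_S_smul, modular_T_smul]
  simp only [UpperHalfPlane.coe_vadd]
  have h0 := rhoPt_ne_zero
  have : (-(rhoPt : ℂ))⁻¹ = 1 + (rhoPt : ℂ) := by
    rw [inv_eq_iff_eq_inv, eq_comm, inv_eq_iff_eq_inv]
    rw [eq_comm, ← one_div, div_eq_iff (neg_ne_zero.mpr h0)]
    linear_combination rhoPt_sq
  simpa using this

/-- `E₄ (ρ) = 0`. -/
theorem E₄_rho : E₄ rhoPt = 0 := by
  have h := jord_S_eq E₄ rhoPt
  rw [jord_S_smul_rho, jord_T_eq] at h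
  have h4 : (rhoPt : ℂ) ^ (4 : ℤ) = rhoPt := by
    norm_cast
    rw [show (4 : ℕ) = 3 + 1 by norm_num, pow_succ, rhoPt_cube, one_mul]
  rw [h4] at h
  have : (1 - (rhoPt : ℂ)) * E₄ rhoPt = 0 := by linear_combination h
  rcases mul_eq_zero.mp this with h1 | h1
  · exact absurd (sub_eq_zero.mp h1).symm rhoPt_ne_one
  · exact h1

open Derivative in
/-- For a level-one modular form, `D f = q · g'(q)` where `g` is the cusp function. -/
theorem jord_D_eq {k : ℤ} (f : ModularForm 𝒮ℒ k) (τ : ℍ) :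
    D f τ = Function.Periodic.qParam 1 τ * deriv (cuspFunction 1 f) (Function.Periodic.qParam 1 τ) := by
  have hq : ‖Function.Periodic.qParam 1 (τ : ℂ)‖ < 1 :=
    Function.Periodic.norm_qParam_lt_one one_pos τ.im_pos
  have hg : DifferentiableAt ℂ (cuspFunction 1 f) (Function.Periodic.qParam 1 (τ : ℂ)) :=
    ModularFormClass.differentiableAt_cuspFunction f one_pos one_mem_strictPeriods_SL hq
  have hqd : HasDerivAt (Function.Periodic.qParam 1)
      (2 * π * Complex.I * Function.Periodic.qParam 1 (τ : ℂ)) (τ : ℂ) := by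
    have h1 : HasDerivAt (fun z : ℂ => 2 * π * Complex.I * z / (1 : ℝ)) (2 * π * Complex.I) (τ : ℂ) := by
      have := ((hasDerivAt_id (τ : ℂ)).const_mul (2 * π * Complex.I)).div_const ((1 : ℝ) : ℂ)
      simpa using this
    have := h1.cexp
    have h2 : HasDerivAt (fun x : ℂ => Complex.exp (2 * ↑π * Complex.I * x / ((1 : ℝ) : ℂ)))
        (2 * ↑π * Complex.I * Complex.exp (2 * ↑π * Complex.I * ↑τ / ((1 : ℝ) : ℂ))) ↑τ := by
      rw [show (2 * (π : ℂ) * Complex.I * Complex.exp (2 * ↑π * Complex.I * ↑τ / ((1 : ℝ) : ℂ)))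
        = Complex.exp (2 * ↑π * Complex.I * ↑τ / ((1 : ℝ) : ℂ)) * (2 * ↑π * Complex.I)
        from mul_comm _ _]
      exact this
    exact h2
  have hcomp : HasDerivAt ((cuspFunction 1 f) ∘ (Function.Periodic.qParam 1))
      (deriv (cuspFunction 1 f) (Function.Periodic.qParam 1 (τ : ℂ)) *
        (2 * π * Complex.I * Function.Periodic.qParam 1 (τ : ℂ))) (τ : ℂ) :=
    hg.hasDerivAt.comp (τ : ℂ) hqd
  have hev : ((f : ℍ → ℂ) ∘ ofComplex) =ᶠ[𝓝 (τ : ℂ)]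
      ((cuspFunction 1 f) ∘ (Function.Periodic.qParam 1)) := by
    filter_upwards [isOpen_upperHalfPlaneSet.mem_nhds τ.im_pos] with w hw
    have := SlashInvariantFormClass.eq_cuspFunction f ⟨w, hw⟩ one_mem_strictPeriods_SL one_ne_zero
    simp only [Function.comp_apply, ofComplex_apply_of_im_pos hw]
    exact this.symm
  have hd := (hcomp.congr_of_eventuallyEq hev).deriv
  simp only [normalizedDerivOfComplex]
  rw [hd]
  have hpi : (2 * (π : ℂ) * Complex.I) ≠ 0 := by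
    simp [Real.pi_ne_zero]
  field_simp

open Derivative in
/-- `D f → 0` at `i∞` for level-one modular forms. -/
theorem jord_D_tendsto_zero {k : ℤ} (f : ModularForm 𝒮ℒ k) :
    Tendsto (D (f : ℍ → ℂ)) atImInfty (𝓝 0) := by
  have han := ModularFormClass.analyticAt_cuspFunction_zero f one_pos one_mem_strictPeriods_SL
  have hq : Tendsto (fun τ : ℍ => Function.Periodic.qParam 1 (τ : ℂ)) atImInfty (𝓝 0) :=
    qParam_tendsto_atImInfty one_pos
  have hd : Tendsto (fun τ : ℍ => deriv (cuspFunction 1 f) (Function.Periodic.qParam 1 (τ : ℂ)))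
      atImInfty (𝓝 (deriv (cuspFunction 1 f) 0)) :=
    han.deriv.continuousAt.tendsto.comp hq
  have := hq.mul hd
  rw [zero_mul] at this
  refine this.congr fun τ => ?_
  rw [jord_D_eq]

open Derivative in
/-- The bracket `2 E₄ D E₆ - 3 E₆ D E₄`. -/
def jordW (τ : ℍ) : ℂ := 2 * E₄ τ * D (E₆ : ℍ → ℂ) τ - 3 * E₆ τ * D (E₄ : ℍ → ℂ) τ

open Derivative in
theorem jordW_eq_serre :
    jordW = (2 : ℂ) • ((E₄ : ℍ → ℂ) * serreDerivative 6 (E₆ : ℍ → ℂ))
      - (3 : ℂ) • ((E₆ : ℍ → ℂ) * serreDerivative 4 (E₄ : ℍ → ℂ)) := by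
  funext τ
  simp only [jordW, Pi.sub_apply, Pi.smul_apply, Pi.mul_apply, serreDerivative_apply, smul_eq_mul]
  ring

theorem jord_slash_eq {k : ℤ} (f : ModularForm 𝒮ℒ k) (γ : SL(2, ℤ)) :
    (f : ℍ → ℂ) ∣[k] γ = f := by
  rw [SL_slash]
  exact SlashInvariantForm.slash_action_eqn f _ (MonoidHom.mem_range.mpr ⟨γ, rfl⟩)

open Derivative in
theorem jordW_slash (γ : SL(2, ℤ)) : jordW ∣[(12 : ℤ)] γ = jordW := by
  have h6 : serreDerivative 6 (E₆ : ℍ → ℂ) ∣[(8 : ℤ)] γ = serreDerivative 6 (E₆ : ℍ → ℂ) := by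
    have := serreDerivative_slash_invariant (k := 6) (F := (E₆ : ℍ → ℂ)) E₆.holo' (γ := γ)
      (jord_slash_eq E₆ γ)
    simpa using this
  have h4 : serreDerivative 4 (E₄ : ℍ → ℂ) ∣[(6 : ℤ)] γ = serreDerivative 4 (E₄ : ℍ → ℂ) := by
    have := serreDerivative_slash_invariant (k := 4) (F := (E₄ : ℍ → ℂ)) E₄.holo' (γ := γ)
      (jord_slash_eq E₄ γ)
    simpa using this
  have e1 : ((E₄ : ℍ → ℂ) * serreDerivative 6 (E₆ : ℍ → ℂ)) ∣[(12 : ℤ)] γ
      = (E₄ : ℍ → ℂ) * serreDerivative 6 (E₆ : ℍ → ℂ) := by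
    have := mul_slash_SL2 4 8 γ (E₄ : ℍ → ℂ) (serreDerivative 6 (E₆ : ℍ → ℂ))
    rw [h6, jord_slash_eq E₄ γ] at this
    simpa using this
  have e2 : ((E₆ : ℍ → ℂ) * serreDerivative 4 (E₄ : ℍ → ℂ)) ∣[(12 : ℤ)] γ
      = (E₆ : ℍ → ℂ) * serreDerivative 4 (E₄ : ℍ → ℂ) := by
    have := mul_slash_SL2 6 6 γ (E₆ : ℍ → ℂ) (serreDerivative 4 (E₄ : ℍ → ℂ))
    rw [h4, jord_slash_eq E₆ γ] at this
    simpa using this
  rw [jordW_eq_serre, sub_eq_add_neg, SlashAction.add_slash, SlashAction.neg_slash,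
    SL_smul_slash, SL_smul_slash, e1, e2]

open Derivative in
theorem jordW_mdiff : MDiff jordW := by
  rw [jordW_eq_serre]
  exact ((E₄.holo'.mul (serreDerivative_mdifferentiable 6 E₆.holo')).const_smul (2 : ℂ)).sub
    ((E₆.holo'.mul (serreDerivative_mdifferentiable 4 E₄.holo')).const_smul (3 : ℂ))

open Derivative in
theorem jordW_tendsto : Tendsto jordW atImInfty (𝓝 0) := by
  have h4 : Tendsto (fun τ : ℍ => E₄ τ) atImInfty (𝓝 1) := by
    have := jsurj_tendsto_coeff_zero E₄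
    rwa [E_qExpansion_coeff_zero _ ⟨2, rfl⟩] at this
  have h6 : Tendsto (fun τ : ℍ => E₆ τ) atImInfty (𝓝 1) := by
    have := jsurj_tendsto_coeff_zero E₆
    rwa [E_qExpansion_coeff_zero _ ⟨3, rfl⟩] at this
  have d4 := jord_D_tendsto_zero E₄
  have d6 := jord_D_tendsto_zero E₆
  have := ((h4.const_mul 2).mul d6).sub ((h6.const_mul 3).mul d4)
  simp only [mul_one, mul_zero, sub_zero] at this
  exact this

/-- The bracket as a cusp form of weight 12. -/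
def jordWForm : CuspForm 𝒮ℒ 12 where
  toFun := jordW
  slash_action_eq' := fun _ ⟨γ, hγ⟩ ↦ hγ ▸ jordW_slash γ
  holo' := jordW_mdiff
  zero_at_cusps' := fun {c} hc => by
    rw [Subgroup.IsArithmetic.isCusp_iff_isCusp_SL2Z] at hc
    rw [OnePoint.isZeroAt_iff_forall_SL2Z hc]
    intro γ _
    rw [jordW_slash]
    exact jordW_tendsto

/-- `2 E₄ D E₆ - 3 E₆ D E₄ = c Δ` for a constant `c`. -/
theorem exists_jordW_eq : ∃ c : ℂ, ∀ τ : ℍ, jordW τ = c * Δ τ := by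
  obtain ⟨c, hc⟩ := CuspForm.exists_smul_discriminant_of_weight_eq_twelve jordWForm
  refine ⟨c, fun τ => ?_⟩
  have := congrArg (fun f : CuspForm 𝒮ℒ 12 => f τ) hc
  exact this.symm

/-- The `j`-function `E₄³ / Δ`. -/
def jordJ (τ : ℍ) : ℂ := E₄ τ ^ 3 / Δ τ

theorem jord_discriminant_mdiff : MDiff (Δ : ℍ → ℂ) := CuspForm.discriminant.holo'

theorem jordJ_mdiff : MDiff jordJ :=
  (E₄.holo'.pow 3).div jord_discriminant_mdiff discriminant_ne_zero

theorem jordJ_mul_discriminant (τ : ℍ) : jordJ τ * Δ τ = E₄ τ ^ 3 :=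
  div_mul_cancel₀ _ (discriminant_ne_zero τ)

theorem jordJ_sub (τ : ℍ) : jordJ τ - 1728 = E₆ τ ^ 2 / Δ τ := by
  rw [jordJ, eq_div_iff (discriminant_ne_zero τ), sub_mul, div_mul_cancel₀ _ (discriminant_ne_zero τ),
    discriminant_eq_E₄_cube_sub_E₆_sq]
  ring

theorem jordJ_eq_zero_iff (τ : ℍ) : jordJ τ = 0 ↔ E₄ τ = 0 := by
  rw [jordJ, div_eq_zero_iff]
  simp [discriminant_ne_zero τ]

theorem jordJ_eq_iff (τ : ℍ) : jordJ τ = 1728 ↔ E₆ τ = 0 := by
  rw [← sub_eq_zero, jordJ_sub, div_eq_zero_iff]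
  simp [discriminant_ne_zero τ]

theorem jordJ_rho : jordJ rhoPt = 0 := (jordJ_eq_zero_iff _).mpr E₄_rho

theorem jordJ_I : jordJ UpperHalfPlane.I = 1728 := (jordJ_eq_iff _).mpr E₆_I

open Derivative in
theorem jord_D_discriminant (τ : ℍ) :
    1728 * D Δ τ = 3 * E₄ τ ^ 2 * D (E₄ : ℍ → ℂ) τ - 2 * E₆ τ * D (E₆ : ℍ → ℂ) τ := by
  have hfun : (1728 : ℂ) • (Δ : ℍ → ℂ) = (E₄ : ℍ → ℂ) ^ 3 - (E₆ : ℍ → ℂ) ^ 2 := by
    funext τ
    simp only [Pi.smul_apply, Pi.sub_apply, Pi.pow_apply, smul_eq_mul]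
    rw [discriminant_eq_E₄_cube_sub_E₆_sq]
    ring
  have hΔmd : MDiff (Δ : ℍ → ℂ) := CuspForm.discriminant.holo'
  have h4 : MDiff (E₄ : ℍ → ℂ) := ModularFormClass.holo E₄
  have h6 : MDiff (E₆ : ℍ → ℂ) := ModularFormClass.holo E₆
  have h := congrArg (fun F => D F τ) hfun
  rw [normalizedDerivOfComplex_smul _ _ hΔmd,
    normalizedDerivOfComplex_sub _ _ (h4.pow 3) (h6.pow 2),
    normalizedDerivOfComplex_pow _ _ h4, normalizedDerivOfComplex_pow _ _ h6] at h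
  simp only [Pi.smul_apply, Pi.sub_apply, Pi.mul_apply, Pi.pow_apply, smul_eq_mul] at h
  rw [h]
  norm_num

open Derivative in
/-- The derivative of `j`: `1728 Δ² D j = E₄² E₆ (2 E₄ D E₆ - 3 E₆ D E₄)`. -/
theorem jordJ_D_identity (τ : ℍ) :
    1728 * Δ τ ^ 2 * D jordJ τ = E₄ τ ^ 2 * E₆ τ * jordW τ := by
  have h4 : MDiff (E₄ : ℍ → ℂ) := ModularFormClass.holo E₄
  have hfun : jordJ * (Δ : ℍ → ℂ) = (E₄ : ℍ → ℂ) ^ 3 := by
    funext τ
    simp only [Pi.mul_apply, Pi.pow_apply]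
    exact jordJ_mul_discriminant τ
  have h := congrArg (fun F => D F τ) hfun
  rw [normalizedDerivOfComplex_mul _ _ jordJ_mdiff jord_discriminant_mdiff,
    normalizedDerivOfComplex_pow _ _ h4] at h
  simp only [Pi.add_apply, Pi.mul_apply, Pi.pow_apply] at h
  have h' : D jordJ τ * Δ τ + jordJ τ * D Δ τ = 3 * E₄ τ ^ 2 * D (E₄ : ℍ → ℂ) τ := by
    rw [h]; norm_num
  have hd := jord_D_discriminant τ
  have hm := jordJ_mul_discriminant τ
  have hΔ := discriminant_eq_E₄_cube_sub_E₆_sq τ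
  have hΔ' : 1728 * Δ τ = E₄ τ ^ 3 - E₆ τ ^ 2 := by rw [hΔ]; ring
  simp only [jordW]
  linear_combination (1728 * Δ τ) * h' - (jordJ τ) * Δ τ * hd
    + (3 * E₄ τ ^ 2 * D (E₄ : ℍ → ℂ) τ) * hΔ'
    + (-(3 * E₄ τ ^ 2 * D (E₄ : ℍ → ℂ) τ - 2 * E₆ τ * D (E₆ : ℍ → ℂ) τ)) * hm

open Derivative in
/-- A holomorphic function on `ℍ` with `D F = 0` is constant. -/
theorem jord_const_of_D_eq_zero {F : ℍ → ℂ} (hF : MDiff F) (hD : ∀ τ : ℍ, D F τ = 0)
    (τ₁ τ₂ : ℍ) : F τ₁ = F τ₂ := by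
  have hdiff : DifferentiableOn ℂ (F ∘ ofComplex) upperHalfPlaneSet :=
    UpperHalfPlane.mdifferentiable_iff.mp hF
  have hderiv : upperHalfPlaneSet.EqOn (deriv (F ∘ ofComplex)) 0 := by
    intro z hz
    have h := hD ⟨z, hz⟩
    simp only [normalizedDerivOfComplex] at h
    have hpi : (2 * (π : ℂ) * Complex.I)⁻¹ ≠ 0 := by
      simp [Real.pi_ne_zero]
    rcases mul_eq_zero.mp h with h | h
    · exact absurd h hpi
    · simpa using h
  have hconv : IsPreconnected upperHalfPlaneSet := (convex_halfSpace_im_gt 0).isPreconnected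
  have := isOpen_upperHalfPlaneSet.is_const_of_deriv_eq_zero hconv hdiff hderiv
    (x := (τ₁ : ℂ)) (y := (τ₂ : ℂ)) τ₁.im_pos τ₂.im_pos
  simpa using this

/-- `2 E₄ D E₆ - 3 E₆ D E₄ = c Δ` with `c ≠ 0`. -/
theorem exists_jordW_eq_ne_zero : ∃ c : ℂ, c ≠ 0 ∧ ∀ τ : ℍ, jordW τ = c * Δ τ := by
  obtain ⟨c, hc⟩ := exists_jordW_eq
  refine ⟨c, ?_, hc⟩
  rintro rfl
  have hD : ∀ τ : ℍ, Derivative.normalizedDerivOfComplex jordJ τ = 0 := by
    intro τ
    have h := jordJ_D_identity τ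
    rw [hc τ, zero_mul, mul_zero] at h
    have hΔ := discriminant_ne_zero τ
    have h1728 : (1728 : ℂ) * Δ τ ^ 2 ≠ 0 := mul_ne_zero (by norm_num) (pow_ne_zero 2 hΔ)
    exact (mul_eq_zero.mp h).resolve_left h1728
  have := jord_const_of_D_eq_zero jordJ_mdiff hD UpperHalfPlane.I rhoPt
  rw [jordJ_I, jordJ_rho] at this
  norm_num at this

open Derivative in
/-- The zeros of `E₆` are simple. -/
theorem D_E₆_ne_zero {τ : ℍ} (h : E₆ τ = 0) : D (E₆ : ℍ → ℂ) τ ≠ 0 := by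
  obtain ⟨c, hc0, hc⟩ := exists_jordW_eq_ne_zero
  intro hD
  have := hc τ
  rw [jordW, h, hD] at this
  simp only [mul_zero, zero_mul, sub_zero] at this
  exact (mul_ne_zero hc0 (discriminant_ne_zero τ)) this.symm

open Derivative in
/-- The zeros of `E₄` are simple. -/
theorem D_E₄_ne_zero {τ : ℍ} (h : E₄ τ = 0) : D (E₄ : ℍ → ℂ) τ ≠ 0 := by
  obtain ⟨c, hc0, hc⟩ := exists_jordW_eq_ne_zero
  intro hD
  have := hc τ
  rw [jordW, h, hD] at this
  simp only [mul_zero, zero_mul, sub_zero] at this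
  exact (mul_ne_zero hc0 (discriminant_ne_zero τ)) this.symm

open Derivative in
/-- `D j ≠ 0` away from the zeros of `E₄` and `E₆`. -/
theorem D_jordJ_ne_zero {τ : ℍ} (h4 : E₄ τ ≠ 0) (h6 : E₆ τ ≠ 0) : D jordJ τ ≠ 0 := by
  obtain ⟨c, hc0, hc⟩ := exists_jordW_eq_ne_zero
  intro hD
  have h := jordJ_D_identity τ
  rw [hD, mul_zero, hc τ] at h
  have : E₄ τ ^ 2 * E₆ τ * (c * Δ τ) ≠ 0 :=
    mul_ne_zero (mul_ne_zero (pow_ne_zero 2 h4) h6) (mul_ne_zero hc0 (discriminant_ne_zero τ))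
  exact this h.symm

open Derivative in
/-- `D j ≠ 0` at points where `j ∉ {0, 1728}`. -/
theorem D_jordJ_ne_zero' {τ : ℍ} (h0 : jordJ τ ≠ 0) (h1 : jordJ τ ≠ 1728) : D jordJ τ ≠ 0 :=
  D_jordJ_ne_zero (fun h => h0 ((jordJ_eq_zero_iff τ).mpr h)) (fun h => h1 ((jordJ_eq_iff τ).mpr h))

/-! ## Orders of vanishing -/

theorem jord_analyticAt {F : ℍ → ℂ} (hF : MDiff F) (τ : ℍ) :
    AnalyticAt ℂ (fun z : ℂ => F (ofComplex z)) (τ : ℂ) := by
  have hdiff : DifferentiableOn ℂ (F ∘ ofComplex) upperHalfPlaneSet :=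
    UpperHalfPlane.mdifferentiable_iff.mp hF
  exact hdiff.analyticAt (isOpen_upperHalfPlaneSet.mem_nhds τ.im_pos)

open Derivative in
theorem jord_deriv_ne_zero {F : ℍ → ℂ} {τ : ℍ} (h : D F τ ≠ 0) :
    deriv (fun z : ℂ => F (ofComplex z)) (τ : ℂ) ≠ 0 := by
  intro h0
  apply h
  simp only [normalizedDerivOfComplex]
  rw [show (F ∘ ofComplex) = fun z : ℂ => F (ofComplex z) from rfl, h0, mul_zero]

open Derivative in
theorem jord_order_one {F : ℍ → ℂ} (hF : MDiff F) {τ : ℍ} (h0 : F τ = 0) (h : D F τ ≠ 0) :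
    analyticOrderAt (fun z : ℂ => F (ofComplex z)) (τ : ℂ) = 1 :=
  (jord_analyticAt hF τ).analyticOrderAt_eq_one_of_zero_deriv_ne_zero
    (by simpa using h0) (jord_deriv_ne_zero h)

theorem jord_order_zero {F : ℍ → ℂ} (hF : MDiff F) {τ : ℍ} (h0 : F τ ≠ 0) :
    analyticOrderAt (fun z : ℂ => F (ofComplex z)) (τ : ℂ) = 0 :=
  (jord_analyticAt hF τ).analyticOrderAt_eq_zero.mpr (by simpa using h0)

theorem jordJ_eq_Jfun : jordJ = Fermat.Agent.S28.Jfun := rfl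

theorem jord_discriminant_inv_mdiff : MDiff (fun τ : ℍ => (Δ τ)⁻¹) := by
  have h : (fun τ : ℍ => (Δ τ)⁻¹) = (fun _ : ℍ => (1 : ℂ)) / (Δ : ℍ → ℂ) := by
    funext τ
    simp
  rw [h]
  exact (mdifferentiable_const (c := (1 : ℂ))).div jord_discriminant_mdiff discriminant_ne_zero

/-- **C3, generic points**: `j - j(τ)` has a simple zero at `τ` when `j(τ) ∉ {0, 1728}`. -/
theorem Jfun_order_generic (τ : ℍ) (h0 : Fermat.Agent.S28.Jfun τ ≠ 0)
    (h1 : Fermat.Agent.S28.Jfun τ ≠ 1728) :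
    analyticOrderAt (fun z : ℂ => Fermat.Agent.S28.Jfun (ofComplex z) - Fermat.Agent.S28.Jfun τ)
      (τ : ℂ) = 1 := by
  have hD := D_jordJ_ne_zero' (τ := τ) h0 h1
  have han := jord_analyticAt jordJ_mdiff τ
  have := han.analyticOrderAt_sub_eq_one_of_deriv_ne_zero (jord_deriv_ne_zero hD)
  simpa [jordJ_eq_Jfun] using this

/-- **C3, the elliptic point of order 2**. -/
theorem exists_elliptic_S : ∃ τ : ℍ, S • τ = τ ∧ Fermat.Agent.S28.Jfun τ = 1728 ∧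
    analyticOrderAt (fun z : ℂ => Fermat.Agent.S28.Jfun (ofComplex z) - 1728) (τ : ℂ) ≤ 2 := by
  refine ⟨UpperHalfPlane.I, jord_S_smul_I, jordJ_I, ?_⟩
  have h6 : MDiff (E₆ : ℍ → ℂ) := ModularFormClass.holo E₆
  have hΔinv : MDiff (fun τ : ℍ => (Δ τ)⁻¹) := jord_discriminant_inv_mdiff
  have hfun : (fun z : ℂ => Fermat.Agent.S28.Jfun (ofComplex z) - 1728)
      = (fun z : ℂ => E₆ (ofComplex z)) ^ 2 * (fun z : ℂ => (Δ (ofComplex z))⁻¹) := by
    funext z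
    have := jordJ_sub (ofComplex z)
    simp only [Pi.mul_apply, Pi.pow_apply]
    rw [← jordJ_eq_Jfun, this, div_eq_mul_inv]
  rw [hfun, analyticOrderAt_mul ((jord_analyticAt h6 _).pow 2) (jord_analyticAt hΔinv _),
    analyticOrderAt_pow (jord_analyticAt h6 _),
    jord_order_one h6 E₆_I (D_E₆_ne_zero E₆_I),
    jord_order_zero hΔinv (inv_ne_zero (discriminant_ne_zero _))]
  simp

theorem jord_ST_smul_rho : (S * T) • rhoPt = rhoPt := by
  rw [mul_smul, ← jord_S_smul_rho]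
  apply UpperHalfPlane.ext
  rw [modular_S_smul, modular_S_smul]
  simp

/-- **C3, the elliptic point of order 3**. -/
theorem exists_elliptic_ST : ∃ τ : ℍ, (S * T) • τ = τ ∧ Fermat.Agent.S28.Jfun τ = 0 ∧
    analyticOrderAt (fun z : ℂ => Fermat.Agent.S28.Jfun (ofComplex z)) (τ : ℂ) ≤ 3 := by
  refine ⟨rhoPt, jord_ST_smul_rho, jordJ_rho, ?_⟩
  have h4 : MDiff (E₄ : ℍ → ℂ) := ModularFormClass.holo E₄
  have hΔinv : MDiff (fun τ : ℍ => (Δ τ)⁻¹) := jord_discriminant_inv_mdiff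
  have hfun : (fun z : ℂ => Fermat.Agent.S28.Jfun (ofComplex z))
      = (fun z : ℂ => E₄ (ofComplex z)) ^ 3 * (fun z : ℂ => (Δ (ofComplex z))⁻¹) := by
    funext z
    simp only [Pi.mul_apply, Pi.pow_apply]
    rw [Fermat.Agent.S28.Jfun, div_eq_mul_inv]
  rw [hfun, analyticOrderAt_mul ((jord_analyticAt h4 _).pow 3) (jord_analyticAt hΔinv _),
    analyticOrderAt_pow (jord_analyticAt h4 _),
    jord_order_one h4 E₄_rho (D_E₄_ne_zero E₄_rho),
    jord_order_zero hΔinv (inv_ne_zero (discriminant_ne_zero _))]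
  simp

end Fermat.Agent.S24
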