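import Fermat.Agent.S24.ModDefs
import Fermat.Agent.S28.Hermite

/-!
# S24 piece C5a: expansions with coefficients in `ℚ̄`, the `IsMod` API, and the expansion
homomorphism `modRing N → ℚ̄((t))`
-/

set_option autoImplicit false

open UpperHalfPlane ModularCurve Polynomial
open scoped MatrixGroups Manifold

noncomputable section

namespace Fermat.Agent.S24

open Fermat.Agent.S28 (Jfun scaleH HasQExp)

attribute [local instance] algKC

/-- Algebraic numbers lie in the range of the embedding `ℚ̄ → ℂ`. -/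
theorem mem_range_iotaK (z : ℂ) (hz : IsAlgebraic ℚ z) : z ∈ Set.range iotaK := by
  obtain ⟨p, hp0, hpz⟩ := hz
  have hcomp : iotaK.comp (algebraMap ℚ Kbar) = algebraMap ℚ ℂ := RingHom.ext_rat _ _
  set p' : Kbar[X] := p.map (algebraMap ℚ Kbar) with hp'
  have hp'0 : p' ≠ 0 := (Polynomial.map_ne_zero_iff (algebraMap ℚ Kbar).injective).mpr hp0
  have hsplit : p'.Splits := IsAlgClosed.splits p'
  have hroot : (p'.map iotaK).IsRoot z := by
    rw [Polynomial.IsRoot, hp', Polynomial.map_map, hcomp, Polynomial.eval_map]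
    exact hpz
  obtain ⟨a, ha⟩ := hsplit.mem_range_of_isRoot hp'0 hroot
  exact ⟨a, ha⟩

theorem coeffMap_iotaK_injective :
    Function.Injective (coeffMap iotaK : LaurentSeries Kbar → LaurentSeries ℂ) := by
  intro x y h
  ext n
  have := congrArg (fun s : LaurentSeries ℂ => s.coeff n) h
  simp only [coeffMap_coeff] at this
  exact iotaK_injective this

theorem HasKExp.unique {N : ℕ} [NeZero N] {g : ℍ → ℂ} {s s' : LaurentSeries Kbar}
    (h : HasKExp N g s) (h' : HasKExp N g s') : s = s' :=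
  coeffMap_iotaK_injective (Fermat.Agent.S28.HasQExp.unique h h')

theorem HasKExp.congr {N : ℕ} {g g' : ℍ → ℂ} {s : LaurentSeries Kbar} (h : HasKExp N g s)
    (hg : ∀ τ, g τ = g' τ) : HasKExp N g' s :=
  Fermat.Agent.S28.HasQExp.congr h hg

theorem hasKExp_const (N : ℕ) (c : Kbar) :
    HasKExp N (fun _ => iotaK c) (HahnSeries.C c) := by
  have h := Fermat.Agent.S28.hasQExp_const N (iotaK c)
  have e : coeffMap iotaK (HahnSeries.C c) = HahnSeries.C (iotaK c) := by
    rw [HahnSeries.C_apply, HahnSeries.C_apply, coeffMap_single]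
  unfold HasKExp
  rwa [e]

theorem HasKExp.add {N : ℕ} {g g' : ℍ → ℂ} {s s' : LaurentSeries Kbar} (h : HasKExp N g s)
    (h' : HasKExp N g' s') : HasKExp N (fun τ => g τ + g' τ) (s + s') := by
  unfold HasKExp
  rw [map_add]
  exact Fermat.Agent.S28.HasQExp.add h h'

theorem HasKExp.mul {N : ℕ} {g g' : ℍ → ℂ} {s s' : LaurentSeries Kbar} (h : HasKExp N g s)
    (h' : HasKExp N g' s') : HasKExp N (fun τ => g τ * g' τ) (s * s') := by
  unfold HasKExp
  rw [map_mul]
  exact Fermat.Agent.S28.HasQExp.mul h h'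

theorem isMod_const (N : ℕ) (c : Kbar) : IsMod N (fun _ => iotaK c) :=
  fun _ => ⟨HahnSeries.C c, hasKExp_const N c⟩

theorem IsMod.add {N : ℕ} {g g' : ℍ → ℂ} (h : IsMod N g) (h' : IsMod N g') :
    IsMod N (fun τ => g τ + g' τ) := by
  intro γ
  obtain ⟨s, hs⟩ := h γ
  obtain ⟨s', hs'⟩ := h' γ
  exact ⟨s + s', hs.add hs'⟩

theorem IsMod.mul {N : ℕ} {g g' : ℍ → ℂ} (h : IsMod N g) (h' : IsMod N g') :
    IsMod N (fun τ => g τ * g' τ) := by
  intro γ
  obtain ⟨s, hs⟩ := h γ
  obtain ⟨s', hs'⟩ := h' γ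
  exact ⟨s * s', hs.mul hs'⟩

theorem modring_zetaN_pow (N : ℕ) [NeZero N] : Fermat.Agent.S28.zetaN N ^ N = 1 := by
  have hN : (N : ℂ) ≠ 0 := by exact_mod_cast NeZero.ne N
  rw [Fermat.Agent.S28.zetaN, ← Complex.exp_nat_mul]
  have : (N : ℂ) * (2 * Real.pi * Complex.I / N) = 2 * Real.pi * Complex.I := by
    field_simp
  rw [this, Complex.exp_two_pi_mul_I]

/-- Powers of `ζ_N` come from units of `ℚ̄`. -/
theorem modring_exists_unit (N : ℕ) [NeZero N] (k : ℤ) :
    ∃ c : Kbarˣ, (Units.map (iotaK : Kbar →* ℂ) c : ℂ) = Fermat.Agent.S28.zetaN N ^ k := by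
  have hz0 : Fermat.Agent.S28.zetaN N ≠ 0 := Complex.exp_ne_zero _
  have hpow : (Fermat.Agent.S28.zetaN N ^ k) ^ N = 1 := by
    rw [← zpow_natCast, ← zpow_mul, mul_comm, zpow_mul, zpow_natCast, modring_zetaN_pow, one_zpow]
  have halg : IsAlgebraic ℚ (Fermat.Agent.S28.zetaN N ^ k) := by
    refine ⟨Polynomial.X ^ N - 1, ?_, ?_⟩
    · exact Polynomial.X_pow_sub_C_ne_zero (Nat.pos_of_ne_zero (NeZero.ne N)) (1 : ℚ)
    · simp [hpow]
  obtain ⟨c₀, hc₀⟩ := mem_range_iotaK _ halg
  have hc₀0 : c₀ ≠ 0 := by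
    rintro rfl
    rw [map_zero] at hc₀
    exact zpow_ne_zero k hz0 hc₀.symm
  exact ⟨Units.mk0 c₀ hc₀0, by simpa using hc₀⟩

theorem isMod_Jconj (N : ℕ) [NeZero N] (d : ℕ) [NeZero d] (hd : d ∣ N) (γ : SL(2, ℤ)) :
    IsMod N (Jconj d γ) := by
  intro γ'
  obtain ⟨a, d', _, _, b, -, had, hJ, -⟩ := Fermat.Agent.S28.exists_transform (γ * γ') d
  have hd'N : d' ∣ N := (Dvd.intro_left a had).trans hd
  have hNd' : N / d' ≠ 0 := by
    obtain ⟨e, he⟩ := hd'N
    have hd'0 : d' ≠ 0 := NeZero.ne d'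
    have he0 : e ≠ 0 := by
      rintro rfl
      exact NeZero.ne N (by simpa using he)
    rw [he, Nat.mul_div_cancel_left e (Nat.pos_of_ne_zero hd'0)]
    exact he0
  have : NeZero (a * (N / d')) := ⟨Nat.mul_ne_zero (NeZero.ne a) hNd'⟩
  obtain ⟨c, hc⟩ := modring_exists_unit N (b * ((N / d' : ℕ) : ℤ))
  have h1 := Fermat.Agent.S28.HasQExp.comp_of_tParam (M := 1) (N := N)
    Fermat.Agent.S28.hasQExp_Jfun (Fermat.Agent.S28.affH a d' b)
    (Units.map (iotaK : Kbar →* ℂ) c) (a * (N / d')) (fun τ => by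
      rw [hc]
      exact Fermat.Agent.S28.tParam_affH N a d' b hd'N τ)
  refine ⟨Fermat.Agent.S28.substQ c (a * (N / d')) (jqModC Kbar), ?_⟩
  unfold HasKExp
  rw [Fermat.Agent.S28.coeffMap_substQ, coeffMap_jqModC]
  refine h1.congr fun τ => ?_
  show Jfun (Fermat.Agent.S28.affH a d' b τ) = Jfun (scaleH d (γ • γ' • τ))
  rw [← hJ τ, mul_smul]

theorem isMod_of_mem_modRing {N : ℕ} [NeZero N] {g : ℍ → ℂ} (hg : g ∈ modRing N) :
    IsMod N g := by
  unfold modRing at hg
  induction hg using Algebra.adjoin_induction with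
  | mem x hx =>
    obtain ⟨d, _, γ, hd, rfl⟩ := hx
    exact isMod_Jconj N d hd γ
  | algebraMap r => exact isMod_const N r
  | add x y _ _ hx hy => exact hx.add hy
  | mul x y _ _ hx hy => exact hx.mul hy

/-- The expansion at `∞` of an element of `modRing N`. -/
theorem exists_hasKExp_of_mem_modRing {N : ℕ} [NeZero N] {g : ℍ → ℂ} (hg : g ∈ modRing N) :
    ∃ s : LaurentSeries Kbar, HasKExp N g s := by
  obtain ⟨s, hs⟩ := isMod_of_mem_modRing hg 1
  exact ⟨s, hs.congr fun τ => by rw [one_smul]⟩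

theorem mdifferentiable_of_mem_modRing {N : ℕ} [NeZero N] {g : ℍ → ℂ} (hg : g ∈ modRing N) :
    MDifferentiable 𝓘(ℂ) 𝓘(ℂ) g := by
  obtain ⟨s, hs⟩ := exists_hasKExp_of_mem_modRing hg
  exact Fermat.Agent.S28.HasQExp.mdifferentiable hs

theorem modring_substQ_one {A : Type*} [CommRing A] (m : ℕ) [NeZero m] (s : LaurentSeries A) :
    Fermat.Agent.S28.substQ (1 : Aˣ) m s = qExpand A m s := by
  unfold Fermat.Agent.S28.substQ
  congr 1
  ext n
  simp [Fermat.Agent.S28.twistQ_coeff]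

theorem hasKExp_Jconj_one (N : ℕ) [NeZero N] (d : ℕ) [NeZero d] :
    HasKExp N (Jconj d 1) (qExpand Kbar N (coeffEmb Kbar (qExpand ℚ d jq))) := by
  have : NeZero (N * d) := ⟨Nat.mul_ne_zero (NeZero.ne N) (NeZero.ne d)⟩
  have h1 := Fermat.Agent.S28.HasQExp.comp_of_tParam (M := 1) (N := N)
    Fermat.Agent.S28.hasQExp_Jfun (scaleH d) (1 : ℂˣ) (N * d) (fun τ => by
      rw [Units.val_one, one_mul]
      exact Fermat.Agent.S28.tParam_scaleH N d τ)
  rw [modring_substQ_one] at h1
  have e : coeffMap iotaK (qExpand Kbar N (coeffEmb Kbar (qExpand ℚ d jq))) =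
      qExpand ℂ (N * d) (jqModC ℂ) := by
    rw [coeffMap_qExpand, coeffEmb, coeffMap_coeffMap,
      coeffMap_congr (RingHom.ext_rat (iotaK.comp (algebraMap ℚ Kbar)) (algebraMap ℚ ℂ)),
      ← Fermat.Agent.S28.iotaN_qExpand_jq]
    rfl
  unfold HasKExp
  rw [e]
  refine h1.congr fun τ => ?_
  show Jfun (scaleH d τ) = Jfun (scaleH d ((1 : SL(2, ℤ)) • τ))
  rw [one_smul]

/-- The expansion at `∞` of an element of `modRing N` (as a function). -/
def expFun (N : ℕ) [NeZero N] (g : modRing N) : LaurentSeries Kbar :=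
  Classical.choose (exists_hasKExp_of_mem_modRing g.2)

theorem expFun_spec (N : ℕ) [NeZero N] (g : modRing N) :
    HasKExp N (g : ℍ → ℂ) (expFun N g) :=
  Classical.choose_spec (exists_hasKExp_of_mem_modRing g.2)

/-- The level-`N` expansion at `∞`, as a `ℚ̄`-algebra homomorphism. -/
def expHom (N : ℕ) [NeZero N] : modRing N →ₐ[Kbar] LaurentSeries Kbar where
  toFun := expFun N
  map_one' := by
    refine (expFun_spec N 1).unique ?_
    have h := hasKExp_const N (1 : Kbar)
    rw [map_one, map_one] at h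
    exact h
  map_mul' x y := by
    refine (expFun_spec N (x * y)).unique ?_
    exact (expFun_spec N x).mul (expFun_spec N y)
  map_zero' := by
    refine (expFun_spec N 0).unique ?_
    have h := hasKExp_const N (0 : Kbar)
    rw [map_zero, map_zero] at h
    exact h
  map_add' x y := by
    refine (expFun_spec N (x + y)).unique ?_
    exact (expFun_spec N x).add (expFun_spec N y)
  commutes' c := by
    refine (expFun_spec N (algebraMap Kbar (modRing N) c)).unique ?_
    have h := hasKExp_const N c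
    rw [algebraMap_laurentSeries_eq_single, ← HahnSeries.C_apply]
    exact h

theorem expHom_spec (N : ℕ) [NeZero N] (g : modRing N) :
    HasKExp N (g : ℍ → ℂ) (expHom N g) := expFun_spec N g

theorem expHom_injective (N : ℕ) [NeZero N] : Function.Injective (expHom N) := by
  rw [injective_iff_map_eq_zero]
  intro g hg
  have h := expHom_spec N g
  rw [hg] at h
  have h0 : ∀ τ, (g : ℍ → ℂ) τ = 0 := by
    intro τ
    have h1 : HasSum (fun n : ℤ => (coeffMap iotaK (0 : LaurentSeries Kbar)).coeff n *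
        Fermat.Agent.S28.tParam N τ ^ n) 0 := by
      simp
    exact (h τ).unique h1
  exact Subtype.ext (funext h0)

instance modRing_isDomain (N : ℕ) [NeZero N] : IsDomain (modRing N) :=
  (expHom_injective N).isDomain (expHom N : modRing N →+* LaurentSeries Kbar)

end Fermat.Agent.S24
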