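import Fermat.Agent.S24.ModActionBase
import Fermat.Agent.S24.ModRing
import Fermat.Agent.S28.LevelOne

/-!
# S24 piece C5b, part 2: invariants of the `SL₂(ℤ)`-action on `modRing N`

Invariants are polynomials in `j` (level-one `q`-expansion principle), and `T` preserves the
order of the expansion at `∞`.
-/

set_option autoImplicit false

open UpperHalfPlane ModularCurve Polynomial
open scoped MatrixGroups IntermediateField Manifold

noncomputable section

namespace Fermat.Agent.S24

open Fermat.Agent.S28 (Jfun scaleH HasQExp)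
open CongruenceSubgroup ModularGroup

attribute [local instance] algKC

/-- The expansion of `j` at level `N`. -/
theorem act_expHom_Jelt_one (N : ℕ) [NeZero N] :
    expHom N (Jelt N 1 (one_dvd N)) = Fermat.Agent.S28.jN Kbar N := by
  have h1 := expHom_spec N (Jelt N 1 (one_dvd N))
  have h2 := hasKExp_Jconj_one N 1
  have h3 := HasKExp.unique h1 h2
  rw [h3, qExpand_one_apply]
  show qExpand Kbar N (coeffMap (algebraMap ℚ Kbar) jq) = _
  rw [← jqModC_rat, coeffMap_jqModC]

/-- Invariants are polynomials in `j` (level-one `q`-expansion principle). -/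
theorem modRing_invariant (N : ℕ) [NeZero N] (g : modRing N)
    (h : ∀ γ : SL(2, ℤ), γ • g = g) :
    ∃ P : Kbar[X], g = Polynomial.aeval (Jelt N 1 (one_dvd N)) P := by
  have hinv : ∀ (γ : SL(2, ℤ)) (τ : ℍ), (g : ℍ → ℂ) (γ • τ) = (g : ℍ → ℂ) τ := by
    intro γ τ
    have h1 := congrArg (fun x : modRing N => (x : ℍ → ℂ) (γ • τ)) (h γ)
    simp only [act_smul_apply, inv_smul_smul] at h1
    exact h1.symm
  have hdiff := mdifferentiable_of_mem_modRing g.2
  have he : Function.Bijective (iotaK.rangeRestrict) :=
    ⟨fun x y hxy => iotaK_injective (congrArg Subtype.val hxy), iotaK.rangeRestrict_surjective⟩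
  have hs' : HasQExp N (g : ℍ → ℂ)
      (coeffMap (iotaK.range).subtype (coeffMap iotaK.rangeRestrict (expHom N g))) := by
    rw [coeffMap_coeffMap]
    exact expHom_spec N g
  obtain ⟨P', hP'⟩ := Fermat.Agent.S28.levelOne_eq_poly N iotaK.range (g : ℍ → ℂ) hdiff hinv
    (coeffMap iotaK.rangeRestrict (expHom N g)) hs'
  refine ⟨P'.map ((RingEquiv.ofBijective _ he).symm : iotaK.range →+* Kbar), ?_⟩
  apply expHom_injective N
  rw [← Polynomial.aeval_algHom_apply, act_expHom_Jelt_one]
  apply act_coeffMap_injective _ he.1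
  have hC : algebraMap Kbar (LaurentSeries Kbar) = HahnSeries.C := by
    refine RingHom.ext fun x => ?_
    rw [algebraMap_laurentSeries_eq_single, HahnSeries.C_apply]
  rw [hP', Polynomial.aeval_def, hC,
    Fermat.Agent.S28.coeffMap_eval₂_jN, Polynomial.map_map]
  congr 1
  conv_lhs => rw [← Polynomial.map_id (p := P')]
  congr 1
  refine RingHom.ext fun x => ?_
  exact ((RingEquiv.ofBijective _ he).apply_symm_apply x).symm

/-- `T` preserves the order of the expansion at `∞`. -/
theorem order_expHom_T_smul (N : ℕ) [NeZero N] (g : modRing N) :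
    (expHom N (T • g)).order = (expHom N g).order := by
  obtain ⟨x, hx⟩ := mem_range_iotaK _ (act_zetaN_inv_isAlgebraic N)
  have hz0 : (Fermat.Agent.S28.zetaN N)⁻¹ ≠ 0 := inv_ne_zero (Complex.exp_ne_zero _)
  have hx0 : x ≠ 0 := by
    rintro rfl
    rw [map_zero] at hx
    exact hz0 hx.symm
  have hK : HasKExp N ((T • g : modRing N) : ℍ → ℂ)
      (Fermat.Agent.S28.substQ (Units.mk0 x hx0) 1 (expHom N g)) := by
    unfold HasKExp
    rw [Fermat.Agent.S28.coeffMap_substQ]
    have h1 := (expHom_spec N g)
    unfold HasKExp at h1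
    exact h1.comp_of_tParam (N := N) (fun τ => (T : SL(2, ℤ))⁻¹ • τ)
      (Units.map (iotaK : Kbar →* ℂ) (Units.mk0 x hx0)) 1
      (fun τ => by
        rw [Units.coe_map, Units.val_mk0]
        show _ = iotaK x * _
        rw [hx]
        exact act_tParam_T_inv N τ)
  have h3 := HasKExp.unique (expHom_spec N (T • g)) hK
  rw [h3, Fermat.Agent.S28.substQ, qExpand_one_apply, act_order_twistQ]

end Fermat.Agent.S24
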