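import Fermat.Agent.S24.ModDefs
import Fermat.Agent.S28.Hermite

/-!
# S24 piece C5b, part 1: the `SL₂(ℤ)`-action on `modRing N`

The action `(γ • f)(τ) = f(γ⁻¹τ)` on `modRing N`, invariance of the generators `J(dτ)` under
`Γ₀(N)`, triviality of the action of `Γ(N)` and `-1`, and the computation of the stabiliser
of `J(Nτ)`.  (The statements using the expansion homomorphism of C5a are in `ModAction.lean`.)
-/

set_option autoImplicit false

open UpperHalfPlane ModularCurve Polynomial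
open scoped MatrixGroups IntermediateField Manifold

noncomputable section

namespace Fermat.Agent.S24

open Fermat.Agent.S28 (Jfun scaleH HasQExp)
open CongruenceSubgroup ModularGroup

attribute [local instance] algKC

/-! ### The action on functions -/

theorem act_actFun_one (f : ℍ → ℂ) : actFun 1 f = f := by
  funext τ
  simp [actFun]

theorem act_actFun_mul (γ₁ γ₂ : SL(2, ℤ)) (f : ℍ → ℂ) :
    actFun (γ₁ * γ₂) f = actFun γ₁ (actFun γ₂ f) := by
  funext τ
  simp [actFun, mul_inv_rev, mul_smul]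

theorem act_actFun_Jconj (γ γ' : SL(2, ℤ)) (d : ℕ) [NeZero d] :
    actFun γ (Jconj d γ') = Jconj d (γ' * γ⁻¹) := by
  funext τ
  simp [actFun, Jconj, mul_smul]

theorem actFun_mem_modRing {N : ℕ} (γ : SL(2, ℤ)) {g : ℍ → ℂ} (hg : g ∈ modRing N) :
    actFun γ g ∈ modRing N := by
  unfold modRing at hg ⊢
  induction hg using Algebra.adjoin_induction with
  | mem x hx =>
    obtain ⟨d, hd0, γ', hd, rfl⟩ := hx
    rw [act_actFun_Jconj]
    exact Algebra.subset_adjoin ⟨d, hd0, γ' * γ⁻¹, hd, rfl⟩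
  | algebraMap r =>
    have h : actFun γ (algebraMap Kbar (ℍ → ℂ) r) = algebraMap Kbar (ℍ → ℂ) r := rfl
    rw [h]
    exact Subalgebra.algebraMap_mem _ r
  | add x y hx hy hx' hy' =>
    have h : actFun γ (x + y) = actFun γ x + actFun γ y := rfl
    rw [h]
    exact add_mem hx' hy'
  | mul x y hx hy hx' hy' =>
    have h : actFun γ (x * y) = actFun γ x * actFun γ y := rfl
    rw [h]
    exact mul_mem hx' hy'

instance modRingAction (N : ℕ) : MulSemiringAction SL(2, ℤ) (modRing N) where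
  smul γ g := ⟨actFun γ g, actFun_mem_modRing γ g.2⟩
  one_smul _ := Subtype.ext (act_actFun_one _)
  mul_smul _ _ _ := Subtype.ext (act_actFun_mul _ _ _)
  smul_zero _ := Subtype.ext rfl
  smul_add _ _ _ := Subtype.ext rfl
  smul_one _ := Subtype.ext rfl
  smul_mul _ _ _ := Subtype.ext rfl

theorem coe_smul_modRing {N : ℕ} (γ : SL(2, ℤ)) (g : modRing N) :
    ((γ • g : modRing N) : ℍ → ℂ) = actFun γ (g : ℍ → ℂ) := rfl

instance modRing_smulCommClass (N : ℕ) : SMulCommClass SL(2, ℤ) Kbar (modRing N) :=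
  ⟨fun _ _ _ => Subtype.ext rfl⟩

/-! ### Invariants are polynomials in `j` -/

theorem act_smul_apply {N : ℕ} (γ : SL(2, ℤ)) (g : modRing N) (τ : ℍ) :
    ((γ • g : modRing N) : ℍ → ℂ) τ = (g : ℍ → ℂ) (γ⁻¹ • τ) := rfl

theorem act_coeffMap_injective {A B : Type*} [CommRing A] [CommRing B] (f : A →+* B)
    (hf : Function.Injective f) : Function.Injective (coeffMap f) := by
  intro x y h
  ext n
  have h1 := congrArg (fun s => HahnSeries.coeff s n) h
  simp only [coeffMap_coeff] at h1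
  exact hf h1

/-! ### Invariance of the generators -/

theorem smul_Jelt_of_mem_Gamma0 (N : ℕ) [NeZero N] (d : ℕ) [NeZero d] (hd : d ∣ N)
    (γ : SL(2, ℤ)) (hγ : γ ∈ Gamma0 N) : γ • Jelt N d hd = Jelt N d hd := by
  apply Subtype.ext
  funext τ
  show Jfun (scaleH d ((1 : SL(2, ℤ)) • γ⁻¹ • τ)) = Jfun (scaleH d ((1 : SL(2, ℤ)) • τ))
  rw [one_smul, one_smul]
  exact Fermat.Agent.S28.Jfun_scaleH_smul N d hd γ⁻¹ (inv_mem hγ) τ

theorem act_Gamma_le_Gamma0 (N : ℕ) : Gamma N ≤ Gamma0 N := by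
  intro γ hγ
  rw [Gamma_mem] at hγ
  rw [Gamma0_mem]
  exact hγ.2.2.1

/-- The principal congruence subgroup acts trivially (so the image of `SL₂(ℤ)` is finite). -/
theorem smul_modRing_of_mem_Gamma (N : ℕ) [NeZero N] (γ : SL(2, ℤ)) (hγ : γ ∈ Gamma N)
    (g : modRing N) : γ • g = g := by
  apply Subtype.ext
  show actFun γ (g : ℍ → ℂ) = (g : ℍ → ℂ)
  have hg := g.2
  generalize (g : ℍ → ℂ) = f at hg
  unfold modRing at hg
  induction hg using Algebra.adjoin_induction with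
  | mem x hx =>
    obtain ⟨d, hd0, γ', hd, rfl⟩ := hx
    rw [act_actFun_Jconj]
    funext τ
    show Jfun (scaleH d ((γ' * γ⁻¹) • τ)) = Jfun (scaleH d (γ' • τ))
    have hnorm : γ' * γ⁻¹ * γ'⁻¹ ∈ Gamma N :=
      (Gamma_normal (N := N)).conj_mem _ (inv_mem hγ) γ'
    have h1 : (γ' * γ⁻¹) • τ = (γ' * γ⁻¹ * γ'⁻¹) • (γ' • τ) := by
      rw [← mul_smul, inv_mul_cancel_right]
    rw [h1]
    exact Fermat.Agent.S28.Jfun_scaleH_smul N d hd _ (act_Gamma_le_Gamma0 N hnorm) (γ' • τ)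
  | algebraMap r => rfl
  | add x y hx hy hx' hy' =>
    have h : actFun γ (x + y) = actFun γ x + actFun γ y := rfl
    rw [h, hx', hy']
  | mul x y hx hy hx' hy' =>
    have h : actFun γ (x * y) = actFun γ x * actFun γ y := rfl
    rw [h, hx', hy']

theorem neg_one_smul_modRing (N : ℕ) [NeZero N] (g : modRing N) :
    (-1 : SL(2, ℤ)) • g = g := by
  apply Subtype.ext
  funext τ
  show (g : ℍ → ℂ) ((-1 : SL(2, ℤ))⁻¹ • τ) = (g : ℍ → ℂ) τ
  have h1 : (-1 : SL(2, ℤ))⁻¹ = -1 := by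
    rw [inv_eq_iff_eq_inv, eq_comm, inv_eq_iff_mul_eq_one]
    simp
  rw [h1, SL_neg_smul, one_smul]

/-! ### The stabiliser of `J(Nτ)` -/

theorem act_isLeading_jqModC : Fermat.Agent.S28.IsLeading (jqModC ℂ) (-1) 1 := by
  refine ⟨?_, fun n hn => ?_⟩
  · have h := coeff_jqModC_pow_self ℂ 1
    rwa [pow_one] at h
  · have h := coeff_jqModC_pow_of_lt ℂ (b := 1) (m := n) (by rw [Nat.cast_one]; exact hn)
    rwa [pow_one] at h

theorem mem_Gamma0_of_smul_Jelt (N : ℕ) [NeZero N] (γ : SL(2, ℤ))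
    (h : γ • Jelt N N dvd_rfl = Jelt N N dvd_rfl) : γ ∈ Gamma0 N := by
  have hfun : ∀ τ : ℍ, Jfun (scaleH N (γ⁻¹ • τ)) = Jfun (scaleH N τ) := by
    intro τ
    have h1 := congrArg (fun x : modRing N => (x : ℍ → ℂ) τ) h
    simp only [act_smul_apply] at h1
    have h2 : Jfun (scaleH N ((1 : SL(2, ℤ)) • γ⁻¹ • τ)) =
        Jfun (scaleH N ((1 : SL(2, ℤ)) • τ)) := h1
    rwa [one_smul, one_smul] at h2
  obtain ⟨a, d', ha, hd', b, hag, had, hJ, -⟩ := Fermat.Agent.S28.exists_transform γ⁻¹ N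
  have := ha
  have := hd'
  have hd'N : d' ∣ N := Dvd.intro_left a had
  have hNd' : N / d' = a :=
    Nat.div_eq_of_eq_mul_left (Nat.pos_of_ne_zero (NeZero.ne d')) had.symm
  have hm0 : a * (N / d') ≠ 0 := by
    rw [hNd']
    exact Nat.mul_ne_zero (NeZero.ne a) (NeZero.ne a)
  have : NeZero (a * (N / d')) := ⟨hm0⟩
  have hz0 : Fermat.Agent.S28.zetaN N ^ (b * ((N / d' : ℕ) : ℤ)) ≠ 0 :=
    zpow_ne_zero _ (Complex.exp_ne_zero _)
  have h1 : HasQExp N (fun τ => Jfun (Fermat.Agent.S28.affH a d' b τ))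
      (Fermat.Agent.S28.substQ (Units.mk0 _ hz0) (a * (N / d')) (jqModC ℂ)) :=
    Fermat.Agent.S28.hasQExp_Jfun.comp_of_tParam (N := N) (Fermat.Agent.S28.affH a d' b)
      (Units.mk0 _ hz0) (a * (N / d'))
      (fun τ => by rw [Units.val_mk0]; exact Fermat.Agent.S28.tParam_affH N a d' b hd'N τ)
  have : NeZero (N * N) := ⟨Nat.mul_ne_zero (NeZero.ne N) (NeZero.ne N)⟩
  have h2 : HasQExp N (fun τ => Jfun (scaleH N τ))
      (Fermat.Agent.S28.substQ (1 : ℂˣ) (N * N) (jqModC ℂ)) :=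
    Fermat.Agent.S28.hasQExp_Jfun.comp_of_tParam (N := N) (scaleH N) (1 : ℂˣ) (N * N)
      (fun τ => by rw [Units.val_one, one_mul]; exact Fermat.Agent.S28.tParam_scaleH N N τ)
  have heq := (h1.congr (fun τ => ((hJ τ).symm.trans (hfun τ)))).unique h2
  have hL1 := act_isLeading_jqModC.substQ (Units.mk0 _ hz0) (a * (N / d'))
  have hL2 := act_isLeading_jqModC.substQ (1 : ℂˣ) (N * N)
  have ho1 := hL1.order_eq (by rw [mul_one]; exact Units.ne_zero _)
  have ho2 := hL2.order_eq (by rw [mul_one]; exact Units.ne_zero _)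
  rw [heq, ho2, hNd'] at ho1
  have haa : a * a = N * N := by
    have h3 : ((N * N : ℕ) : ℤ) = ((a * a : ℕ) : ℤ) := by linarith
    exact_mod_cast h3.symm
  have haN : a = N := Nat.mul_self_inj.mp haa
  have hdvd : (N : ℤ) ∣ (γ⁻¹ : SL(2, ℤ)) 1 0 := by
    have h4 : ((Int.gcd ((γ⁻¹ : SL(2, ℤ)) 1 0) (N : ℤ) : ℕ) : ℤ) ∣ (γ⁻¹ : SL(2, ℤ)) 1 0 :=
      Int.gcd_dvd_left _ _
    rwa [← hag, haN] at h4
  have hmem : γ⁻¹ ∈ Gamma0 N := by
    rw [Gamma0_mem]
    exact (ZMod.intCast_zmod_eq_zero_iff_dvd _ N).mpr hdvd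
  simpa using inv_mem hmem

/-! ### The translation `T` preserves the order at `∞` -/

theorem act_order_twistQ {A : Type*} [CommRing A] (c : Aˣ) (s : LaurentSeries A) :
    (Fermat.Agent.S28.twistQ c s).order = s.order := by
  have hiff : ∀ n : ℤ, (Fermat.Agent.S28.twistQ c s).coeff n = 0 ↔ s.coeff n = 0 := by
    intro n
    rw [Fermat.Agent.S28.twistQ_coeff]
    exact (Units.mul_right_eq_zero _)
  by_cases hs : s = 0
  · have h0 : Fermat.Agent.S28.twistQ c s = 0 := by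
      ext n
      change (Fermat.Agent.S28.twistQ c s).coeff n = 0
      rw [hiff n, hs]
      rfl
    rw [h0, hs]
  · have hs' : Fermat.Agent.S28.twistQ c s ≠ 0 := by
      intro h0
      apply hs
      ext n
      have h1 : (Fermat.Agent.S28.twistQ c s).coeff n = 0 := by rw [h0]; rfl
      exact (hiff n).mp h1
    apply le_antisymm
    · exact HahnSeries.order_le_of_coeff_ne_zero
        (fun h0 => hs (HahnSeries.coeff_order_eq_zero.mp ((hiff _).mp h0)))
    · exact HahnSeries.order_le_of_coeff_ne_zero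
        (fun h0 => hs' (HahnSeries.coeff_order_eq_zero.mp ((hiff _).mpr h0)))

theorem act_tParam_T_inv (N : ℕ) [NeZero N] (τ : ℍ) :
    Fermat.Agent.S28.tParam N ((T : SL(2, ℤ))⁻¹ • τ) =
      (Fermat.Agent.S28.zetaN N)⁻¹ * Fermat.Agent.S28.tParam N τ ^ 1 := by
  have hN : (N : ℂ) ≠ 0 := Nat.cast_ne_zero.mpr (NeZero.ne N)
  rw [pow_one]
  unfold Fermat.Agent.S28.tParam Fermat.Agent.S28.zetaN
  rw [← zpow_neg_one, modular_T_zpow_smul, ← Complex.exp_neg, ← Complex.exp_add]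
  congr 1
  rw [UpperHalfPlane.coe_vadd]
  push_cast
  field_simp

theorem act_zetaN_inv_isAlgebraic (N : ℕ) [NeZero N] :
    IsAlgebraic ℚ (Fermat.Agent.S28.zetaN N)⁻¹ := by
  have hN : (N : ℂ) ≠ 0 := Nat.cast_ne_zero.mpr (NeZero.ne N)
  have h1 : (Fermat.Agent.S28.zetaN N)⁻¹ ^ N = 1 := by
    rw [inv_pow, inv_eq_one]
    unfold Fermat.Agent.S28.zetaN
    rw [← Complex.exp_nat_mul, mul_div_cancel₀ _ hN]
    exact Complex.exp_two_pi_mul_I
  have h2 : IsIntegral ℚ ((Fermat.Agent.S28.zetaN N)⁻¹ ^ N) := by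
    rw [h1]
    exact isIntegral_one
  exact (IsIntegral.of_pow (Nat.pos_of_ne_zero (NeZero.ne N)) h2).isAlgebraic

end Fermat.Agent.S24
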