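import Fermat.Agent.S24.ModRing
import Fermat.Agent.S24.ModActionBase
import Fermat.Agent.S24.ModAction

/-!
# S24 (C5c, first half): the field `L = Frac (modRing N)` with its `SL₂(ℤ)`-action
-/

set_option autoImplicit false

open UpperHalfPlane ModularCurve Polynomial
open scoped MatrixGroups IntermediateField

noncomputable section

namespace Fermat.Agent.S24

open CongruenceSubgroup ModularGroup

attribute [local instance] algKC

/-- The Galois closure, as an abstract field. -/
abbrev ModL (N : ℕ) [NeZero N] : Type := FractionRing (modRing N)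

instance modLAction (N : ℕ) [NeZero N] : MulSemiringAction SL(2, ℤ) (ModL N) :=
  IsFractionRing.mulSemiringAction SL(2, ℤ) (modRing N) (ModL N)

theorem smul_algebraMap_modL (N : ℕ) [NeZero N] (γ : SL(2, ℤ)) (g : modRing N) :
    γ • algebraMap (modRing N) (ModL N) g = algebraMap (modRing N) (ModL N) (γ • g) :=
  IsFractionRing.ringEquivOfRingEquiv_algebraMap _ _

instance modL_smulCommClass (N : ℕ) [NeZero N] : SMulCommClass SL(2, ℤ) Kbar (ModL N) :=
  ⟨fun γ c f => by
    rw [Algebra.smul_def, Algebra.smul_def, smul_mul']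
    congr 1
    rw [IsScalarTower.algebraMap_apply Kbar (modRing N) (ModL N), smul_algebraMap_modL]
    apply congrArg
    rw [Algebra.algebraMap_eq_smul_one, smul_comm, smul_one]⟩

/-- The action as a homomorphism to `ℚ̄`-algebra automorphisms. -/
def rhoL (N : ℕ) [NeZero N] : SL(2, ℤ) →* (ModL N ≃ₐ[Kbar] ModL N) :=
  MulSemiringAction.toAlgAut SL(2, ℤ) Kbar (ModL N)

theorem modfield_rhoL_apply (N : ℕ) [NeZero N] (γ : SL(2, ℤ)) (f : ModL N) :
    rhoL N γ f = γ • f := rfl

theorem modfield_smul_of_mem_Gamma (N : ℕ) [NeZero N] (γ : SL(2, ℤ)) (hγ : γ ∈ Gamma N)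
    (f : ModL N) : γ • f = f := by
  obtain ⟨a, b, hb, rfl⟩ := IsFractionRing.div_surjective (A := modRing N) f
  rw [smul_div₀', smul_algebraMap_modL, smul_algebraMap_modL,
    smul_modRing_of_mem_Gamma N γ hγ, smul_modRing_of_mem_Gamma N γ hγ]

theorem finite_range_rhoL (N : ℕ) [NeZero N] : Finite (rhoL N).range := by
  have hker : Gamma N ≤ (rhoL N).ker := by
    intro γ hγ
    rw [MonoidHom.mem_ker]
    ext f
    exact modfield_smul_of_mem_Gamma N γ hγ f
  have hfin : (Gamma N).FiniteIndex := inferInstance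
  have hfin2 : (rhoL N).ker.FiniteIndex := Subgroup.finiteIndex_of_le hker
  have hfin3 : Finite (SL(2, ℤ) ⧸ (rhoL N).ker) := Subgroup.finite_quotient_of_finiteIndex
  exact Finite.of_equiv _ (QuotientGroup.quotientKerEquivRange (rhoL N)).toEquiv

/-- `j` as an element of `L`. -/
def jL (N : ℕ) [NeZero N] : ModL N := algebraMap (modRing N) (ModL N) (Jelt N 1 (one_dvd N))

theorem modfield_aeval_mem (N : ℕ) [NeZero N] (P : Kbar[X]) :
    algebraMap (modRing N) (ModL N) (Polynomial.aeval (Jelt N 1 (one_dvd N)) P)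
      ∈ Kbar⟮jL N⟯ := by
  rw [← Polynomial.aeval_algebraMap_apply]
  have h1 : Polynomial.aeval (algebraMap (modRing N) (ModL N) (Jelt N 1 (one_dvd N))) P
      ∈ Algebra.adjoin Kbar {jL N} := Polynomial.aeval_mem_adjoin_singleton _ _
  exact IntermediateField.algebra_adjoin_le_adjoin Kbar _ h1

theorem modfield_frac_aux {L : Type*} [Field L] (A B C : L) (hB : B ≠ 0) (hC : C ≠ 0) :
    A / B = (A * C) / (B * C) ∧ A * C = (A / B) * (B * C) := by
  constructor
  · rw [mul_div_mul_right A B hC]
  · rw [← mul_assoc, div_mul_cancel₀ A hB]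

/-- The norm of a denominator: an invariant multiple. -/
theorem modfield_exists_norm (N : ℕ) [NeZero N] (b : modRing N)
    (hb0 : algebraMap (modRing N) (ModL N) b ≠ 0) :
    ∃ c nb : modRing N, nb = b * c ∧ algebraMap (modRing N) (ModL N) nb ≠ 0 ∧
      ∀ γ : SL(2, ℤ), γ • nb = nb := by
  classical
  have : Finite (rhoL N).range := finite_range_rhoL N
  have := Fintype.ofFinite (rhoL N).range
  choose sec hsec using fun g : (rhoL N).range => g.2
  have hterm : ∀ g : (rhoL N).range, algebraMap (modRing N) (ModL N) (sec g • b)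
      = (g : ModL N ≃ₐ[Kbar] ModL N) (algebraMap (modRing N) (ModL N) b) := by
    intro g
    rw [← smul_algebraMap_modL, ← modfield_rhoL_apply, hsec g]
  have hnb : algebraMap (modRing N) (ModL N) (∏ g : (rhoL N).range, sec g • b)
      = ∏ g : (rhoL N).range,
        (g : ModL N ≃ₐ[Kbar] ModL N) (algebraMap (modRing N) (ModL N) b) := by
    rw [map_prod]
    exact Finset.prod_congr rfl fun g _ => hterm g
  refine ⟨∏ g ∈ (Finset.univ.erase (1 : (rhoL N).range)), sec g • b,
    ∏ g : (rhoL N).range, sec g • b, ?_, ?_, ?_⟩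
  · have h1 := Finset.mul_prod_erase (Finset.univ : Finset (rhoL N).range) (fun g => sec g • b)
      (Finset.mem_univ 1)
    have h2 : sec 1 • b = b := by
      apply IsFractionRing.injective (modRing N) (ModL N)
      rw [hterm]
      rfl
    rw [h2] at h1
    exact h1.symm
  · rw [hnb, Finset.prod_ne_zero_iff]
    intro g _
    exact (map_ne_zero_iff _ (AlgEquiv.injective _)).mpr hb0
  · intro γ
    apply IsFractionRing.injective (modRing N) (ModL N)
    rw [← smul_algebraMap_modL, hnb, ← modfield_rhoL_apply, map_prod]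
    exact Fintype.prod_equiv (Equiv.mulLeft (⟨rhoL N γ, γ, rfl⟩ : (rhoL N).range)) _ _
      (fun g => rfl)

theorem modL_fixed (N : ℕ) [NeZero N] (f : ModL N) (h : ∀ γ : SL(2, ℤ), γ • f = f) :
    f ∈ Kbar⟮jL N⟯ := by
  obtain ⟨a, b, hb, rfl⟩ := IsFractionRing.div_surjective (A := modRing N) f
  have hb0 : algebraMap (modRing N) (ModL N) b ≠ 0 :=
    IsFractionRing.to_map_ne_zero_of_mem_nonZeroDivisors hb
  obtain ⟨c, nb, hnbc, hnb0, hnbinv⟩ := modfield_exists_norm N b hb0
  have hnbc' : algebraMap (modRing N) (ModL N) nb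
      = algebraMap (modRing N) (ModL N) b * algebraMap (modRing N) (ModL N) c := by
    rw [hnbc, map_mul]
  have hc0 : algebraMap (modRing N) (ModL N) c ≠ 0 := by
    intro h0
    rw [hnbc', h0, mul_zero] at hnb0
    exact hnb0 rfl
  obtain ⟨e1, e2⟩ := modfield_frac_aux (algebraMap (modRing N) (ModL N) a) _ _ hb0 hc0
  have hac : ∀ γ : SL(2, ℤ), γ • (a * c) = a * c := by
    intro γ
    apply IsFractionRing.injective (modRing N) (ModL N)
    rw [← smul_algebraMap_modL, map_mul, e2, smul_mul', h γ, ← hnbc', smul_algebraMap_modL,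
      hnbinv γ]
  obtain ⟨P, hP⟩ := modRing_invariant N (a * c) hac
  obtain ⟨Q, hQ⟩ := modRing_invariant N nb hnbinv
  rw [e1, ← map_mul, ← hnbc', hP, hQ]
  exact div_mem (modfield_aeval_mem N P) (modfield_aeval_mem N Q)

end Fermat.Agent.S24
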