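import Fermat.Agent.S24.AnPlaceGen
import Fermat.Agent.S24.JOrder
import Fermat.Agent.S24.ModField

/-!
# S24 piece C6: analytic places of `L = Frac (modRing N)`

* places from the order of vanishing at a point `τ₀` of the upper half plane
  (generic points, the elliptic points `i` and `ρ`);
* the place at `∞` from the order of the expansion.
-/

set_option autoImplicit false

open UpperHalfPlane ModularCurve AlgebraicCurve Polynomial
open scoped MatrixGroups IntermediateField Manifold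

noncomputable section

namespace Fermat.Agent.S24

open Fermat.Agent.S28 (Jfun scaleH HasQExp)
open CongruenceSubgroup ModularGroup

attribute [local instance] algKC

/-! ## The order of vanishing at a point of the upper half plane -/

theorem anp_order_ne_top {g : ℍ → ℂ} (hg : MDifferentiable 𝓘(ℂ) 𝓘(ℂ) g) (hg0 : g ≠ 0) (τ : ℍ) :
    analyticOrderAt (fun z : ℂ => g (ofComplex z)) (τ : ℂ) ≠ ⊤ := by
  intro htop
  apply hg0
  rw [analyticOrderAt_eq_top] at htop
  have hdiff : DifferentiableOn ℂ (g ∘ ofComplex) {z | 0 < z.im} :=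
    UpperHalfPlane.mdifferentiable_iff.mp hg
  have han := hdiff.analyticOnNhd isOpen_upperHalfPlaneSet
  have hpre : IsPreconnected {z : ℂ | 0 < z.im} :=
    (Complex.isConnected_of_upperHalfPlane subset_rfl (by grind)).isPreconnected
  have h0 := han.eqOn_zero_of_preconnected_of_eventuallyEq_zero hpre τ.2 htop
  funext w
  have := h0 w.im_pos
  simpa [ofComplex_apply] using this

/-- The order of vanishing at `τ` of an element of `modRing N`. -/
def anpV (N : ℕ) (τ : ℍ) (g : modRing N) : ℤ :=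
  ((analyticOrderAt (fun z : ℂ => (g : ℍ → ℂ) (ofComplex z)) (τ : ℂ)).toNat : ℤ)

theorem anp_coe_ne_zero {N : ℕ} {g : modRing N} (hg : g ≠ 0) : (g : ℍ → ℂ) ≠ 0 := by
  intro h
  exact hg (Subtype.ext h)

theorem anp_analyticAt {N : ℕ} [NeZero N] (g : modRing N) (τ : ℍ) :
    AnalyticAt ℂ (fun z : ℂ => (g : ℍ → ℂ) (ofComplex z)) (τ : ℂ) :=
  jord_analyticAt (mdifferentiable_of_mem_modRing g.2) τ

theorem anp_ord_ne_top {N : ℕ} [NeZero N] {g : modRing N} (hg : g ≠ 0) (τ : ℍ) :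
    analyticOrderAt (fun z : ℂ => (g : ℍ → ℂ) (ofComplex z)) (τ : ℂ) ≠ ⊤ :=
  anp_order_ne_top (mdifferentiable_of_mem_modRing g.2) (anp_coe_ne_zero hg) τ

theorem anpV_mul {N : ℕ} [NeZero N] (τ : ℍ) (x y : modRing N) (hx : x ≠ 0) (hy : y ≠ 0) :
    anpV N τ (x * y) = anpV N τ x + anpV N τ y := by
  have h : (fun z : ℂ => ((x * y : modRing N) : ℍ → ℂ) (ofComplex z))
      = (fun z : ℂ => (x : ℍ → ℂ) (ofComplex z)) * (fun z : ℂ => (y : ℍ → ℂ) (ofComplex z)) := by
    funext z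
    simp
  unfold anpV
  rw [h, analyticOrderAt_mul (anp_analyticAt x τ) (anp_analyticAt y τ),
    ENat.toNat_add (anp_ord_ne_top hx τ) (anp_ord_ne_top hy τ), Nat.cast_add]

theorem anpV_add {N : ℕ} [NeZero N] (τ : ℍ) (x y : modRing N) (hx : x ≠ 0) (hy : y ≠ 0)
    (hxy : x + y ≠ 0) : min (anpV N τ x) (anpV N τ y) ≤ anpV N τ (x + y) := by
  have h : (fun z : ℂ => ((x + y : modRing N) : ℍ → ℂ) (ofComplex z))
      = (fun z : ℂ => (x : ℍ → ℂ) (ofComplex z)) + (fun z : ℂ => (y : ℍ → ℂ) (ofComplex z)) := by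
    funext z
    simp
  have key := le_analyticOrderAt_add (f := fun z : ℂ => (x : ℍ → ℂ) (ofComplex z))
    (g := fun z : ℂ => (y : ℍ → ℂ) (ofComplex z)) (z₀ := (τ : ℂ))
  rw [← h] at key
  obtain ⟨a, ha⟩ := ENat.ne_top_iff_exists.mp (anp_ord_ne_top hx τ)
  obtain ⟨b, hb⟩ := ENat.ne_top_iff_exists.mp (anp_ord_ne_top hy τ)
  obtain ⟨c, hc⟩ := ENat.ne_top_iff_exists.mp (anp_ord_ne_top hxy τ)
  unfold anpV
  rw [← ha, ← hb, ← hc] at key ⊢
  simp only [ENat.toNat_natCast]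
  rw [min_le_iff] at key ⊢
  rcases key with h1 | h1
  · left
    exact_mod_cast h1
  · right
    exact_mod_cast h1

theorem anp_coe_algebraMap {N : ℕ} (c : Kbar) :
    ((algebraMap Kbar (modRing N) c : modRing N) : ℍ → ℂ) = fun _ => iotaK c := rfl

theorem anpV_algebraMap {N : ℕ} [NeZero N] (τ : ℍ) (c : Kbar) (hc : c ≠ 0) :
    anpV N τ (algebraMap Kbar (modRing N) c) = 0 := by
  unfold anpV
  rw [(anp_analyticAt _ τ).analyticOrderAt_eq_zero.mpr]
  · simp
  · rw [anp_coe_algebraMap]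
    exact fun h => hc (iotaK_injective (by rw [map_zero]; exact h))

theorem anp_coe_Jelt_sub {N : ℕ} [NeZero N] (c : Kbar) (τ : ℍ) :
    ((Jelt N 1 (one_dvd N) - algebraMap Kbar (modRing N) c : modRing N) : ℍ → ℂ) τ
      = Jfun τ - iotaK c := by
  have h1 : scaleH 1 ((1 : SL(2, ℤ)) • τ) = τ := by
    apply UpperHalfPlane.ext
    simp
  show Jfun (scaleH 1 ((1 : SL(2, ℤ)) • τ)) - iotaK c = _
  rw [h1]

/-- The order at a fixed point of `γ` is `γ`-invariant. -/
theorem anpV_smul {N : ℕ} [NeZero N] (τ : ℍ) (γ : SL(2, ℤ)) (hγ : γ • τ = τ) (x : modRing N) :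
    anpV N τ (γ⁻¹ • x) = anpV N τ x := by
  unfold anpV
  congr 2
  let G : ℂ → ℂ := fun z => ((Matrix.SpecialLinearGroup.mapGL ℝ γ • ofComplex z : ℍ) : ℂ)
  let F : ℂ → ℂ := fun z => (x : ℍ → ℂ) (ofComplex z)
  have hdet : 0 < (Matrix.SpecialLinearGroup.mapGL ℝ γ : GL (Fin 2) ℝ).val.det := by
    rw [← Matrix.GeneralLinearGroup.val_det_apply, Matrix.SpecialLinearGroup.det_mapGL]
    simp
  have h : (fun z : ℂ => ((γ⁻¹ • x : modRing N) : ℍ → ℂ) (ofComplex z)) = F ∘ G := by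
    funext z
    rw [coe_smul_modRing]
    simp only [actFun, inv_inv, Function.comp_apply, F, G, ofComplex_apply]
    rfl
  rw [h, analyticOrderAt_comp_of_deriv_ne_zero (τ.analyticAt_smul hdet)
    (τ.deriv_smul_ne_zero hdet)]
  have hG : ((Matrix.SpecialLinearGroup.mapGL ℝ γ • ofComplex (τ : ℂ) : ℍ) : ℂ) = (τ : ℂ) := by
    rw [ofComplex_apply]
    exact congrArg _ hγ
  rw [hG]

theorem anp_rhoL_symm (N : ℕ) [NeZero N] (γ : SL(2, ℤ)) (x : modRing N) :
    (rhoL N γ).symm (algebraMap (modRing N) (ModL N) x)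
      = algebraMap (modRing N) (ModL N) (γ⁻¹ • x) := by
  rw [← smul_algebraMap_modL]
  have h : (rhoL N γ).symm = rhoL N γ⁻¹ := by
    rw [map_inv]
    rfl
  rw [h]
  rfl

theorem anp_jL_sub (N : ℕ) [NeZero N] (c : Kbar) :
    jL N - algebraMap Kbar (ModL N) c
      = algebraMap (modRing N) (ModL N) (Jelt N 1 (one_dvd N) - algebraMap Kbar (modRing N) c) := by
  rw [map_sub, ← IsScalarTower.algebraMap_apply Kbar (modRing N) (ModL N)]
  rfl

/-- The place of `L` attached to a point `τ` of the upper half plane. -/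
theorem anp_exists_point_place (N : ℕ) [NeZero N] (τ : ℍ) (c : Kbar) (hc : iotaK c = Jfun τ)
    (m : ℕ)
    (hm : analyticOrderAt (fun z : ℂ => Jfun (ofComplex z) - Jfun τ) (τ : ℂ) ≤ m) :
    ∃ w : Place Kbar (ModL N), 0 < w.ord (jL N - algebraMap Kbar (ModL N) c) ∧
      w.ord (jL N - algebraMap Kbar (ModL N) c) ≤ m ∧
      ∀ γ : SL(2, ℤ), γ • τ = τ → rhoL N γ • w = w := by
  set x₀ : modRing N := Jelt N 1 (one_dvd N) - algebraMap Kbar (modRing N) c with hx₀
  have hfun : (fun z : ℂ => (x₀ : ℍ → ℂ) (ofComplex z))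
      = fun z : ℂ => Jfun (ofComplex z) - Jfun τ := by
    funext z
    rw [hx₀, anp_coe_Jelt_sub, hc]
  have hne_top : analyticOrderAt (fun z : ℂ => Jfun (ofComplex z) - Jfun τ) (τ : ℂ) ≠ ⊤ :=
    ne_top_of_le_ne_top (ENat.natCast_ne_top m) hm
  have hx₀ne : x₀ ≠ 0 := by
    intro h0
    apply hne_top
    rw [← hfun, h0, analyticOrderAt_eq_top]
    exact Filter.Eventually.of_forall fun z => rfl
  obtain ⟨k, hk⟩ := ENat.ne_top_iff_exists.mp hne_top
  have hk0 : k ≠ 0 := by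
    rintro rfl
    have h1 := (anp_analyticAt x₀ τ).analyticOrderAt_eq_zero.mp (by rw [hfun, ← hk]; rfl)
    apply h1
    have h2 := congrFun hfun (τ : ℂ)
    rw [h2]
    simp
  have hkm : k ≤ m := by
    rw [← hk] at hm
    exact_mod_cast hm
  have hv : anpV N τ x₀ = k := by
    unfold anpV
    rw [hfun, ← hk]
    simp
  obtain ⟨w, e, he, hw, hinv⟩ := anp_exists_place (K := Kbar) (R := modRing N) (L := ModL N)
    (anpV N τ) (anpV_mul τ) (anpV_add τ) (anpV_algebraMap τ)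
    ⟨x₀, hx₀ne, by rw [hv]; exact_mod_cast hk0⟩
  have hw0 := hw x₀ hx₀ne
  rw [hv, ← anp_jL_sub] at hw0
  have hkpos : (0 : ℤ) < k := by exact_mod_cast Nat.pos_of_ne_zero hk0
  have hopos : 0 < w.ord (jL N - algebraMap Kbar (ModL N) c) := by
    rw [hw0] at hkpos
    exact (mul_pos_iff_of_pos_left he).mp hkpos
  refine ⟨w, hopos, ?_, fun γ hγ => ?_⟩
  · have h1 : w.ord (jL N - algebraMap Kbar (ModL N) c)
        ≤ e * w.ord (jL N - algebraMap Kbar (ModL N) c) :=
      le_mul_of_one_le_left hopos.le (by omega)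
    have h2 : (k : ℤ) ≤ m := by exact_mod_cast hkm
    omega
  · exact hinv (rhoL N γ) (fun x => γ⁻¹ • x) (anp_rhoL_symm N γ)
      (fun x _ => anpV_smul τ γ hγ x)

theorem exists_place_generic (N : ℕ) [NeZero N] (c : Kbar) (h0 : c ≠ 0) (h1 : c ≠ 1728) :
    ∃ w : Place Kbar (ModL N), w.ord (jL N - algebraMap Kbar (ModL N) c) = 1 := by
  obtain ⟨τ, hτ⟩ := Jfun_surjective (iotaK c)
  have hJ0 : Jfun τ ≠ 0 := by
    rw [hτ]
    exact fun h => h0 (iotaK_injective (by rw [h, map_zero]))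
  have hJ1 : Jfun τ ≠ 1728 := by
    rw [hτ]
    exact fun h => h1 (iotaK_injective (by rw [h, map_ofNat]))
  obtain ⟨w, hw1, hw2, -⟩ := anp_exists_point_place N τ c hτ.symm 1
    (by rw [Jfun_order_generic τ hJ0 hJ1]; rfl)
  refine ⟨w, ?_⟩
  have : w.ord (jL N - algebraMap Kbar (ModL N) c) ≤ 1 := by exact_mod_cast hw2
  omega

theorem exists_place_S (N : ℕ) [NeZero N] :
    ∃ w : Place Kbar (ModL N), 0 < w.ord (jL N - algebraMap Kbar (ModL N) 1728) ∧
      w.ord (jL N - algebraMap Kbar (ModL N) 1728) ≤ 2 ∧ rhoL N S • w = w := by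
  obtain ⟨τ, hS, hJ, hord⟩ := exists_elliptic_S
  obtain ⟨w, hw1, hw2, hw3⟩ := anp_exists_point_place N τ 1728 (by rw [hJ, map_ofNat]) 2
    (by rw [hJ]; exact hord)
  exact ⟨w, hw1, by exact_mod_cast hw2, hw3 S hS⟩

theorem exists_place_ST (N : ℕ) [NeZero N] :
    ∃ w : Place Kbar (ModL N), 0 < w.ord (jL N) ∧ w.ord (jL N) ≤ 3 ∧
      rhoL N (S * T) • w = w := by
  obtain ⟨τ, hS, hJ, hord⟩ := exists_elliptic_ST
  obtain ⟨w, hw1, hw2, hw3⟩ := anp_exists_point_place N τ 0 (by rw [hJ, map_zero]) 3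
    (by rw [hJ]; simpa using hord)
  rw [map_zero, sub_zero] at hw1 hw2
  exact ⟨w, hw1, by exact_mod_cast hw2, hw3 (S * T) hS⟩

/-! ## The place at infinity -/

/-- The order of the expansion at `∞`. -/
def anpVinf (N : ℕ) [NeZero N] (g : modRing N) : ℤ := (expHom N g).order

theorem anp_expHom_ne_zero {N : ℕ} [NeZero N] {g : modRing N} (hg : g ≠ 0) : expHom N g ≠ 0 := by
  rw [Ne, map_eq_zero_iff _ (expHom_injective N)]
  exact hg

theorem anpVinf_mul {N : ℕ} [NeZero N] (x y : modRing N) (hx : x ≠ 0) (hy : y ≠ 0) :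
    anpVinf N (x * y) = anpVinf N x + anpVinf N y := by
  unfold anpVinf
  rw [map_mul, HahnSeries.order_mul_of_ne_zero
    (mul_ne_zero (HahnSeries.leadingCoeff_ne_zero.mpr (anp_expHom_ne_zero hx))
      (HahnSeries.leadingCoeff_ne_zero.mpr (anp_expHom_ne_zero hy)))]

theorem anpVinf_add {N : ℕ} [NeZero N] (x y : modRing N) (_hx : x ≠ 0) (_hy : y ≠ 0)
    (hxy : x + y ≠ 0) : min (anpVinf N x) (anpVinf N y) ≤ anpVinf N (x + y) := by
  unfold anpVinf
  rw [map_add]
  exact HahnSeries.min_order_le_order_add (by rw [← map_add]; exact anp_expHom_ne_zero hxy)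

theorem anpVinf_algebraMap {N : ℕ} [NeZero N] (c : Kbar) (hc : c ≠ 0) :
    anpVinf N (algebraMap Kbar (modRing N) c) = 0 := by
  unfold anpVinf
  rw [AlgHom.commutes, algebraMap_laurentSeries_eq_single]
  exact HahnSeries.order_single hc

theorem anp_expHom_Jelt (N : ℕ) [NeZero N] :
    expHom N (Jelt N 1 (one_dvd N)) = qExpand Kbar N (coeffEmb Kbar (qExpand ℚ 1 jq)) :=
  (expHom_spec N _).unique (hasKExp_Jconj_one N 1)

theorem anpVinf_Jelt (N : ℕ) [NeZero N] : anpVinf N (Jelt N 1 (one_dvd N)) = -(N : ℤ) := by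
  unfold anpVinf
  rw [anp_expHom_Jelt, qExpand_one_apply]
  set s := qExpand Kbar N (coeffEmb Kbar jq) with hs
  have hNpos : (0 : ℤ) < N := by exact_mod_cast Nat.pos_of_ne_zero (NeZero.ne N)
  have hcoef : s.coeff (-(N : ℤ)) = 1 := by
    have h1 : -(N : ℤ) = (N : ℤ) * (-1) := by ring
    rw [h1, hs, qExpand_coeff_mul, coeffEmb_coeff, coeff_jq_neg_one, map_one]
  have hlt : ∀ k : ℤ, k < -(N : ℤ) → s.coeff k = 0 := by
    intro k hk
    by_cases hdvd : (N : ℤ) ∣ k
    · obtain ⟨m, rfl⟩ := hdvd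
      have hm : m < -1 := by
        by_contra hm
        rw [not_lt] at hm
        nlinarith
      rw [hs, qExpand_coeff_mul, coeffEmb_coeff, coeff_jq_of_lt hm, map_zero]
    · exact qExpand_coeff_of_not_dvd N _ hdvd
  have hs0 : s ≠ 0 := by
    intro h
    rw [h] at hcoef
    simp at hcoef
  apply le_antisymm
  · exact HahnSeries.order_le_of_coeff_ne_zero (by rw [hcoef]; exact one_ne_zero)
  · by_contra hlt'
    rw [not_le] at hlt'
    exact (HahnSeries.coeff_order_eq_zero.not.mpr hs0) (hlt _ hlt')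

theorem exists_place_T (N : ℕ) [NeZero N] :
    ∃ w : Place Kbar (ModL N), 0 < w.ord (jL N)⁻¹ ∧ w.ord (jL N)⁻¹ ≤ N ∧
      rhoL N T • w = w := by
  have hNpos : (0 : ℤ) < N := by exact_mod_cast Nat.pos_of_ne_zero (NeZero.ne N)
  have hJne : Jelt N 1 (one_dvd N) ≠ 0 := by
    intro h
    have h1 := anpVinf_Jelt N
    rw [h] at h1
    unfold anpVinf at h1
    rw [map_zero, HahnSeries.order_zero] at h1
    omega
  obtain ⟨w, e, he, hw, hinv⟩ := anp_exists_place (K := Kbar) (R := modRing N) (L := ModL N)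
    (anpVinf N) anpVinf_mul anpVinf_add anpVinf_algebraMap
    ⟨Jelt N 1 (one_dvd N), hJne, by rw [anpVinf_Jelt]; omega⟩
  have hw0 := hw _ hJne
  rw [anpVinf_Jelt] at hw0
  change -(N : ℤ) = e * w.ord (jL N) at hw0
  have hord : w.ord (jL N)⁻¹ = - w.ord (jL N) := w.ord_inv _
  have hneg : w.ord (jL N) < 0 := by
    by_contra h
    rw [not_lt] at h
    have := mul_nonneg he.le h
    omega
  refine ⟨w, by omega, ?_, ?_⟩
  · have h1 : - w.ord (jL N) ≤ e * (- w.ord (jL N)) :=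
      le_mul_of_one_le_left (by omega) (by omega)
    rw [hord]
    linarith
  · exact hinv (rhoL N T) (fun x => T⁻¹ • x) (anp_rhoL_symm N T) (fun x _ => by
      have h1 := order_expHom_T_smul N (T⁻¹ • x)
      rw [smul_inv_smul] at h1
      exact h1.symm)

end Fermat.Agent.S24
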