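import Mathlib

/-!
# S24, piece B3 (Galois part): fixed fields of subgroups
-/

set_option autoImplicit false
set_option linter.style.haveILetI false
set_option linter.unusedVariables false
set_option linter.unusedSectionVars false

namespace Fermat.Agent.S24

open scoped IntermediateField

section Galois

variable {F L : Type*} [Field F] [Field L] [Algebra F L] {G : Type*} [Group G] [Finite G]
  [MulSemiringAction G L] [FaithfulSMul G L]

/-- Galois correspondence: if `L^G ⊆ F ⊆ L` and `H` is the subgroup of `G` fixing `F`, then the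
elements of `L` fixed by `H` lie in `F`. -/
theorem cnt_fixed_mem
    (hG : ∀ x : L, (∀ g : G, g • x = x) → x ∈ Set.range (algebraMap F L))
    (H : Subgroup G) (hH : ∀ g : G, g ∈ H ↔ ∀ f : F, g • algebraMap F L f = algebraMap F L f)
    (x : L) (hx : ∀ h ∈ H, h • x = x) : x ∈ Set.range (algebraMap F L) := by
  classical
  let K' : IntermediateField (FixedPoints.subfield G L) L :=
    (algebraMap F L).fieldRange.toIntermediateField (fun e => hG e.1 e.2)
  have hK' := IsGalois.fixedField_fixingSubgroup K'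
  have hxmem : x ∈ IntermediateField.fixedField (IntermediateField.fixingSubgroup K') := by
    rw [IntermediateField.mem_fixedField_iff]
    intro σ hσ
    obtain ⟨g, rfl⟩ := FixedPoints.toAlgAut_surjective G L σ
    have hg : g ∈ H := by
      rw [hH]
      intro f
      exact (IntermediateField.mem_fixingSubgroup_iff K' _).mp hσ (algebraMap F L f) ⟨f, rfl⟩
    exact hx g hg
  rw [hK'] at hxmem
  exact hxmem

/-- Degree of `L` over the intermediate field `F` in terms of the subgroup fixing `F`. -/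
theorem cnt_finrank
    (hG : ∀ x : L, (∀ g : G, g • x = x) → x ∈ Set.range (algebraMap F L))
    (H : Subgroup G) (hH : ∀ g : G, g ∈ H ↔ ∀ f : F, g • algebraMap F L f = algebraMap F L f) :
    FiniteDimensional F L ∧ Module.finrank F L = Nat.card H := by
  classical
  cases nonempty_fintype G
  have hrange : ∀ x : L, x ∈ FixedPoints.subfield H L ↔ x ∈ Set.range (algebraMap F L) := by
    intro x
    constructor
    · intro hx
      exact cnt_fixed_mem hG H hH x (fun h hh => hx ⟨h, hh⟩)
    · rintro ⟨f, rfl⟩ ⟨h, hh⟩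
      exact (hH h).mp hh f
  let e₁ : F ≃+* FixedPoints.subfield H L := RingEquiv.ofBijective
    ((algebraMap F L).codRestrict (FixedPoints.subfield H L) (fun f => (hrange _).mpr ⟨f, rfl⟩))
    ⟨fun a b hab => (algebraMap F L).injective (congrArg Subtype.val hab),
     fun y => by
      obtain ⟨f, hf⟩ := (hrange y.1).mp y.2
      exact ⟨f, Subtype.ext hf⟩⟩
  have hc : (algebraMap (FixedPoints.subfield H L) L).comp e₁.toRingHom
      = (RingEquiv.refl L).toRingHom.comp (algebraMap F L) := by
    ext f; rfl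
  constructor
  · refine Module.Finite.of_equiv_equiv e₁.symm (RingEquiv.refl L) ?_
    ext y
    exact congrArg Subtype.val (e₁.apply_symm_apply y)
  · rw [Algebra.finrank_eq_of_equiv_equiv e₁ (RingEquiv.refl L) hc, FixedPoints.finrank_eq_card H L,
      Nat.card_eq_fintype_card]

end Galois

section Setup

variable {K F : Type*} [Field K] [IsAlgClosed K] [CharZero K] [Field F] [Algebra K F]
variable {L : Type*} [Field L] [Algebra K L]
  {G : Type*} [Group G] [Finite G] [MulSemiringAction G L] [SMulCommClass G K L]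

omit [IsAlgClosed K] [CharZero K] [Finite G] in
/-- Elements of `K⟮t'⟯` are fixed by `G` when `t'` is. -/
theorem cnt_smul_eq_of_mem_adjoin (t' : L) (htfix : ∀ g : G, g • t' = t') (g : G) {x : L}
    (hx : x ∈ K⟮t'⟯) : g • x = x := by
  have hle : K⟮t'⟯ ≤ (FixedPoints.intermediateField G : IntermediateField K L) := by
    rw [IntermediateField.adjoin_simple_le_iff]
    exact fun g => htfix g
  exact hle hx g

/-- B3a: the Galois-theoretic set-up for `galois_count`. -/
theorem galois_setup [Algebra F L] [IsScalarTower K F L] [FaithfulSMul G L]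
    (t : F) (ht : Transcendental K t)
    (hfix : ∀ f : L, (∀ g : G, g • f = f) → f ∈ K⟮algebraMap F L t⟯)
    (htfix : ∀ g : G, g • algebraMap F L t = algebraMap F L t)
    (H : Subgroup G)
    (hH : ∀ g : G, g ∈ H ↔ ∀ f : F, g • algebraMap F L f = algebraMap F L f) :
    FiniteDimensional K⟮t⟯ F ∧ Module.finrank K⟮t⟯ F = H.index ∧
    FiniteDimensional K⟮algebraMap F L t⟯ L ∧
    Module.finrank K⟮algebraMap F L t⟯ L = Nat.card G ∧
    FiniteDimensional F L ∧
    (∀ f : L, (∀ g ∈ H, g • f = f) → f ∈ Set.range (algebraMap F L)) := by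
  classical
  have hmap : (K⟮t⟯).map (IsScalarTower.toAlgHom K F L) = K⟮algebraMap F L t⟯ := by
    rw [IntermediateField.adjoin_map, Set.image_singleton]
    rfl
  -- `G`-fixed elements come from `K⟮t⟯`
  have hfixF : ∀ x : L, (∀ g : G, g • x = x) → ∃ a : K⟮t⟯, algebraMap F L (a : F) = x := by
    intro x hx
    have h1 : x ∈ (K⟮t⟯).map (IsScalarTower.toAlgHom K F L) := by
      rw [hmap]; exact hfix x hx
    obtain ⟨a, ha, rfl⟩ := (IntermediateField.mem_map _).mp h1
    exact ⟨⟨a, ha⟩, rfl⟩
  -- `G` fixes the image of `K⟮t⟯`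
  have hfixed : ∀ (g : G) (a : K⟮t⟯), g • algebraMap F L (a : F) = algebraMap F L (a : F) := by
    intro g a
    apply cnt_smul_eq_of_mem_adjoin (K := K) (algebraMap F L t) htfix g
    rw [← hmap]
    exact (IntermediateField.mem_map _).mpr ⟨a, a.2, rfl⟩
  have hGF : ∀ x : L, (∀ g : G, g • x = x) → x ∈ Set.range (algebraMap F L) := by
    intro x hx
    obtain ⟨a, ha⟩ := hfixF x hx
    exact ⟨a, ha⟩
  obtain ⟨hFL, hFLcard⟩ := cnt_finrank hGF H hH
  have hG1 : ∀ x : L, (∀ g : G, g • x = x) → x ∈ Set.range (algebraMap K⟮t⟯ L) := by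
    intro x hx
    obtain ⟨a, ha⟩ := hfixF x hx
    exact ⟨a, ha⟩
  have hTop1 : ∀ g : G, g ∈ (⊤ : Subgroup G) ↔
      ∀ f : K⟮t⟯, g • algebraMap K⟮t⟯ L f = algebraMap K⟮t⟯ L f := by
    intro g
    exact ⟨fun _ f => hfixed g f, fun _ => Subgroup.mem_top g⟩
  obtain ⟨h1fin, h1card⟩ := cnt_finrank hG1 (⊤ : Subgroup G) hTop1
  rw [Subgroup.card_top] at h1card
  have hG2 : ∀ x : L, (∀ g : G, g • x = x) →
      x ∈ Set.range (algebraMap K⟮algebraMap F L t⟯ L) := by
    intro x hx
    exact ⟨⟨x, hfix x hx⟩, rfl⟩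
  have hTop2 : ∀ g : G, g ∈ (⊤ : Subgroup G) ↔
      ∀ f : K⟮algebraMap F L t⟯, g • algebraMap K⟮algebraMap F L t⟯ L f
        = algebraMap K⟮algebraMap F L t⟯ L f := by
    intro g
    exact ⟨fun _ f => cnt_smul_eq_of_mem_adjoin (K := K) (algebraMap F L t) htfix g f.2,
      fun _ => Subgroup.mem_top g⟩
  obtain ⟨h2fin, h2card⟩ := cnt_finrank hG2 (⊤ : Subgroup G) hTop2
  rw [Subgroup.card_top] at h2card
  haveI := h1fin
  have hKF : FiniteDimensional K⟮t⟯ F := FiniteDimensional.left K⟮t⟯ F L
  refine ⟨hKF, ?_, h2fin, h2card, hFL, fun f hf => cnt_fixed_mem hGF H hH f hf⟩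
  have hmul := Module.finrank_mul_finrank K⟮t⟯ F L
  rw [hFLcard, h1card, ← H.card_mul_index, mul_comm] at hmul
  exact Nat.eq_of_mul_eq_mul_left Nat.card_pos hmul

end Setup

end Fermat.Agent.S24
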