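import Mathlib
import Fermat.Prelude.Def_AlgebraicCurve_CanonicalDivisor

/-!
# S24, piece B2: places extend along finite extensions
-/

set_option autoImplicit false
set_option linter.style.haveILetI false
set_option linter.unusedVariables false
set_option linter.unusedSectionVars false

namespace Fermat.Agent.S24

open AlgebraicCurve IsDedekindDomain
open scoped IntermediateField

section B2

variable {K F : Type*} [Field K] [Field F] [Algebra K F]
variable {L : Type*} [Field L] [Algebra K L]

/-- Places extend along finite separable extensions (core statement). -/
theorem ext_exists_place_over_core [Algebra F L] [IsScalarTower K F L] [FiniteDimensional F L]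
    [Algebra.IsSeparable F L] (v : Place K F) :
    ∃ w : Place K L, ∀ f : F, algebraMap F L f ∈ w.toValuationSubring ↔
      f ∈ v.toValuationSubring := by
  classical
  letI : Algebra v.toValuationSubring L :=
    ((algebraMap F L).comp v.toValuationSubring.subtype).toAlgebra
  haveI : IsScalarTower v.toValuationSubring F L := IsScalarTower.of_algebraMap_eq (fun x => rfl)
  haveI : IsDedekindDomain (integralClosure v.toValuationSubring L) :=
    integralClosure.isDedekindDomain v.toValuationSubring F L
  haveI : IsFractionRing (integralClosure v.toValuationSubring L) L :=
    integralClosure.isFractionRing_of_finite_extension F L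
  have hinj : Function.Injective
      (algebraMap v.toValuationSubring (integralClosure v.toValuationSubring L)) := by
    intro x y hxy
    have h1 := congrArg (algebraMap (integralClosure v.toValuationSubring L) L) hxy
    have h2 : algebraMap F L (x : F) = algebraMap F L (y : F) := h1
    exact Subtype.ext ((algebraMap F L).injective h2)
  obtain ⟨Q, hQmax, hQ⟩ := Ideal.exists_ideal_over_maximal_of_isIntegral
    (S := integralClosure v.toValuationSubring L)
    (IsLocalRing.maximalIdeal v.toValuationSubring)
    (by rw [(RingHom.injective_iff_ker_eq_bot _).mp hinj]; exact bot_le)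
  have hQne : Q ≠ ⊥ := by
    intro h0
    rw [h0, ← RingHom.ker_eq_comap_bot, (RingHom.injective_iff_ker_eq_bot _).mp hinj] at hQ
    exact IsDiscreteValuationRing.not_a_field _ hQ.symm
  let wQ : HeightOneSpectrum (integralClosure v.toValuationSubring L) := ⟨Q, hQmax.isPrime, hQne⟩
  letI : Algebra K (integralClosure v.toValuationSubring L) :=
    ((algebraMap v.toValuationSubring (integralClosure v.toValuationSubring L)).comp
      (algebraMap K v.toValuationSubring)).toAlgebra
  haveI : IsScalarTower K (integralClosure v.toValuationSubring L) L :=
    IsScalarTower.of_algebraMap_eq (fun a => IsScalarTower.algebraMap_apply K F L a)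
  refine ⟨Place.ofHeightOneSpectrum (K := K) wQ, fun f => ?_⟩
  rw [Place.ofHeightOneSpectrum_toValuationSubring, Valuation.mem_valuationSubring_iff]
  constructor
  · intro hle
    by_contra hf
    have hf0 : f ≠ 0 := fun h0 => hf (h0 ▸ v.toValuationSubring.zero_mem)
    have hinv : f⁻¹ ∈ v.toValuationSubring :=
      (v.toValuationSubring.mem_or_inv_mem f).resolve_left hf
    have hnu : (⟨f⁻¹, hinv⟩ : v.toValuationSubring) ∈
        IsLocalRing.maximalIdeal v.toValuationSubring := by
      rw [ValuationSubring.valuation_lt_one_iff]
      have h1 : ¬ v.toValuationSubring.valuation f ≤ 1 := fun hle' =>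
        hf ((v.toValuationSubring.valuation_le_one_iff f).mp hle')
      have hpos' : 0 < v.toValuationSubring.valuation f := by
        rw [Valuation.pos_iff]; exact hf0
      show v.toValuationSubring.valuation f⁻¹ < 1
      rw [map_inv₀]
      exact inv_lt_one_of_one_lt₀ (not_le.mp h1)
    rw [← hQ] at hnu
    have hlt : wQ.valuation L ((algebraMap F L f)⁻¹) < 1 := by
      rw [← map_inv₀]
      exact (wQ.valuation_lt_one_iff_mem (K := L) _).mpr hnu
    rw [map_inv₀] at hlt
    have hpos : 0 < wQ.valuation L (algebraMap F L f) := by
      rw [Valuation.pos_iff]
      exact (map_ne_zero _).mpr hf0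
    have : 1 < wQ.valuation L (algebraMap F L f) := by
      by_contra hc
      push Not at hc
      have := one_le_inv₀ hpos |>.mpr hc
      exact absurd hlt (not_lt.mpr this)
    exact absurd hle (not_le.mpr this)
  · intro hf
    have h3 : algebraMap F L f = algebraMap (integralClosure v.toValuationSubring L) L
        (algebraMap v.toValuationSubring (integralClosure v.toValuationSubring L) ⟨f, hf⟩) := rfl
    rw [h3]
    exact wQ.valuation_le_one _

end B2

section B2main

variable {K F : Type*} [Field K] [IsAlgClosed K] [CharZero K] [Field F] [Algebra K F]
variable {L : Type*} [Field L] [Algebra K L]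

/-- B2: places extend along finite extensions. -/
theorem exists_place_over [Algebra F L] [IsScalarTower K F L] [FiniteDimensional F L]
    (t : F) (ht : Transcendental K t) [FiniteDimensional K⟮t⟯ F]
    (v : Place K F) (hv : 0 < v.ord t) :
    ∃ w : Place K L, ∀ f : F, algebraMap F L f ∈ w.toValuationSubring ↔
      f ∈ v.toValuationSubring := by
  haveI : CharZero F := charZero_of_injective_algebraMap (algebraMap K F).injective
  exact ext_exists_place_over_core v

end B2main

end Fermat.Agent.S24
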