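import Mathlib
import Fermat.Prelude.Def_AlgebraicCurve_CanonicalDivisor

/-!
# S24, piece A1 : function field set-up over `K[X]`, dictionary places ↔ primes
-/

set_option autoImplicit false

namespace Fermat.Agent.S24

open AlgebraicCurve IsDedekindDomain Polynomial
open scoped IntermediateField RatFunc

section A1

variable (K : Type*) [Field K] {F : Type*} [Field F] [Algebra K F]

/-- `K[X] → F`, `X ↦ t`. -/
@[reducible] noncomputable def polyAlgebra (t : F) : Algebra K[X] F := (Polynomial.aeval t).toAlgebra

theorem polyAlgebra_algebraMap_apply (t : F) (p : K[X]) :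
    letI := polyAlgebra K t
    algebraMap K[X] F p = Polynomial.aeval t p := rfl

theorem polyAlgebra_isScalarTower (t : F) :
    letI := polyAlgebra K t
    IsScalarTower K K[X] F := by
  letI := polyAlgebra K t
  exact IsScalarTower.of_algebraMap_eq fun c => by
    show algebraMap K F c = Polynomial.aeval t (algebraMap K K[X] c)
    simp

/-- `K(X) → F`, `X ↦ t`, for transcendental `t`. -/
@[reducible] noncomputable def ratAlgebra (t : F) (ht : Transcendental K t) : Algebra K⟮X⟯ F :=
  ((algebraMap K⟮t⟯ F).comp
    ((RatFunc.algEquivOfTranscendental t ht : K⟮X⟯ ≃ₐ[K] K⟮t⟯) : K⟮X⟯ →+* K⟮t⟯)).toAlgebra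

theorem ratAlgebra_algebraMap_apply (t : F) (ht : Transcendental K t) (u : K⟮X⟯) :
    letI := ratAlgebra K t ht
    algebraMap K⟮X⟯ F u = Polynomial.aeval t u.num / Polynomial.aeval t u.denom := by
  letI := ratAlgebra K t ht
  show ((RatFunc.algEquivOfTranscendental t ht u : K⟮t⟯) : F) = _
  rw [RatFunc.algEquivOfTranscendental_apply]

theorem ratAlgebra_algebraMap_poly (t : F) (ht : Transcendental K t) (p : K[X]) :
    letI := ratAlgebra K t ht
    algebraMap K⟮X⟯ F (algebraMap K[X] K⟮X⟯ p) = Polynomial.aeval t p := by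
  letI := ratAlgebra K t ht
  show ((RatFunc.algEquivOfTranscendental t ht (algebraMap K[X] K⟮X⟯ p) : K⟮t⟯) : F) = _
  rw [RatFunc.algEquivOfTranscendental_algebraMap]
  simp

theorem ratAlgebra_algebraMap_X (t : F) (ht : Transcendental K t) :
    letI := ratAlgebra K t ht
    algebraMap K⟮X⟯ F RatFunc.X = t := by
  letI := ratAlgebra K t ht
  show ((RatFunc.algEquivOfTranscendental t ht RatFunc.X : K⟮t⟯) : F) = _
  rw [RatFunc.algEquivOfTranscendental_X]

theorem ratAlgebra_isScalarTower (t : F) (ht : Transcendental K t) :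
    letI := polyAlgebra K t
    letI := ratAlgebra K t ht
    IsScalarTower K[X] K⟮X⟯ F := by
  letI := polyAlgebra K t
  letI := ratAlgebra K t ht
  exact IsScalarTower.of_algebraMap_eq fun p => by
    rw [ratAlgebra_algebraMap_poly]
    rfl

theorem ratAlgebra_isScalarTower' (t : F) (ht : Transcendental K t) :
    letI := ratAlgebra K t ht
    IsScalarTower K K⟮X⟯ F := by
  letI := ratAlgebra K t ht
  exact IsScalarTower.of_algebraMap_eq fun c => by
    show algebraMap K F c = ((RatFunc.algEquivOfTranscendental t ht (algebraMap K K⟮X⟯ c) : K⟮t⟯) : F)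
    rw [AlgEquiv.commutes]
    rfl

theorem ratAlgebra_range (t : F) (ht : Transcendental K t) :
    letI := ratAlgebra K t ht
    Set.range (algebraMap K⟮X⟯ F) = (K⟮t⟯ : Set F) := by
  letI := ratAlgebra K t ht
  ext f
  constructor
  · rintro ⟨u, rfl⟩
    exact (RatFunc.algEquivOfTranscendental t ht u).2
  · intro hf
    refine ⟨(RatFunc.algEquivOfTranscendental t ht).symm ⟨f, hf⟩, ?_⟩
    show ((RatFunc.algEquivOfTranscendental t ht
      ((RatFunc.algEquivOfTranscendental t ht).symm ⟨f, hf⟩) : K⟮t⟯) : F) = f
    rw [AlgEquiv.apply_symm_apply]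

theorem ratAlgebra_functionField (t : F) (ht : Transcendental K t) [FiniteDimensional K⟮t⟯ F] :
    letI := ratAlgebra K t ht
    FunctionField K F := by
  letI := ratAlgebra K t ht
  exact Module.Finite.of_equiv_equiv (RatFunc.algEquivOfTranscendental t ht).symm.toRingEquiv
    (RingEquiv.refl F) (by
      ext u
      show ((RatFunc.algEquivOfTranscendental t ht
        ((RatFunc.algEquivOfTranscendental t ht).symm u) : K⟮t⟯) : F) = u
      rw [AlgEquiv.apply_symm_apply])

theorem ratAlgebra_finrank (t : F) (ht : Transcendental K t) :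
    letI := ratAlgebra K t ht
    Module.finrank K⟮X⟯ F = Module.finrank K⟮t⟯ F := by
  letI := ratAlgebra K t ht
  exact Algebra.finrank_eq_of_equiv_equiv (RatFunc.algEquivOfTranscendental t ht).toRingEquiv
    (RingEquiv.refl F) (by
      ext u
      rfl)

section dict

variable [CharZero K] [Algebra K[X] F] [Algebra K⟮X⟯ F] [IsScalarTower K[X] K⟮X⟯ F]
  [IsScalarTower K K[X] F] [FunctionField K F]

/-- the place attached to a prime of the ring of integers -/
noncomputable def placeOfPrime (w : HeightOneSpectrum (FunctionField.ringOfIntegers K F)) :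
    Place K F := Place.ofHeightOneSpectrum (K := K) w

theorem placeOfPrime_toValuationSubring
    (w : HeightOneSpectrum (FunctionField.ringOfIntegers K F)) :
    (placeOfPrime K w).toValuationSubring = (w.valuation F).valuationSubring := rfl

theorem placeOfPrime_injective : Function.Injective (placeOfPrime K (F := F)) := by
  intro w w' h
  have h1 : (w.valuation F).valuationSubring = (w'.valuation F).valuationSubring :=
    congrArg Place.toValuationSubring h
  exact HeightOneSpectrum.eq_of_valuation_isEquiv_valuation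
    ((Valuation.isEquiv_iff_valuationSubring _ _).mpr h1)

theorem ffs_poly_mem (v : Place K F)
    (hv : algebraMap K[X] F X ∈ v.toValuationSubring) (p : K[X]) :
    algebraMap K[X] F p ∈ v.toValuationSubring := by
  induction p using Polynomial.induction_on with
  | C a =>
    rw [← Polynomial.algebraMap_eq, ← IsScalarTower.algebraMap_apply K K[X] F]
    exact v.algebraMap_mem' a
  | add p q hp hq => rw [map_add]; exact add_mem hp hq
  | monomial n a h =>
    rw [pow_succ, ← mul_assoc, map_mul]; exact mul_mem h hv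

theorem ffs_int_mem (v : Place K F)
    (hv : algebraMap K[X] F X ∈ v.toValuationSubring)
    (b : FunctionField.ringOfIntegers K F) : (b : F) ∈ v.toValuationSubring := by
  have hb : IsIntegral K[X] (b : F) := b.2
  let φ : K[X] →+* v.toValuationSubring :=
    (algebraMap K[X] F).codRestrict v.toValuationSubring.toSubring (ffs_poly_mem K v hv)
  have h2 : IsIntegral v.toValuationSubring (b : F) :=
    IsIntegral.map_of_comp_eq φ (RingHom.id F) (by ext p <;> rfl) hb
  obtain ⟨y, hy⟩ := (IsIntegrallyClosed.isIntegral_iff (R := v.toValuationSubring) (K := F)).mp h2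
  rw [← hy]
  exact y.2

theorem exists_placeOfPrime_eq (v : Place K F)
    (hv : algebraMap K[X] F X ∈ v.toValuationSubring) : ∃ w, placeOfPrime K w = v := by
  classical
  let B := FunctionField.ringOfIntegers K F
  let ι : B →+* v.toValuationSubring :=
    (algebraMap B F).codRestrict v.toValuationSubring.toSubring (ffs_int_mem K v hv)
  have hι : ∀ b : B, ((ι b : v.toValuationSubring) : F) = (b : F) := fun b => rfl
  let P : Ideal B := Ideal.comap ι (IsLocalRing.maximalIdeal v.toValuationSubring)
  have hPprime : P.IsPrime := Ideal.comap_isPrime ι _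
  have hunit : ∀ b : B, b ∉ P → (b : F)⁻¹ ∈ v.toValuationSubring := by
    intro b hb
    have hu : IsUnit (ι b) := by
      by_contra hnu
      exact hb ((IsLocalRing.mem_maximalIdeal _).mpr hnu)
    obtain ⟨u, hu⟩ := hu
    have : (b : F)⁻¹ = ((u⁻¹ : (v.toValuationSubring)ˣ) : v.toValuationSubring) := by
      rw [← hι b, ← hu]
      rw [eq_comm, ← mul_eq_one_iff_eq_inv₀]
      · rw [← Subring.coe_mul] ; simp
      · intro h0
        have : (u : v.toValuationSubring) = 0 := Subtype.ext h0
        exact u.ne_zero this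
    rw [this]
    exact Subtype.mem _
  have hPne : P ≠ ⊥ := by
    intro hP
    apply v.ne_top'
    refine SetLike.ext fun f => ⟨fun _ => ValuationSubring.mem_top f, fun _ => ?_⟩
    obtain ⟨a, s, hs, rfl⟩ := IsFractionRing.div_surjective (A := B) f
    have hs0 : s ≠ 0 := nonZeroDivisors.ne_zero hs
    have hsP : s ∉ P := by rw [hP]; simpa using hs0
    rw [div_eq_mul_inv]
    exact mul_mem (ffs_int_mem K v hv a) (hunit s hsP)
  let w : HeightOneSpectrum B := ⟨P, hPprime, hPne⟩
  refine ⟨w, Place.ext ?_⟩
  rw [placeOfPrime_toValuationSubring,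
    ← HeightOneSpectrum.valuationSubringAtPrime_eq_valuationSubring]
  refine ValuationSubring.eq_of_le_of_ne_top _ ?_ v.ne_top'
  rintro x ⟨a, s, hs, rfl⟩
  exact mul_mem (ffs_int_mem K v hv a) (hunit s hs)

theorem ffs_val_unit (w : HeightOneSpectrum (FunctionField.ringOfIntegers K F))
    (u : ((placeOfPrime K w).toValuationSubring)ˣ) :
    w.valuation F ((u : (placeOfPrime K w).toValuationSubring) : F) = 1 := by
  have h1 : w.valuation F ((u : (placeOfPrime K w).toValuationSubring) : F) ≤ 1 :=
    (u : (placeOfPrime K w).toValuationSubring).2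
  have h2 : w.valuation F (((u⁻¹ : ((placeOfPrime K w).toValuationSubring)ˣ) :
      (placeOfPrime K w).toValuationSubring) : F) ≤ 1 :=
    ((u⁻¹ : ((placeOfPrime K w).toValuationSubring)ˣ) : (placeOfPrime K w).toValuationSubring).2
  have h3 : ((u : (placeOfPrime K w).toValuationSubring) : F)
      * (((u⁻¹ : ((placeOfPrime K w).toValuationSubring)ˣ) :
          (placeOfPrime K w).toValuationSubring) : F) = 1 := by
    rw [← Subring.coe_mul]; simp
  have h4 := congrArg (w.valuation F) h3
  rw [map_mul, map_one] at h4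
  refine le_antisymm h1 ?_
  by_contra hlt
  rw [not_le] at hlt
  exact absurd h4 (ne_of_lt (mul_lt_one_of_lt_of_le hlt h2))

/-- the valuation of an irreducible element of the valuation ring of `w` is `exp (-1)`. -/
theorem ffs_val_irreducible (w : HeightOneSpectrum (FunctionField.ringOfIntegers K F))
    (π : (placeOfPrime K w).toValuationSubring) (hπ : Irreducible π) :
    w.valuation F (π : F) = WithZero.exp (-1 : ℤ) := by
  have hπ0 : (π : F) ≠ 0 := by
    intro h0
    exact hπ.ne_zero (Subtype.ext h0)
  have hπle : w.valuation F (π : F) ≤ 1 := π.2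
  have hπlt : w.valuation F (π : F) < 1 := by
    refine lt_of_le_of_ne hπle fun h1 => ?_
    apply hπ.not_isUnit
    have hinv : (π : F)⁻¹ ∈ (placeOfPrime K w).toValuationSubring := by
      show w.valuation F (π : F)⁻¹ ≤ 1
      rw [map_inv₀, h1, inv_one]
    refine IsUnit.of_mul_eq_one ⟨(π : F)⁻¹, hinv⟩ ?_
    apply Subtype.ext
    show (π : F) * (π : F)⁻¹ = 1
    exact mul_inv_cancel₀ hπ0
  have hπne : w.valuation F (π : F) ≠ 0 := (Valuation.ne_zero_iff _).mpr hπ0
  obtain ⟨ϖ, hϖ⟩ := w.valuation_exists_uniformizer F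
  have hϖ0 : ϖ ≠ 0 := by
    intro h0
    rw [h0, map_zero] at hϖ
    exact WithZero.exp_ne_zero.symm hϖ
  obtain ⟨u, hu⟩ := (placeOfPrime K w).exists_unit_mul_zpow hϖ0 hπ
  have h5 := congrArg (w.valuation F) hu
  rw [map_mul, ffs_val_unit K w u, one_mul, map_zpow₀, hϖ] at h5
  set m := WithZero.log (w.valuation F (π : F)) with hm
  have hexp : w.valuation F (π : F) = WithZero.exp m := (WithZero.exp_log hπne).symm
  have hmneg : m < 0 := by
    have : WithZero.exp m < WithZero.exp (0 : ℤ) := by
      rw [← hexp]; simpa using hπlt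
    exact WithZero.exp_lt_exp.mp this
  rw [hexp, ← WithZero.exp_zsmul] at h5
  have h6 : (-1 : ℤ) = (placeOfPrime K w).ord ϖ • m := WithZero.exp_injective h5
  rw [smul_eq_mul] at h6
  have hm1 : m = -1 := by
    have hdvd : m ∣ 1 := ⟨-((placeOfPrime K w).ord ϖ), by linarith⟩
    have := Int.natAbs_dvd_natAbs.mpr hdvd
    have habs : m.natAbs = 1 := by simpa using this
    omega
  rw [hexp, hm1]

theorem placeOfPrime_ord (w : HeightOneSpectrum (FunctionField.ringOfIntegers K F)) (f : F) :
    (placeOfPrime K w).ord f = -(WithZero.log (w.valuation F f)) := by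
  rcases eq_or_ne f 0 with rfl | hf
  · simp
  obtain ⟨π, hπ⟩ := IsDiscreteValuationRing.exists_irreducible
    (placeOfPrime K w).toValuationSubring
  obtain ⟨u, hu⟩ := (placeOfPrime K w).exists_unit_mul_zpow hf hπ
  have h5 := congrArg (w.valuation F) hu
  rw [map_mul, ffs_val_unit K w u, one_mul, map_zpow₀, ffs_val_irreducible K w π hπ,
    ← WithZero.exp_zsmul] at h5
  rw [h5, WithZero.log_exp]
  simp

theorem mem_placeOfPrime_iff (w : HeightOneSpectrum (FunctionField.ringOfIntegers K F)) (f : F) :
    f ∈ (placeOfPrime K w).toValuationSubring ↔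
      ∃ b u : FunctionField.ringOfIntegers K F, u ∉ w.asIdeal ∧ f = (b : F) / (u : F) := by
  constructor
  · intro hf
    have hf' : w.valuation F f ≤ 1 := hf
    obtain ⟨n, d, hnd⟩ := HeightOneSpectrum.exists_primeCompl_mul_eq_of_integer w f hf'
    refine ⟨n, d, d.2, ?_⟩
    have hd0 : ((d : FunctionField.ringOfIntegers K F) : F) ≠ 0 := by
      intro h0
      have : (d : FunctionField.ringOfIntegers K F) = 0 := Subtype.ext h0
      exact d.2 (this ▸ Ideal.zero_mem _)
    rw [eq_div_iff hd0]
    exact hnd
  · rintro ⟨b, u, hu, rfl⟩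
    show w.valuation F ((b : F) / (u : F)) ≤ 1
    rw [map_div₀]
    have h1 : w.valuation F (u : F) = 1 :=
      (HeightOneSpectrum.valuation_eq_one_iff_notMem (K := F) w).mpr hu
    rw [h1, div_one]
    exact w.valuation_le_one b

theorem ringOfIntegers_finite : Module.Finite K[X] (FunctionField.ringOfIntegers K F) := by
  infer_instance

end dict

end A1

end Fermat.Agent.S24
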