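import Mathlib
import Fermat.Prelude.Def_AlgebraicCurve_CanonicalDivisor

/-!
# S24, piece A0: basic API for `AlgebraicCurve.Place` and `Place.ord`
-/

set_option autoImplicit false

namespace Fermat.Agent.S24

open AlgebraicCurve

section A0

variable {K F : Type*} [Field K] [Field F] [Algebra K F]

theorem mem_iff_ord_nonneg (v : Place K F) (f : F) :
    f ∈ v.toValuationSubring ↔ 0 ≤ v.ord f := by
  rcases eq_or_ne f 0 with rfl | hf
  · simp [v.toValuationSubring.zero_mem]
  obtain ⟨π, hπ⟩ := IsDiscreteValuationRing.exists_irreducible v.toValuationSubring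
  obtain ⟨u, hu⟩ := v.exists_unit_mul_zpow hf hπ
  have hπF : (π : F) ≠ 0 := by
    simpa [ne_eq, ZeroMemClass.coe_eq_zero] using hπ.ne_zero
  constructor
  · intro hmem
    by_contra hneg
    push Not at hneg
    obtain ⟨k, hk⟩ : ∃ k : ℕ, -(v.ord f) = k + 1 := ⟨(-(v.ord f) - 1).toNat, by omega⟩
    have h1 : ((u : v.toValuationSubring) : F) = f * (π : F) ^ (k + 1) := by
      have h2 : (π : F) ^ (v.ord f) * (π : F) ^ (k + 1) = 1 := by
        rw [← zpow_natCast, ← zpow_add₀ hπF]
        have : v.ord f + ((k + 1 : ℕ) : ℤ) = 0 := by push_cast; omega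
        rw [this, zpow_zero]
      conv_rhs => rw [hu]
      rw [mul_assoc, h2, mul_one]
    have hu' : (u : v.toValuationSubring) = ⟨f, hmem⟩ * π ^ (k + 1) := Subtype.ext (by
      rw [h1]; simp)
    have hdvd : π ∣ (u : v.toValuationSubring) := ⟨⟨f, hmem⟩ * π ^ k, by rw [hu']; ring⟩
    exact hπ.not_isUnit (isUnit_of_dvd_unit hdvd u.isUnit)
  · intro hn
    rw [hu]
    obtain ⟨k, hk⟩ := Int.eq_ofNat_of_zero_le hn
    rw [hk, zpow_natCast]
    exact v.toValuationSubring.mul_mem _ _ (u : v.toValuationSubring).2 (pow_mem π.2 k)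

theorem mem_nonunits_iff_ord_pos (v : Place K F) {f : F} (hf : f ≠ 0) :
    f ∈ v.toValuationSubring.nonunits ↔ 0 < v.ord f := by
  rw [ValuationSubring.mem_nonunits_iff_or, mem_iff_ord_nonneg, v.ord_inv]
  constructor
  · rintro (h | h)
    · exact absurd h hf
    · omega
  · intro h
    right
    omega

theorem ord_algebraMap (v : Place K F) (c : K) : v.ord (algebraMap K F c) = 0 := by
  rcases eq_or_ne c 0 with rfl | hc
  · simp
  have h1 : 0 ≤ v.ord (algebraMap K F c) :=
    (mem_iff_ord_nonneg v _).mp (v.algebraMap_mem' c)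
  have h2 : 0 ≤ v.ord (algebraMap K F c⁻¹) :=
    (mem_iff_ord_nonneg v _).mp (v.algebraMap_mem' c⁻¹)
  rw [map_inv₀, v.ord_inv] at h2
  omega

theorem ord_neg_one (v : Place K F) : v.ord (-1 : F) = 0 := by
  have h := v.ord_mul (f := (-1 : F)) (g := -1) (by simp) (by simp)
  rw [neg_one_mul, neg_neg, v.ord_one] at h
  omega

theorem ord_neg (v : Place K F) (f : F) : v.ord (-f) = v.ord f := by
  rcases eq_or_ne f 0 with rfl | hf
  · simp
  rw [← neg_one_mul, v.ord_mul (by simp) hf, ord_neg_one, zero_add]

theorem ord_pow (v : Place K F) (f : F) (n : ℕ) : v.ord (f ^ n) = n * v.ord f := by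
  have := v.ord_zpow f n
  rwa [zpow_natCast] at this

theorem ord_add_ge (v : Place K F) {f g : F} (hfg : f + g ≠ 0) :
    min (v.ord f) (v.ord g) ≤ v.ord (f + g) := by
  rcases eq_or_ne f 0 with rfl | hf
  · simp
  rcases eq_or_ne g 0 with rfl | hg
  · simp
  obtain ⟨π, hπ⟩ := IsDiscreteValuationRing.exists_irreducible v.toValuationSubring
  have hπF : (π : F) ≠ 0 := by
    simpa [ne_eq, ZeroMemClass.coe_eq_zero] using hπ.ne_zero
  have hπ1 : v.ord (π : F) = 1 := v.ord_coe_irreducible hπ
  set n := min (v.ord f) (v.ord g) with hn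
  have hz : (π : F) ^ (-n) ≠ 0 := zpow_ne_zero _ hπF
  have hzo : v.ord ((π : F) ^ (-n)) = -n := by rw [v.ord_zpow, hπ1, mul_one]
  have h1 : (π : F) ^ (-n) * f ∈ v.toValuationSubring := by
    rw [mem_iff_ord_nonneg, v.ord_mul hz hf, hzo]
    have := min_le_left (v.ord f) (v.ord g)
    omega
  have h2 : (π : F) ^ (-n) * g ∈ v.toValuationSubring := by
    rw [mem_iff_ord_nonneg, v.ord_mul hz hg, hzo]
    have := min_le_right (v.ord f) (v.ord g)
    omega
  have h3 := v.toValuationSubring.add_mem _ _ h1 h2
  rw [← mul_add, mem_iff_ord_nonneg, v.ord_mul hz hfg, hzo] at h3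
  omega

theorem ord_add_eq_of_lt (v : Place K F) {f g : F} (hf : f ≠ 0) (_hg : g ≠ 0)
    (h : v.ord f < v.ord g) : v.ord (f + g) = v.ord f := by
  have hfg : f + g ≠ 0 := by
    intro h0
    have : f = -g := eq_neg_of_add_eq_zero_left h0
    rw [this, ord_neg] at h
    exact lt_irrefl _ h
  have h1 := ord_add_ge v hfg
  have h2 : min (v.ord (f + g)) (v.ord (-g)) ≤ v.ord (f + g + -g) :=
    ord_add_ge v (by simpa using hf)
  rw [add_neg_cancel_right, ord_neg] at h2
  rw [min_eq_left h.le] at h1
  rcases le_total (v.ord (f + g)) (v.ord g) with h3 | h3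
  · rw [min_eq_left h3] at h2
    omega
  · rw [min_eq_right h3] at h2
    omega

/-- A place is determined by its order function. -/
theorem place_ext_ord {v w : Place K F} (h : ∀ f : F, 0 ≤ v.ord f ↔ 0 ≤ w.ord f) : v = w := by
  apply Place.ext
  ext f
  rw [mem_iff_ord_nonneg, mem_iff_ord_nonneg, h f]

/-- The action of `K`-automorphisms on places, in terms of `ord`. -/
theorem ord_smul_place (σ : F ≃ₐ[K] F) (v : Place K F) (f : F) :
    (σ • v).ord f = v.ord (σ.symm f) := by
  have h := Place.ord_smul σ v (σ.symm f)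
  rwa [AlgEquiv.apply_symm_apply] at h

theorem ord_unit_eq_zero (v : Place K F) {f : F} (hf : f ∈ v.toValuationSubring)
    (hf' : f⁻¹ ∈ v.toValuationSubring) : v.ord f = 0 := by
  rw [mem_iff_ord_nonneg] at hf hf'
  rw [v.ord_inv] at hf'
  omega

/-- A place from an integer-valued valuation-like function. -/
theorem exists_place_of_ord (o : F → ℤ)
    (hmul : ∀ f g : F, f ≠ 0 → g ≠ 0 → o (f * g) = o f + o g)
    (hadd : ∀ f g : F, f ≠ 0 → g ≠ 0 → f + g ≠ 0 → min (o f) (o g) ≤ o (f + g))
    (hK : ∀ c : K, c ≠ 0 → o (algebraMap K F c) = 0)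
    (hnt : ∃ f : F, f ≠ 0 ∧ o f ≠ 0) :
    ∃ v : Place K F, ∃ e : ℤ, 0 < e ∧ ∀ f : F, f ≠ 0 → o f = e * v.ord f := by
  classical
  have o1 : o 1 = 0 := by
    have := hmul 1 1 one_ne_zero one_ne_zero
    rw [mul_one] at this
    omega
  have oinv : ∀ f : F, f ≠ 0 → o f⁻¹ = -o f := by
    intro f hf
    have := hmul f f⁻¹ hf (inv_ne_zero hf)
    rw [mul_inv_cancel₀ hf, o1] at this
    omega
  have oneg1 : o (-1) = 0 := by
    have := hmul (-1) (-1) (by simp) (by simp)
    rw [neg_one_mul, neg_neg, o1] at this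
    omega
  have oneg : ∀ f : F, f ≠ 0 → o (-f) = o f := by
    intro f hf
    rw [← neg_one_mul, hmul _ _ (by simp) hf, oneg1, zero_add]
  have opow : ∀ (f : F), f ≠ 0 → ∀ n : ℕ, o (f ^ n) = n * o f := by
    intro f hf n
    induction n with
    | zero => simp [o1]
    | succ n ih => rw [pow_succ, hmul _ _ (pow_ne_zero n hf) hf, ih]; push_cast; ring
  have ozpow : ∀ (f : F), f ≠ 0 → ∀ n : ℤ, o (f ^ n) = n * o f := by
    intro f hf n
    rcases n with n | n
    · simpa using opow f hf n
    · rw [Int.negSucc_eq, zpow_neg, oinv _ (zpow_ne_zero _ hf)]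
      have := opow f hf (n + 1)
      rw [show ((n : ℤ) + 1) = ((n + 1 : ℕ) : ℤ) by push_cast; ring, zpow_natCast, this]
      push_cast; ring
  let A : ValuationSubring F :=
    { carrier := {f | f = 0 ∨ 0 ≤ o f}
      mul_mem' := by
        rintro a b (rfl | ha) (rfl | hb)
        · left; simp
        · left; simp
        · left; simp
        · rcases eq_or_ne a 0 with rfl | ha0
          · left; simp
          rcases eq_or_ne b 0 with rfl | hb0
          · left; simp
          right
          rw [hmul a b ha0 hb0]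
          omega
      one_mem' := Or.inr o1.ge
      add_mem' := by
        intro a b ha hb
        rcases eq_or_ne a 0 with rfl | ha0
        · simpa using hb
        rcases eq_or_ne b 0 with rfl | hb0
        · simpa using ha
        rcases eq_or_ne (a + b) 0 with h0 | h0
        · left; exact h0
        right
        have ha' : 0 ≤ o a := ha.resolve_left ha0
        have hb' : 0 ≤ o b := hb.resolve_left hb0
        have := hadd a b ha0 hb0 h0
        exact le_trans (le_min ha' hb') this
      zero_mem' := Or.inl rfl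
      neg_mem' := by
        rintro a (rfl | ha)
        · left; simp
        · rcases eq_or_ne a 0 with rfl | ha0
          · left; simp
          right
          rwa [oneg a ha0]
      mem_or_inv_mem' := by
        intro a
        rcases eq_or_ne a 0 with rfl | ha0
        · left; left; rfl
        rcases le_total 0 (o a) with h | h
        · left; right; exact h
        · right; right
          rw [oinv a ha0]
          omega }
  have hA : ∀ f : F, f ∈ A ↔ f = 0 ∨ 0 ≤ o f := fun f => Iff.rfl
  have hAK : ∀ a : K, algebraMap K F a ∈ A := by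
    intro a
    rcases eq_or_ne a 0 with rfl | ha
    · left; simp
    · right; rw [hK a ha]
  have hAtop : A ≠ ⊤ := by
    obtain ⟨f, hf0, hf⟩ := hnt
    intro htop
    have h1 : f ∈ A := by rw [htop]; exact ValuationSubring.mem_top f
    have h2 : f⁻¹ ∈ A := by rw [htop]; exact ValuationSubring.mem_top _
    rw [hA] at h1 h2
    have h1' := h1.resolve_left hf0
    have h2' := h2.resolve_left (inv_ne_zero hf0)
    rw [oinv f hf0] at h2'
    omega
  have hApid : IsPrincipalIdealRing A := by
    constructor
    intro I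
    by_cases hI : I = ⊥
    · rw [hI]; exact ⟨0, by simp⟩
    -- choose an element of minimal order
    have hex : ∃ n : ℕ, ∃ a : A, a ∈ I ∧ a ≠ 0 ∧ o (a : F) = n := by
      obtain ⟨a, haI, ha0⟩ := Submodule.exists_mem_ne_zero_of_ne_bot hI
      have ha0' : (a : F) ≠ 0 := by simpa using ha0
      have : 0 ≤ o (a : F) := ((hA _).mp a.2).resolve_left ha0'
      exact ⟨(o (a : F)).toNat, a, haI, ha0, by omega⟩
    obtain ⟨a, haI, ha0, han⟩ := Nat.find_spec hex
    have hmin := fun m => Nat.find_min hex (m := m)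
    refine ⟨a, le_antisymm ?_ ?_⟩
    · intro b hb
      rw [Ideal.submodule_span_eq, Ideal.mem_span_singleton]
      rcases eq_or_ne b 0 with rfl | hb0
      · exact dvd_zero a
      have ha0' : (a : F) ≠ 0 := by simpa using ha0
      have hb0' : (b : F) ≠ 0 := by simpa using hb0
      have hbn : 0 ≤ o (b : F) := ((hA _).mp b.2).resolve_left hb0'
      have hle : o (a : F) ≤ o (b : F) := by
        by_contra hlt
        push Not at hlt
        have := hmin (o (b : F)).toNat (by omega)
        exact this ⟨b, hb, hb0, by omega⟩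
      have hq : (b : F) * (a : F)⁻¹ ∈ A := by
        rw [hA]; right
        rw [hmul _ _ hb0' (inv_ne_zero ha0'), oinv _ ha0']
        omega
      refine ⟨⟨(b : F) * (a : F)⁻¹, hq⟩, Subtype.ext ?_⟩
      simp only [MulMemClass.coe_mul]
      field_simp
    · rw [Ideal.submodule_span_eq, Ideal.span_le]
      simpa using haI
  obtain ⟨v, hvA⟩ : ∃ v : Place K F, v.toValuationSubring = A :=
    ⟨⟨A, hAK, hAtop, hApid⟩, rfl⟩
  have hA' : ∀ f : F, f ∈ v.toValuationSubring ↔ f = 0 ∨ 0 ≤ o f := by
    intro f; rw [hvA]; exact hA f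
  obtain ⟨π, hπ⟩ := IsDiscreteValuationRing.exists_irreducible v.toValuationSubring
  have hπF : (π : F) ≠ 0 := by
    simpa [ne_eq, ZeroMemClass.coe_eq_zero] using hπ.ne_zero
  have hunit : ∀ u : v.toValuationSubringˣ, o ((u : v.toValuationSubring) : F) = 0 := by
    intro u
    have hu0 : ((u : v.toValuationSubring) : F) ≠ 0 := by simp
    have h1 : 0 ≤ o ((u : v.toValuationSubring) : F) :=
      ((hA' _).mp (u : v.toValuationSubring).2).resolve_left hu0
    have h2 := ((hA' _).mp ((u⁻¹ : v.toValuationSubringˣ) : v.toValuationSubring).2)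
    have h3 : (((u⁻¹ : v.toValuationSubringˣ) : v.toValuationSubring) : F)
        = (((u : v.toValuationSubring)) : F)⁻¹ := by
      have := congrArg (Subtype.val) (u.inv_mul)
      simp only [MulMemClass.coe_mul, OneMemClass.coe_one] at this
      exact eq_inv_of_mul_eq_one_left this
    rw [h3] at h2
    have h2' := h2.resolve_left (inv_ne_zero hu0)
    rw [oinv _ hu0] at h2'
    omega
  have hπpos : 0 < o (π : F) := by
    have h1 : 0 ≤ o (π : F) := ((hA' _).mp π.2).resolve_left hπF
    rcases h1.lt_or_eq with h | h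
    · exact h
    · exfalso
      have hinv : (π : F)⁻¹ ∈ v.toValuationSubring := by
        rw [hA']; right; rw [oinv _ hπF]; omega
      apply hπ.not_isUnit
      refine IsUnit.of_mul_eq_one (⟨(π : F)⁻¹, hinv⟩ : v.toValuationSubring) (Subtype.ext ?_)
      simp only [MulMemClass.coe_mul, OneMemClass.coe_one]
      exact mul_inv_cancel₀ hπF
  refine ⟨v, o (π : F), hπpos, fun f hf => ?_⟩
  obtain ⟨u, hu⟩ := v.exists_unit_mul_zpow hf hπ
  have hu0 : ((u : v.toValuationSubring) : F) ≠ 0 := by simp
  conv_lhs => rw [hu]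
  rw [hmul _ _ hu0 (zpow_ne_zero _ hπF), hunit u, ozpow _ hπF, zero_add, mul_comm]

/-- A place of a fraction field from an integer-valued valuation-like function on the ring. -/
theorem exists_place_of_ord_fraction {R L : Type*} [CommRing R] [IsDomain R] [Algebra K R]
    [Field L] [Algebra K L] [Algebra R L] [IsFractionRing R L] [IsScalarTower K R L]
    (o : R → ℤ)
    (hmul : ∀ a b : R, a ≠ 0 → b ≠ 0 → o (a * b) = o a + o b)
    (hadd : ∀ a b : R, a ≠ 0 → b ≠ 0 → a + b ≠ 0 → min (o a) (o b) ≤ o (a + b))
    (hK : ∀ c : K, c ≠ 0 → o (algebraMap K R c) = 0)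
    (hnt : ∃ a : R, a ≠ 0 ∧ o a ≠ 0) :
    ∃ v : Place K L, ∃ e : ℤ, 0 < e ∧
      ∀ a : R, a ≠ 0 → o a = e * v.ord (algebraMap R L a) := by
  classical
  have hinj : Function.Injective (algebraMap R L) := IsFractionRing.injective R L
  have hne : ∀ a : R, a ≠ 0 → algebraMap R L a ≠ 0 := fun a ha =>
    (map_ne_zero_iff _ hinj).mpr ha
  have o1 : o 1 = 0 := by
    have := hmul 1 1 one_ne_zero one_ne_zero
    rw [mul_one] at this
    omega
  -- representation of elements as fractions
  have hrep : ∀ x : L, ∃ p : R × R, p.2 ≠ 0 ∧ x = algebraMap R L p.1 / algebraMap R L p.2 := by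
    intro x
    obtain ⟨a, b, hb, rfl⟩ := IsFractionRing.div_surjective (A := R) x
    exact ⟨(a, b), nonZeroDivisors.ne_zero hb, rfl⟩
  choose rep hrep2 hrep1 using hrep
  let o' : L → ℤ := fun x => o (rep x).1 - o (rep x).2
  have key : ∀ a b : R, a ≠ 0 → b ≠ 0 →
      o' (algebraMap R L a / algebraMap R L b) = o a - o b := by
    intro a b ha hb
    set x := algebraMap R L a / algebraMap R L b with hx
    have h2 := hrep2 x
    have h1 := hrep1 x
    have hx0 : x ≠ 0 := div_ne_zero (hne a ha) (hne b hb)
    have hr1 : (rep x).1 ≠ 0 := by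
      intro h0
      rw [h0, map_zero, zero_div] at h1
      exact hx0 h1
    have heq : a * (rep x).2 = (rep x).1 * b := by
      apply hinj
      rw [map_mul, map_mul]
      have := h1
      rw [hx, div_eq_div_iff (hne b hb) (hne _ h2)] at this
      exact this
    have := congrArg o heq
    rw [hmul _ _ ha h2, hmul _ _ hr1 hb] at this
    show o (rep x).1 - o (rep x).2 = o a - o b
    omega
  have hK' : ∀ c : K, c ≠ 0 → algebraMap K R c ≠ 0 := by
    intro c hc
    have : Function.Injective (algebraMap K R) := (algebraMap K R).injective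
    exact (map_ne_zero_iff _ this).mpr hc
  obtain ⟨v, e, he, hv⟩ := exists_place_of_ord (K := K) (F := L) o' (by
      intro x y hx hy
      have hx1 := hrep1 x
      have hy1 := hrep1 y
      have hx2 := hrep2 x
      have hy2 := hrep2 y
      have hxa : (rep x).1 ≠ 0 := by
        intro h0; rw [h0, map_zero, zero_div] at hx1; exact hx hx1
      have hya : (rep y).1 ≠ 0 := by
        intro h0; rw [h0, map_zero, zero_div] at hy1; exact hy hy1
      have hxy : x * y = algebraMap R L ((rep x).1 * (rep y).1)
          / algebraMap R L ((rep x).2 * (rep y).2) := by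
        rw [map_mul, map_mul, ← div_mul_div_comm, ← hx1, ← hy1]
      rw [hxy, key _ _ (mul_ne_zero hxa hya) (mul_ne_zero hx2 hy2), hmul _ _ hxa hya,
        hmul _ _ hx2 hy2]
      show _ = (o (rep x).1 - o (rep x).2) + (o (rep y).1 - o (rep y).2)
      ring)
    (by
      intro x y hx hy hxy
      have hx1 := hrep1 x
      have hy1 := hrep1 y
      have hx2 := hrep2 x
      have hy2 := hrep2 y
      have hxa : (rep x).1 ≠ 0 := by
        intro h0; rw [h0, map_zero, zero_div] at hx1; exact hx hx1
      have hya : (rep y).1 ≠ 0 := by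
        intro h0; rw [h0, map_zero, zero_div] at hy1; exact hy hy1
      have hsum : x + y = algebraMap R L ((rep x).1 * (rep y).2 + (rep y).1 * (rep x).2)
          / algebraMap R L ((rep x).2 * (rep y).2) := by
        rw [map_add, map_mul, map_mul, map_mul]
        conv_lhs => rw [hx1, hy1]
        rw [div_add_div _ _ (hne _ hx2) (hne _ hy2)]
        ring
      have hnum : (rep x).1 * (rep y).2 + (rep y).1 * (rep x).2 ≠ 0 := by
        intro h0
        rw [h0, map_zero, zero_div] at hsum
        exact hxy hsum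
      rw [hsum, key _ _ hnum (mul_ne_zero hx2 hy2), hmul _ _ hx2 hy2]
      have h := hadd _ _ (mul_ne_zero hxa hy2) (mul_ne_zero hya hx2) hnum
      rw [hmul _ _ hxa hy2, hmul _ _ hya hx2] at h
      show min (o (rep x).1 - o (rep x).2) (o (rep y).1 - o (rep y).2) ≤ _
      have h3 : min (o (rep x).1 - o (rep x).2) (o (rep y).1 - o (rep y).2)
          = min (o (rep x).1 + o (rep y).2) (o (rep y).1 + o (rep x).2)
            - (o (rep x).2 + o (rep y).2) := by
        rcases le_total (o (rep x).1 + o (rep y).2) (o (rep y).1 + o (rep x).2) with h4 | h4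
        · rw [min_eq_left h4, min_eq_left (by omega)]; ring
        · rw [min_eq_right h4, min_eq_right (by omega)]; ring
      rw [h3]
      omega)
    (by
      intro c hc
      have : algebraMap K L c = algebraMap R L (algebraMap K R c) / algebraMap R L 1 := by
        rw [map_one, div_one, ← IsScalarTower.algebraMap_apply]
      rw [this, key _ _ (hK' c hc) one_ne_zero, hK c hc, o1, sub_zero])
    (by
      obtain ⟨a, ha, hoa⟩ := hnt
      refine ⟨algebraMap R L a, hne a ha, ?_⟩
      have : algebraMap R L a = algebraMap R L a / algebraMap R L 1 := by rw [map_one, div_one]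
      rw [this, key _ _ ha one_ne_zero, o1, sub_zero]
      exact hoa)
  refine ⟨v, e, he, fun a ha => ?_⟩
  rw [← hv _ (hne a ha)]
  have : algebraMap R L a = algebraMap R L a / algebraMap R L 1 := by rw [map_one, div_one]
  rw [this, key _ _ ha one_ne_zero, o1, sub_zero]

/-- Restriction of a place along a field embedding on which it is non-trivial. -/
theorem exists_restrict_place {L : Type*} [Field L] [Algebra K L] [Algebra F L]
    [IsScalarTower K F L] (w : Place K L)
    (hnt : ∃ f : F, f ≠ 0 ∧ w.ord (algebraMap F L f) ≠ 0) :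
    ∃ v : Place K F, ∃ e : ℤ, 0 < e ∧ ∀ f : F, w.ord (algebraMap F L f) = e * v.ord f := by
  have hne : ∀ f : F, f ≠ 0 → algebraMap F L f ≠ 0 := fun f hf =>
    (map_ne_zero_iff _ (algebraMap F L).injective).mpr hf
  obtain ⟨v, e, he, hv⟩ := exists_place_of_ord (K := K) (F := F)
    (fun f => w.ord (algebraMap F L f))
    (fun f g hf hg => by
      show w.ord (algebraMap F L (f * g)) = _
      rw [map_mul, w.ord_mul (hne f hf) (hne g hg)])
    (fun f g hf hg hfg => by
      show _ ≤ w.ord (algebraMap F L (f + g))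
      rw [map_add]
      exact ord_add_ge w (by rw [← map_add]; exact hne _ hfg))
    (fun c hc => by
      show w.ord (algebraMap F L (algebraMap K F c)) = 0
      rw [← IsScalarTower.algebraMap_apply]
      exact ord_algebraMap w c)
    hnt
  refine ⟨v, e, he, fun f => ?_⟩
  rcases eq_or_ne f 0 with rfl | hf
  · simp
  · exact hv f hf

end A0

end Fermat.Agent.S24
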