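import Mathlib
import Fermat.Prelude.Def_AlgebraicCurve_CanonicalDivisor
import Fermat.Agent.S24.PlaceBasic
import Fermat.Agent.S24.FFSetup

/-!
# S24, piece A2: fibres of a function `t : F → P¹`
-/

set_option autoImplicit false
set_option linter.unusedSectionVars false
set_option linter.style.haveILetI false

namespace Fermat.Agent.S24

open AlgebraicCurve IsDedekindDomain Polynomial KaehlerDifferential
open scoped IntermediateField RatFunc

section Trdeg

variable {K F : Type*} [Field K] [Field F] [Algebra K F]

open IntermediateField in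
/-- transcendence degree one: any transcendental element is a separating variable
(no hypothesis on `K`). -/
theorem fib_finiteDimensional_adjoin (x : F) (hx : Transcendental K x)
    [FiniteDimensional K⟮x⟯ F] (f : F) (hf : Transcendental K f) :
    FiniteDimensional K⟮f⟯ F := by
  have h1 : IsAlgebraic K⟮x⟯ f := Algebra.IsAlgebraic.isAlgebraic f
  have h2 : IsAlgebraic (Algebra.adjoin K {x}) f := isAlgebraic_adjoin_iff.mp h1
  have h3 : IsAlgebraic (Algebra.adjoin K {f}) x := by
    have := IsAlgebraic.adjoin_singleton (A := F) (B := F) hx hf h2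
    simpa using this
  have h4 : IsAlgebraic K⟮f⟯ x := isAlgebraic_adjoin_iff.mpr h3
  let Fyx := restrictScalars K K⟮f⟯⟮x⟯
  let Fxy := restrictScalars K K⟮x⟯⟮f⟯
  let : Algebra K⟮f⟯ Fyx := K⟮f⟯⟮x⟯.algebra
  let : Module K⟮f⟯ Fyx := Algebra.toModule
  let : SMul K⟮f⟯ Fyx := Algebra.toSMul
  let : Algebra K⟮x⟯ Fxy := K⟮x⟯⟮f⟯.algebra
  let : Module K⟮x⟯ Fxy := Algebra.toModule
  let : SMul K⟮x⟯ Fxy := Algebra.toSMul
  have : FiniteDimensional K⟮f⟯ Fyx :=
    adjoin.finiteDimensional (isAlgebraic_iff_isIntegral.mp h4)
  have : FiniteDimensional Fyx F := by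
    unfold Fyx
    rw [adjoin_simple_comm]
    have : IsScalarTower K⟮x⟯ Fxy F := isScalarTower_mid' K⟮x⟯⟮f⟯
    exact .right K⟮x⟯ Fxy F
  have : IsScalarTower K⟮f⟯ Fyx F := isScalarTower_mid' K⟮f⟯⟮x⟯
  exact .trans K⟮f⟯ Fyx F

end Trdeg

section Residue

variable {K F : Type*} [Field K] [Field F] [Algebra K F]

/-- The coercion of a polynomial evaluated in the valuation ring of a place. -/
lemma fib_coe_aeval (v : Place K F) (a : v.toValuationSubring) (p : K[X]) :
    ((Polynomial.aeval a p : v.toValuationSubring) : F) = Polynomial.aeval (a : F) p := by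
  have := Polynomial.aeval_algebraMap_apply (R := K) F a p
  exact this.symm

lemma fib_aeval_mem (v : Place K F) {f : F} (hf : f ∈ v.toValuationSubring) (p : K[X]) :
    Polynomial.aeval f p ∈ v.toValuationSubring := by
  rw [← fib_coe_aeval v ⟨f, hf⟩ p]
  exact (Polynomial.aeval (⟨f, hf⟩ : v.toValuationSubring) p).2

/-- An integral element of a place satisfies a nonzero polynomial equation modulo the maximal
ideal. -/
lemma fib_exists_poly (x : F) (hx : Transcendental K x) [FiniteDimensional K⟮x⟯ F]
    (v : Place K F) (f : F) (hf : f ∈ v.toValuationSubring) :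
    ∃ p : K[X], p ≠ 0 ∧ Polynomial.aeval f p ∈ v.toValuationSubring.nonunits := by
  by_cases halg : IsAlgebraic K f
  · obtain ⟨p, hp0, hp⟩ := halg
    refine ⟨p, hp0, ?_⟩
    rw [hp, ValuationSubring.mem_nonunits_iff, map_zero]
    exact zero_lt_one
  · have htr : Transcendental K f := halg
    by_contra hcon
    push Not at hcon
    have hFD : FiniteDimensional K⟮f⟯ F := fib_finiteDimensional_adjoin x hx f htr
    -- `K(f)` is contained in the valuation ring
    have hsub : ∀ z : F, z ∈ K⟮f⟯ → z ∈ v.toValuationSubring := by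
      intro z hz
      obtain ⟨r, s, rfl⟩ := (IntermediateField.mem_adjoin_simple_iff K z).mp hz
      by_cases hs : Polynomial.aeval f s = 0
      · rw [hs, div_zero]
        exact v.toValuationSubring.zero_mem
      · have hs0 : s ≠ 0 := by
          rintro rfl
          exact hs (map_zero _)
        have h1 := hcon s hs0
        have h2 : Polynomial.aeval f s ∈ v.toValuationSubring := fib_aeval_mem v hf s
        have h3 : v.toValuationSubring.valuation (Polynomial.aeval f s) = 1 := by
          rw [ValuationSubring.mem_nonunits_iff, not_lt] at h1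
          exact le_antisymm ((v.toValuationSubring.valuation_le_one_iff _).mpr h2) h1
        have h4 : (Polynomial.aeval f s)⁻¹ ∈ v.toValuationSubring := by
          rw [← ValuationSubring.valuation_le_one_iff, map_inv₀, h3, inv_one]
        rw [div_eq_mul_inv]
        exact v.toValuationSubring.mul_mem _ _ (fib_aeval_mem v hf r) h4
    -- hence everything is
    apply v.ne_top'
    rw [eq_top_iff]
    intro z _
    have hz : IsIntegral K⟮f⟯ z := Algebra.IsIntegral.isIntegral z
    obtain ⟨p, hmonic, hp⟩ := hz
    let φ : K⟮f⟯ →+* v.toValuationSubring :=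
      (algebraMap K⟮f⟯ F).codRestrict v.toValuationSubring.toSubring (fun z => hsub z z.2)
    have hφ : (algebraMap v.toValuationSubring F).comp φ = algebraMap K⟮f⟯ F := by
      ext z
      rfl
    have hint : IsIntegral v.toValuationSubring z := by
      refine ⟨p.map φ, hmonic.map φ, ?_⟩
      rw [Polynomial.eval₂_map, hφ]
      exact hp
    obtain ⟨y, hy⟩ := IsIntegrallyClosed.isIntegral_iff.mp hint
    rw [← hy]
    exact y.2

/-- An element of an extension field of an algebraically closed field which is algebraic is a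
constant. -/
lemma fib_exists_algebraMap_eq [IsAlgClosed K] {L : Type*} [Field L] [Algebra K L] {z : L}
    (hz : IsAlgebraic K z) : ∃ c : K, algebraMap K L c = z := by
  have h1 : (minpoly K z).degree = 1 :=
    IsAlgClosed.degree_eq_one_of_irreducible K (minpoly.irreducible hz.isIntegral)
  exact minpoly.mem_range_of_degree_eq_one K z h1

/-- (A2) Every integral element of a place is congruent to a constant modulo the maximal ideal
(no characteristic hypothesis). -/
theorem fib_exists_const_sub_mem_nonunits [IsAlgClosed K] (x : F) (hx : Transcendental K x)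
    [FiniteDimensional K⟮x⟯ F] (v : Place K F) (f : F) (hf : f ∈ v.toValuationSubring) :
    ∃ c : K, f - algebraMap K F c ∈ v.toValuationSubring.nonunits := by
  obtain ⟨p, hp0, hp⟩ := fib_exists_poly x hx v f hf
  -- the residue class of `f` is algebraic over `K`
  have halg : IsAlgebraic K (IsLocalRing.residue v.toValuationSubring ⟨f, hf⟩) := by
    refine ⟨p, hp0, ?_⟩
    have h1 : Polynomial.aeval (IsLocalRing.residue v.toValuationSubring ⟨f, hf⟩) p =
        IsLocalRing.residue v.toValuationSubring (Polynomial.aeval (⟨f, hf⟩ : v.toValuationSubring) p) := by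
      have := Polynomial.aeval_algebraMap_apply (R := K) (IsLocalRing.ResidueField v.toValuationSubring)
        (⟨f, hf⟩ : v.toValuationSubring) p
      exact this
    rw [h1]
    rw [ValuationSubring.mem_nonunits_iff_exists_mem_maximalIdeal] at hp
    obtain ⟨ha, hm⟩ := hp
    have h2 : (Polynomial.aeval (⟨f, hf⟩ : v.toValuationSubring) p) =
        ⟨Polynomial.aeval f p, ha⟩ := Subtype.ext (fib_coe_aeval v ⟨f, hf⟩ p)
    rw [h2]
    exact (IsLocalRing.residue_eq_zero_iff _).mpr hm
  obtain ⟨c, hc⟩ := fib_exists_algebraMap_eq halg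
  refine ⟨c, ?_⟩
  rw [ValuationSubring.mem_nonunits_iff_exists_mem_maximalIdeal]
  refine ⟨v.toValuationSubring.sub_mem hf (v.algebraMap_mem' c), ?_⟩
  have h3 : IsLocalRing.residue v.toValuationSubring (algebraMap K v.toValuationSubring c) =
      IsLocalRing.residue v.toValuationSubring ⟨f, hf⟩ := hc
  have h4 : (⟨f - algebraMap K F c, v.toValuationSubring.sub_mem hf (v.algebraMap_mem' c)⟩ :
      v.toValuationSubring) = ⟨f, hf⟩ - algebraMap K v.toValuationSubring c := rfl
  rw [h4, ← IsLocalRing.residue_eq_zero_iff, map_sub, h3, sub_self]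

/-- (A2) Every place has degree one (no characteristic hypothesis). -/
theorem fib_deg_eq_one [IsAlgClosed K] (x : F) (hx : Transcendental K x)
    [FiniteDimensional K⟮x⟯ F] (v : Place K F) : v.deg = 1 := by
  unfold Place.deg
  rw [finrank_eq_one_iff_of_nonzero' (1 : v.ResidueField) one_ne_zero]
  intro w
  obtain ⟨a, rfl⟩ := IsLocalRing.residue_surjective w
  obtain ⟨c, hc⟩ := fib_exists_const_sub_mem_nonunits x hx v (a : F) a.2
  refine ⟨c, ?_⟩
  rw [ValuationSubring.mem_nonunits_iff_exists_mem_maximalIdeal] at hc
  obtain ⟨ha, hm⟩ := hc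
  have h4 : (⟨(a : F) - algebraMap K F c, ha⟩ : v.toValuationSubring) =
      a - algebraMap K v.toValuationSubring c := rfl
  rw [h4, ← IsLocalRing.residue_eq_zero_iff, map_sub, sub_eq_zero] at hm
  rw [hm, Algebra.smul_def, mul_one]
  rfl

end Residue

section Dict
variable {K F : Type*} [Field K] [CharZero K] [Field F] [Algebra K F]
variable [Algebra K[X] F] [Algebra K⟮X⟯ F] [IsScalarTower K[X] K⟮X⟯ F] [IsScalarTower K K[X] F]
  [FunctionField K F]

/-- The image of `X` in the ring of integers. -/
noncomputable def fibT : FunctionField.ringOfIntegers K F :=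
  algebraMap K[X] (FunctionField.ringOfIntegers K F) X

lemma fibT_coe : ((fibT : FunctionField.ringOfIntegers K F) : F) = algebraMap K[X] F X := rfl

lemma fibT_ne_zero : (fibT : FunctionField.ringOfIntegers K F) ≠ 0 := by
  intro h
  have h1 : algebraMap K[X] F X = 0 := by
    rw [← fibT_coe, h]; rfl
  have h2 := FunctionField.algebraMap_injective K F
  rw [← map_zero (algebraMap K[X] F)] at h1
  exact X_ne_zero (h2 h1)

/-- Positivity of the order of an integral element at the place attached to a prime. -/
lemma fib_ord_coe_pos_iff (w : HeightOneSpectrum (FunctionField.ringOfIntegers K F))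
    (d : FunctionField.ringOfIntegers K F) (hd : d ≠ 0) :
    0 < (placeOfPrime K w).ord (d : F) ↔ d ∈ w.asIdeal := by
  rw [placeOfPrime_ord]
  have h0 : HeightOneSpectrum.valuation F w (d : F) ≠ 0 := by
    rw [Valuation.ne_zero_iff]
    intro h
    exact hd (Subtype.ext h)
  rw [neg_pos, ← WithZero.log_one, WithZero.log_lt_log h0 one_ne_zero]
  exact HeightOneSpectrum.valuation_lt_one_iff_mem (K := F) w d

/-- The order of `t` at the place attached to a prime, in terms of the valuation. -/
lemma fib_ord_pos_iff (w : HeightOneSpectrum (FunctionField.ringOfIntegers K F)) :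
    0 < (placeOfPrime K w).ord (algebraMap K[X] F X) ↔ fibT ∈ w.asIdeal :=
  fib_ord_coe_pos_iff w fibT fibT_ne_zero

/-- The order of `t` at the place attached to a prime is the multiplicity of the prime in the
factorisation of `(t)`. -/
lemma fib_ord_eq_count (w : HeightOneSpectrum (FunctionField.ringOfIntegers K F)) :
    (placeOfPrime K w).ord (algebraMap K[X] F X) =
      (Multiset.count w.asIdeal (UniqueFactorizationMonoid.normalizedFactors
        (Ideal.span {(fibT : FunctionField.ringOfIntegers K F)})) : ℤ) := by
  rw [placeOfPrime_ord, ← fibT_coe]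
  have h1 : HeightOneSpectrum.valuation F w ((fibT : FunctionField.ringOfIntegers K F) : F) =
      w.intValuation fibT := w.valuation_of_algebraMap fibT
  have h2 : Ideal.span {(fibT : FunctionField.ringOfIntegers K F)} ≠ 0 := by
    rw [Ne, Ideal.zero_eq_bot, Ideal.span_singleton_eq_bot]
    exact fibT_ne_zero
  rw [h1, w.intValuation_def, if_neg fibT_ne_zero, WithZero.log_exp, neg_neg,
    Ideal.count_associates_factors_eq h2 w.isPrime w.ne_bot]

/-- The zeros of `t` are the places attached to the primes containing `t`. -/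
lemma fib_zeros_eq_image :
    {v : Place K F | 0 < v.ord (algebraMap K[X] F X)} =
      placeOfPrime K '' {w : HeightOneSpectrum (FunctionField.ringOfIntegers K F) |
        fibT ∈ w.asIdeal} := by
  ext v
  constructor
  · intro hv
    have hv' : 0 < v.ord (algebraMap K[X] F X) := hv
    have hmem : algebraMap K[X] F X ∈ v.toValuationSubring :=
      (mem_iff_ord_nonneg v _).mpr hv'.le
    obtain ⟨w, rfl⟩ := exists_placeOfPrime_eq K v hmem
    exact ⟨w, (fib_ord_pos_iff w).mp hv', rfl⟩
  · rintro ⟨w, hw, rfl⟩
    exact (fib_ord_pos_iff w).mpr hw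

lemma fib_primes_finite :
    {w : HeightOneSpectrum (FunctionField.ringOfIntegers K F) | fibT ∈ w.asIdeal}.Finite := by
  have h2 : Ideal.span {(fibT : FunctionField.ringOfIntegers K F)} ≠ 0 := by
    rw [Ne, Ideal.zero_eq_bot, Ideal.span_singleton_eq_bot]
    exact fibT_ne_zero
  have := Ideal.finite_factors h2
  refine this.subset ?_
  intro w hw
  exact Ideal.dvd_span_singleton.mpr hw

/-- The ideal `(X)` of `K[X]`. -/
noncomputable def fibP : Ideal K[X] := Ideal.span {X}

instance fibP_isMaximal : (fibP : Ideal K[X]).IsMaximal :=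
  PrincipalIdealRing.isMaximal_of_irreducible irreducible_X

lemma fibP_map :
    (fibP : Ideal K[X]).map (algebraMap K[X] (FunctionField.ringOfIntegers K F)) =
      Ideal.span {(fibT : FunctionField.ringOfIntegers K F)} := by
  rw [fibP, Ideal.map_span, Set.image_singleton]
  rfl

lemma fib_liesOver_iff (q : Ideal (FunctionField.ringOfIntegers K F)) (hq : q.IsPrime) :
    q.LiesOver (fibP : Ideal K[X]) ↔ fibT ∈ q := by
  constructor
  · intro h
    have h1 : (X : K[X]) ∈ (fibP : Ideal K[X]) := Ideal.mem_span_singleton_self X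
    rw [h.over, Ideal.mem_comap] at h1
    exact h1
  · intro h
    constructor
    have hle : (fibP : Ideal K[X]) ≤ q.under K[X] := by
      rw [fibP, Ideal.span_le, Set.singleton_subset_iff]
      exact h
    have hne : q.under K[X] ≠ ⊤ := (Ideal.IsPrime.under K[X] q).ne_top
    exact (fibP_isMaximal.eq_of_le hne hle)

lemma fib_ne_bot_of_liesOver (q : Ideal (FunctionField.ringOfIntegers K F)) [hq : q.IsPrime]
    [hl : q.LiesOver (fibP : Ideal K[X])] : q ≠ ⊥ := by
  intro h
  have h1 : fibT ∈ q := (fib_liesOver_iff q hq).mp hl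
  rw [h, Ideal.mem_bot] at h1
  exact fibT_ne_zero h1

set_option synthInstance.maxHeartbeats 400000 in
set_option maxHeartbeats 1000000 in
/-- The inertia degree of a prime over `(X)` is one (`K` algebraically closed). -/
lemma fib_inertiaDeg [IsAlgClosed K] (ht : Transcendental K (algebraMap K[X] F X))
    [FiniteDimensional K⟮algebraMap K[X] F X⟯ F]
    (q : Ideal (FunctionField.ringOfIntegers K F)) [hq : q.IsPrime]
    [hl : q.LiesOver (fibP : Ideal K[X])] : q.inertiaDeg K[X] = 1 := by
  have hq0 : q ≠ ⊥ := fib_ne_bot_of_liesOver q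
  have : q.IsMaximal := hq.isMaximal hq0
  rw [Ideal.inertiaDeg_eq_of_isMaximal fibP q]
  let _ := Ideal.Quotient.field (fibP : Ideal K[X])
  have hone : (1 : FunctionField.ringOfIntegers K F ⧸ q) ≠ 0 := by
    intro h
    have h' : (Ideal.Quotient.mk q) 1 = 0 := h
    rw [Ideal.Quotient.eq_zero_iff_mem] at h'
    exact hq.ne_top ((Ideal.eq_top_iff_one q).mpr h')
  rw [finrank_eq_one_iff_of_nonzero' (1 : FunctionField.ringOfIntegers K F ⧸ q) hone]
  intro z
  obtain ⟨b, rfl⟩ := Ideal.Quotient.mk_surjective z
  -- the place attached to `q`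
  set w : HeightOneSpectrum (FunctionField.ringOfIntegers K F) := ⟨q, hq, hq0⟩ with hw
  have hb : (b : F) ∈ (placeOfPrime K w).toValuationSubring := by
    rw [mem_placeOfPrime_iff]
    refine ⟨b, 1, ?_, by simp⟩
    exact fun h => hq.ne_top ((Ideal.eq_top_iff_one q).mpr h)
  obtain ⟨c, hc⟩ := fib_exists_const_sub_mem_nonunits _ ht (placeOfPrime K w) (b : F) hb
  have hd : b - algebraMap K[X] (FunctionField.ringOfIntegers K F) (C c) ∈ q := by
    by_cases h0 : b - algebraMap K[X] (FunctionField.ringOfIntegers K F) (C c) = 0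
    · rw [h0]; exact q.zero_mem
    · have hcoe : ((b - algebraMap K[X] (FunctionField.ringOfIntegers K F) (C c) :
          FunctionField.ringOfIntegers K F) : F) = (b : F) - algebraMap K F c := by
        rw [IsScalarTower.algebraMap_apply K K[X] F c]
        rfl
      have h0' : (b : F) - algebraMap K F c ≠ 0 := by
        rw [← hcoe]
        intro h
        exact h0 (Subtype.ext h)
      have h1 := (mem_nonunits_iff_ord_pos (placeOfPrime K w) h0').mp hc
      rw [← hcoe] at h1
      exact (fib_ord_coe_pos_iff w _ h0).mp h1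
  refine ⟨Ideal.Quotient.mk fibP (C c), ?_⟩
  rw [Algebra.smul_def, mul_one]
  symm
  rw [← sub_eq_zero]
  have : (Ideal.Quotient.mk q) b - (algebraMap (K[X] ⧸ (fibP : Ideal K[X]))
      (FunctionField.ringOfIntegers K F ⧸ q)) ((Ideal.Quotient.mk fibP) (C c)) =
      Ideal.Quotient.mk q (b - algebraMap K[X] (FunctionField.ringOfIntegers K F) (C c)) := by
    rw [map_sub]
    rfl
  rw [this]
  exact Ideal.Quotient.eq_zero_iff_mem.mpr hd

/-- The prime of the ring of integers attached to a prime ideal over `(X)`. -/
noncomputable def fibPrime (q : (fibP : Ideal K[X]).primesOver (FunctionField.ringOfIntegers K F)) :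
    HeightOneSpectrum (FunctionField.ringOfIntegers K F) :=
  haveI := q.2.1
  haveI := q.2.2
  ⟨q.1, q.2.1, fib_ne_bot_of_liesOver q.1⟩

lemma fibPrime_injective :
    Function.Injective (fibPrime (K := K) (F := F)) := by
  intro q q' h
  apply Subtype.ext
  have := congrArg HeightOneSpectrum.asIdeal h
  exact this

lemma fibPrime_range :
    Set.range (fibPrime (K := K) (F := F)) =
      {w : HeightOneSpectrum (FunctionField.ringOfIntegers K F) | fibT ∈ w.asIdeal} := by
  ext w
  constructor
  · rintro ⟨q, rfl⟩
    exact (fib_liesOver_iff q.1 q.2.1).mp q.2.2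
  · intro hw
    exact ⟨⟨w.asIdeal, w.isPrime, (fib_liesOver_iff w.asIdeal w.isPrime).mpr hw⟩, rfl⟩

set_option synthInstance.maxHeartbeats 400000 in
set_option maxHeartbeats 1000000 in
/-- Finiteness of the zeros of `t` and the sum of the orders, in the dictionary set-up. -/
theorem fib_zeros_dict [IsAlgClosed K] (ht : Transcendental K (algebraMap K[X] F X))
    [FiniteDimensional K⟮algebraMap K[X] F X⟯ F] :
    {v : Place K F | 0 < v.ord (algebraMap K[X] F X)}.Finite ∧
      ∑ᶠ v ∈ {v : Place K F | 0 < v.ord (algebraMap K[X] F X)}, v.ord (algebraMap K[X] F X) =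
        Module.finrank K⟮X⟯ F := by
  constructor
  · rw [fib_zeros_eq_image]
    exact fib_primes_finite.image _
  · rw [fib_zeros_eq_image, finsum_mem_image ((placeOfPrime_injective K).injOn)]
    rw [← fibPrime_range, finsum_mem_range fibPrime_injective]
    have hfin : ((fibP : Ideal K[X]).primesOver (FunctionField.ringOfIntegers K F)).Finite := by
      have := ringOfIntegers_finite K (F := F)
      exact Algebra.QuasiFinite.finite_primesOver _
    have : Fintype ((fibP : Ideal K[X]).primesOver (FunctionField.ringOfIntegers K F)) :=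
      hfin.fintype
    rw [finsum_eq_sum_of_fintype]
    have hmod : Module.Finite K[X] (FunctionField.ringOfIntegers K F) := ringOfIntegers_finite K
    have hinj : Function.Injective (algebraMap K[X] F) := FunctionField.algebraMap_injective K F
    have hfaith : FaithfulSMul K[X] F := (faithfulSMul_iff_algebraMap_injective K[X] F).mpr hinj
    have htf : Module.IsTorsionFree K[X] F := inferInstance
    have hrank : Module.finrank K[X] (FunctionField.ringOfIntegers K F) = Module.finrank K⟮X⟯ F :=
      IsIntegralClosure.rank K[X] K⟮X⟯ F (FunctionField.ringOfIntegers K F)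
    have hsum := Ideal.sum_ramification_inertia_eq_finrank (fibP : Ideal K[X])
      (FunctionField.ringOfIntegers K F)
    rw [← hrank, ← hsum, Nat.cast_sum]
    apply Finset.sum_congr rfl
    intro q _
    have := q.2.1
    have := q.2.2
    have hp0 : (fibP : Ideal K[X]).map (algebraMap K[X] (FunctionField.ringOfIntegers K F)) ≠ ⊥ := by
      rw [fibP_map, Ne, Ideal.span_singleton_eq_bot]
      exact fibT_ne_zero
    rw [fib_ord_eq_count, fib_inertiaDeg ht q.1, mul_one,
      Ideal.IsDedekindDomain.ramificationIdx_eq_normalizedFactors_count fibP q.1 hp0, fibP_map]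
    rfl

/-- Variant of `fib_zeros_dict` with a name for the image of `X`. -/
theorem fib_zeros_dict' [IsAlgClosed K] (t : F) (htX : algebraMap K[X] F X = t)
    (ht : Transcendental K t) [FiniteDimensional K⟮t⟯ F] :
    {v : Place K F | 0 < v.ord t}.Finite ∧
      ∑ᶠ v ∈ {v : Place K F | 0 < v.ord t}, v.ord t = Module.finrank K⟮X⟯ F := by
  subst htX
  exact fib_zeros_dict ht

end Dict

variable {K F : Type*} [Field K] [IsAlgClosed K] [CharZero K] [Field F] [Algebra K F]

theorem finite_zeros (t : F) (ht : Transcendental K t) [FiniteDimensional K⟮t⟯ F] :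
    {v : Place K F | 0 < v.ord t}.Finite := by
  letI := polyAlgebra K t
  letI := ratAlgebra K t ht
  haveI := polyAlgebra_isScalarTower K t
  haveI := ratAlgebra_isScalarTower K t ht
  haveI := ratAlgebra_functionField K t ht
  have hX : algebraMap K[X] F X = t := Polynomial.aeval_X t
  exact (fib_zeros_dict' t hX ht).1

theorem sum_ord_zeros (t : F) (ht : Transcendental K t) [FiniteDimensional K⟮t⟯ F] :
    ∑ᶠ v ∈ {v : Place K F | 0 < v.ord t}, v.ord t = Module.finrank K⟮t⟯ F := by
  letI := polyAlgebra K t
  letI := ratAlgebra K t ht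
  haveI := polyAlgebra_isScalarTower K t
  haveI := ratAlgebra_isScalarTower K t ht
  haveI := ratAlgebra_functionField K t ht
  have hX : algebraMap K[X] F X = t := Polynomial.aeval_X t
  rw [(fib_zeros_dict' t hX ht).2]
  exact_mod_cast ratAlgebra_finrank K t ht

theorem deg_eq_one (x : F) (hx : Transcendental K x) [FiniteDimensional K⟮x⟯ F]
    (v : Place K F) : v.deg = 1 :=
  fib_deg_eq_one x hx v

theorem exists_const_sub_mem_nonunits (x : F) (hx : Transcendental K x)
    [FiniteDimensional K⟮x⟯ F] (v : Place K F) (f : F) (hf : f ∈ v.toValuationSubring) :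
    ∃ c : K, f - algebraMap K F c ∈ v.toValuationSubring.nonunits :=
  fib_exists_const_sub_mem_nonunits x hx v f hf

/-- transcendence degree one: any transcendental element is a separating variable -/
theorem finiteDimensional_adjoin_of_transcendental (x : F) (hx : Transcendental K x)
    [FiniteDimensional K⟮x⟯ F] (f : F) (hf : Transcendental K f) :
    FiniteDimensional K⟮f⟯ F :=
  fib_finiteDimensional_adjoin x hx f hf

end Fermat.Agent.S24
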