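import Mathlib
import Fermat.Prelude.Def_AlgebraicCurve_CanonicalDivisor
import Fermat.Agent.S24.PlaceBasic
import Fermat.Agent.S24.FFSetup

/-!
# S24, piece B1: conjugacy of places over the fixed field
-/

set_option autoImplicit false
set_option linter.style.haveILetI false
set_option linter.unusedVariables false
set_option linter.unusedSectionVars false

namespace Fermat.Agent.S24

open AlgebraicCurve IsDedekindDomain Polynomial
open scoped IntermediateField RatFunc

section B1aux

variable {K : Type*} [Field K] {L : Type*} [Field L] [Algebra K L]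

/-- Elements integral over a ring mapping into a valuation subring lie in it. -/
lemma trn_mem_of_isIntegralElem {R : Type*} [CommRing R] (f : R →+* L) (A : ValuationSubring L)
    (hf : ∀ r, f r ∈ A) {b : L} (hb : f.IsIntegralElem b) : b ∈ A := by
  obtain ⟨p, hp, hpb⟩ := hb
  let f' : R →+* A := f.codRestrict A.toSubring hf
  have h1 : IsIntegral A b := by
    refine ⟨p.map f', hp.map f', ?_⟩
    rw [Polynomial.eval₂_map]
    exact hpb
  obtain ⟨y, rfl⟩ := (IsIntegrallyClosed.isIntegral_iff (R := A) (K := L)).mp h1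
  exact y.2

/-- `aeval t` lands in every place containing `t`. -/
lemma trn_aeval_mem (t : L) (u : Place K L) (hu : t ∈ u.toValuationSubring) (p : K[X]) :
    Polynomial.aeval t p ∈ u.toValuationSubring := by
  have h1 : Polynomial.aeval t p
      = algebraMap u.toValuationSubring L (Polynomial.aeval (⟨t, hu⟩ : u.toValuationSubring) p) :=
    (Polynomial.aeval_algebraMap_apply L (⟨t, hu⟩ : u.toValuationSubring) p)
  rw [h1]
  exact (Polynomial.aeval (⟨t, hu⟩ : u.toValuationSubring) p).2

/-- The order of a finite product. -/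
lemma trn_ord_prod (u : Place K L) {ι : Type*} (s : Finset ι) (f : ι → L)
    (hf : ∀ i ∈ s, f i ≠ 0) : u.ord (∏ i ∈ s, f i) = ∑ i ∈ s, u.ord (f i) := by
  classical
  induction s using Finset.induction_on with
  | empty => simp
  | insert a s ha ih =>
    rw [Finset.prod_insert ha, Finset.sum_insert ha,
      u.ord_mul (hf a (Finset.mem_insert_self a s))
        (Finset.prod_ne_zero_iff.mpr fun i hi => hf i (Finset.mem_insert_of_mem hi)),
      ih fun i hi => hf i (Finset.mem_insert_of_mem hi)]

variable {G : Type*} [Group G] [MulSemiringAction G L] [SMulCommClass G K L]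

/-- Integrality over `K[t]` is preserved by automorphisms fixing `t`. -/
lemma trn_isIntegralElem_smul (t : L) (g : G) (htfix : g • t = t) {b : L}
    (hb : ((Polynomial.aeval t : K[X] →ₐ[K] L) : K[X] →+* L).IsIntegralElem b) :
    ((Polynomial.aeval t : K[X] →ₐ[K] L) : K[X] →+* L).IsIntegralElem (g • b) := by
  obtain ⟨p, hp, hpb⟩ := hb
  refine ⟨p, hp, ?_⟩
  have h1 := congrArg (MulSemiringAction.toRingHom G L g) hpb
  rw [Polynomial.hom_eval₂, map_zero] at h1
  have h2 : (MulSemiringAction.toRingHom G L g).comp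
      ((Polynomial.aeval t : K[X] →ₐ[K] L) : K[X] →+* L)
      = ((Polynomial.aeval t : K[X] →ₐ[K] L) : K[X] →+* L) := by
    apply Polynomial.ringHom_ext
    · intro c
      simp [smul_algebraMap]
    · simp [htfix]
  rw [h2] at h1
  exact h1

end B1aux

section B1

variable {K : Type*} [Field K] [IsAlgClosed K] [CharZero K]
variable {L : Type*} [Field L] [Algebra K L]

/-- Prime avoidance for places: an integral element vanishing at `v'` and at none of the
finitely many other places `v i`. -/
theorem trn_avoid (t : L) (ht : Transcendental K t) [FiniteDimensional K⟮t⟯ L]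
    {ι : Type*} [Finite ι] [Nonempty ι] (v : ι → Place K L) (v' : Place K L)
    (hv : ∀ i, 0 ≤ (v i).ord t) (hv' : 0 ≤ v'.ord t) (hne : ∀ i, v i ≠ v') :
    ∃ b : L, ((Polynomial.aeval t : K[X] →ₐ[K] L) : K[X] →+* L).IsIntegralElem b ∧
      0 < v'.ord b ∧ ∀ i, (v i).ord b = 0 ∧ b ≠ 0 := by
  classical
  letI := polyAlgebra K t
  letI := ratAlgebra K t ht
  haveI := polyAlgebra_isScalarTower K t
  haveI := ratAlgebra_isScalarTower K t ht
  haveI := ratAlgebra_functionField K t ht
  have hX : algebraMap K[X] L Polynomial.X = t := by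
    simp [RingHom.algebraMap_toAlgebra]
  have hex : ∀ u : Place K L, 0 ≤ u.ord t → ∃ P, placeOfPrime K P = u := fun u hu =>
    exists_placeOfPrime_eq K u (by rw [hX]; exact (mem_iff_ord_nonneg u t).mpr hu)
  choose P hP using fun i => hex (v i) (hv i)
  obtain ⟨P', hP'⟩ := hex v' hv'
  cases nonempty_fintype ι
  have hnot : ¬ ((P'.asIdeal : Set (FunctionField.ringOfIntegers K L)) ⊆
      ⋃ i ∈ ((Finset.univ : Finset ι) : Set ι), ((P i).asIdeal : Set _)) := by
    intro hsub
    obtain ⟨i, -, hi⟩ := (Ideal.subset_union_prime (Classical.arbitrary ι) (Classical.arbitrary ι)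
      (fun i _ _ _ => (P i).isPrime)).mp hsub
    have h1 : P'.asIdeal = (P i).asIdeal := P'.isMaximal.eq_of_le (P i).isPrime.ne_top hi
    apply hne i
    rw [← hP i, ← hP']
    congr 1
    exact (HeightOneSpectrum.ext h1).symm
  obtain ⟨b, hbP', hb⟩ := Set.not_subset.mp hnot
  have hb' : ∀ i, b ∉ (P i).asIdeal := by
    intro i hi
    apply hb
    simp only [Set.mem_iUnion]
    exact ⟨i, Finset.mem_coe.mpr (Finset.mem_univ i), hi⟩
  have hb0 : b ≠ 0 := by
    intro h0
    exact hb' (Classical.arbitrary ι) (h0 ▸ Ideal.zero_mem _)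
  have hbL0 : (b : L) ≠ 0 := by
    intro h0
    exact hb0 (Subtype.ext h0)
  refine ⟨(b : L), b.2, ?_, fun i => ⟨?_, hbL0⟩⟩
  · rw [← hP', placeOfPrime_ord]
    have h1 : P'.valuation L (b : L) < 1 := (P'.valuation_lt_one_iff_mem (K := L) b).mpr hbP'
    have h2 : P'.valuation L (b : L) ≠ 0 := (Valuation.ne_zero_iff _).mpr hbL0
    have h3 : WithZero.log (P'.valuation L (b : L)) < 0 := by
      rw [WithZero.log_lt_iff_lt_exp h2, WithZero.exp_zero]
      exact h1
    omega
  · rw [← hP i, placeOfPrime_ord]
    have h1 : (P i).valuation L (b : L) = 1 :=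
      ((P i).valuation_eq_one_iff_notMem (K := L)).mpr (hb' i)
    rw [h1, WithZero.log_one, neg_zero]

variable {G : Type*} [Group G] [Finite G] [MulSemiringAction G L] [SMulCommClass G K L]

/-- B1 (Transitive.lean): conjugacy of places of `L` with the same restriction to the fixed
field. -/
theorem exists_smul_place_eq (t : L) (ht : Transcendental K t) [FiniteDimensional K⟮t⟯ L]
    (htfix : ∀ g : G, g • t = t) (w w' : Place K L) (hw : 0 < w.ord t) (hw' : 0 < w'.ord t)
    (h : ∀ f : L, (∀ g : G, g • f = f) →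
      (f ∈ w.toValuationSubring ↔ f ∈ w'.toValuationSubring)) :
    ∃ g : G, (MulSemiringAction.toAlgEquiv K L g) • w = w' := by
  classical
  by_contra hcon
  push Not at hcon
  cases nonempty_fintype G
  have hord : ∀ (g : G) (f : L),
      ((MulSemiringAction.toAlgEquiv K L g) • w).ord f = w.ord (g⁻¹ • f) := by
    intro g f
    have := Place.ord_smul (MulSemiringAction.toAlgEquiv K L g) w (g⁻¹ • f)
    rwa [MulSemiringAction.toAlgEquiv_apply, smul_inv_smul] at this
  obtain ⟨b, hbint, hb', hb⟩ := trn_avoid t ht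
    (fun g : G => (MulSemiringAction.toAlgEquiv K L g) • w) w'
    (fun g => by rw [hord, htfix]; exact hw.le) hw'.le hcon
  have hb0 : b ≠ 0 := (hb 1).2
  have hgb0 : ∀ g : G, g • b ≠ 0 := fun g => (smul_ne_zero_iff_ne g).mpr hb0
  set N : L := ∏ g : G, g • b with hN
  have hN0 : N ≠ 0 := Finset.prod_ne_zero_iff.mpr (fun g _ => hgb0 g)
  have hNfix : ∀ g : G, g • N = N := by
    intro g
    rw [hN, Finset.smul_prod']
    simp_rw [smul_smul]
    exact Fintype.prod_equiv (Equiv.mulLeft g) _ _ (fun x => rfl)
  have hordprod : ∀ u : Place K L, u.ord N = ∑ g : G, u.ord (g • b) := fun u =>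
    trn_ord_prod u Finset.univ (fun g => g • b) (fun g _ => hgb0 g)
  have ht' : t ∈ w'.toValuationSubring := (mem_iff_ord_nonneg w' t).mpr hw'.le
  have hnn : ∀ g : G, 0 ≤ w'.ord (g • b) := fun g =>
    (mem_iff_ord_nonneg w' _).mp (trn_mem_of_isIntegralElem _ _
      (fun p => trn_aeval_mem t w' ht' p) (trn_isIntegralElem_smul t g (htfix g) hbint))
  have h1 : 0 < w'.ord N := by
    rw [hordprod]
    calc 0 < w'.ord b := hb'
      _ = w'.ord ((1 : G) • b) := by rw [one_smul]
      _ ≤ ∑ g : G, w'.ord (g • b) :=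
        Finset.single_le_sum (fun g _ => hnn g) (Finset.mem_univ 1)
  have h2 : N⁻¹ ∉ w'.toValuationSubring := by
    rw [mem_iff_ord_nonneg, Place.ord_inv]; omega
  have h3 : N⁻¹ ∉ w.toValuationSubring := fun hmem =>
    h2 ((h N⁻¹ (fun g => by rw [smul_inv'', hNfix])).mp hmem)
  have h4 : 0 < w.ord N := by
    rw [mem_iff_ord_nonneg, Place.ord_inv] at h3; omega
  have h5 : w.ord N = 0 := by
    rw [hordprod]
    apply Finset.sum_eq_zero
    intro g _
    have := (hb g⁻¹).1
    rw [hord, inv_inv] at this
    exact this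
  omega

end B1

end Fermat.Agent.S24
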