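import Mathlib
import Fermat.Prelude.Def_AlgebraicCurve_CanonicalDivisor
import Fermat.Agent.S24.PlaceBasic
import Fermat.Agent.S24.FFSetup
import Fermat.Agent.S24.Fiber
import Fermat.Agent.S24.Transitive
import Fermat.Agent.S24.Extend
import Fermat.Agent.S24.CountGalois

/-!
# S24, piece B3: counting the places of `F` over the zero of `t`
-/

set_option autoImplicit false
set_option linter.style.haveILetI false
set_option linter.unusedVariables false
set_option linter.unusedSectionVars false

namespace Fermat.Agent.S24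

open AlgebraicCurve IsDedekindDomain Polynomial
open scoped IntermediateField

section cntAux

variable {K : Type*} [Field K] [IsAlgClosed K] [CharZero K] {L : Type*} [Field L] [Algebra K L]

/-- A polynomial in `t` with nonzero constant term is a unit at every zero of `t`. -/
lemma cnt_ord_aeval_unit (t : L) (u : Place K L) (hu : 0 < u.ord t) (q : K[X])
    (hq : q.coeff 0 ≠ 0) : u.ord (Polynomial.aeval t q) = 0 := by
  have ht : t ∈ u.toValuationSubring := (mem_iff_ord_nonneg u t).mpr hu.le
  have ht0 : t ≠ 0 := by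
    intro h0; rw [h0, Place.ord_zero] at hu; exact lt_irrefl _ hu
  have hdec : Polynomial.aeval t q
      = algebraMap K L (q.coeff 0) + Polynomial.aeval t q.divX * t := by
    conv_lhs => rw [← Polynomial.divX_mul_X_add q]
    simp [add_comm]
  have hc0 : algebraMap K L (q.coeff 0) ≠ 0 := (_root_.map_ne_zero _).mpr hq
  rw [hdec]
  by_cases hA : Polynomial.aeval t q.divX * t = 0
  · rw [hA, add_zero]; exact ord_algebraMap u _
  · have hA1 : Polynomial.aeval t q.divX ≠ 0 := left_ne_zero_of_mul hA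
    have h1 : 0 ≤ u.ord (Polynomial.aeval t q.divX) :=
      (mem_iff_ord_nonneg u _).mp (trn_aeval_mem t u ht _)
    have h2 : u.ord (algebraMap K L (q.coeff 0)) < u.ord (Polynomial.aeval t q.divX * t) := by
      rw [ord_algebraMap, u.ord_mul hA1 ht0]; omega
    rw [ord_add_eq_of_lt u hc0 hA h2, ord_algebraMap]

/-- The order of a polynomial in `t` at the zeros of `t`. -/
lemma cnt_ord_aeval (t : L) (ht : Transcendental K t) (r : K[X]) (hr : r ≠ 0) :
    ∃ m : ℕ, ∀ u : Place K L, 0 < u.ord t → u.ord (Polynomial.aeval t r) = m * u.ord t := by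
  obtain ⟨q, hq, hndvd⟩ := Polynomial.exists_eq_pow_rootMultiplicity_mul_and_not_dvd r hr 0
  rw [Polynomial.C_0, sub_zero] at hq hndvd
  refine ⟨Polynomial.rootMultiplicity 0 r, fun u hu => ?_⟩
  have hq0 : q.coeff 0 ≠ 0 := fun h0 => hndvd (Polynomial.X_dvd_iff.mpr h0)
  have hqne : q ≠ 0 := fun h0 => hq0 (by rw [h0]; simp)
  have ht0 : t ≠ 0 := by
    intro h0; rw [h0, Place.ord_zero] at hu; exact lt_irrefl _ hu
  have haq : Polynomial.aeval t q ≠ 0 := fun h0 => hqne ((transcendental_iff.mp ht) q h0)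
  conv_lhs => rw [hq]
  rw [map_mul, map_pow, Polynomial.aeval_X, u.ord_mul (pow_ne_zero _ ht0) haq, ord_pow,
    cnt_ord_aeval_unit t u hu q hq0, add_zero]

/-- The order of a rational function of `t` at the zeros of `t` is a fixed multiple of the order
of `t`. -/
lemma cnt_ord_rat (t : L) (ht : Transcendental K t) (f : L) (hf : f ∈ K⟮t⟯) (hf0 : f ≠ 0) :
    ∃ k : ℤ, ∀ u : Place K L, 0 < u.ord t → u.ord f = k * u.ord t := by
  obtain ⟨r, s, rfl⟩ := (IntermediateField.mem_adjoin_simple_iff K f).mp hf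
  have har : Polynomial.aeval t r ≠ 0 := fun h0 => hf0 (by rw [h0, zero_div])
  have has : Polynomial.aeval t s ≠ 0 := fun h0 => hf0 (by rw [h0, div_zero])
  have hr : r ≠ 0 := fun h0 => har (by rw [h0, map_zero])
  have hs : s ≠ 0 := fun h0 => has (by rw [h0, map_zero])
  obtain ⟨m, hm⟩ := cnt_ord_aeval t ht r hr
  obtain ⟨n, hn⟩ := cnt_ord_aeval t ht s hs
  refine ⟨(m : ℤ) - n, fun u hu => ?_⟩
  rw [div_eq_mul_inv, u.ord_mul har (inv_ne_zero has), u.ord_inv, hm u hu, hn u hu]
  ring

/-- Two zeros of `t` contain the same rational functions of `t`. -/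
lemma cnt_mem_iff_of_rat (t : L) (ht : Transcendental K t) {f : L} (hf : f ∈ K⟮t⟯)
    (u₁ u₂ : Place K L) (h₁ : 0 < u₁.ord t) (h₂ : 0 < u₂.ord t) :
    f ∈ u₁.toValuationSubring ↔ f ∈ u₂.toValuationSubring := by
  by_cases hf0 : f = 0
  · subst hf0
    exact ⟨fun _ => u₂.toValuationSubring.zero_mem, fun _ => u₁.toValuationSubring.zero_mem⟩
  obtain ⟨k, hk⟩ := cnt_ord_rat t ht f hf hf0
  rw [mem_iff_ord_nonneg, mem_iff_ord_nonneg, hk u₁ h₁, hk u₂ h₂]
  constructor
  · intro h
    have : 0 ≤ k := nonneg_of_mul_nonneg_left h h₁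
    positivity
  · intro h
    have : 0 ≤ k := nonneg_of_mul_nonneg_left h h₂
    positivity

variable {G : Type*} [Group G] [MulSemiringAction G L] [SMulCommClass G K L]

/-- The order function of a translated place. -/
lemma cnt_ord_smul (g : G) (w : Place K L) (f : L) :
    ((MulSemiringAction.toAlgEquiv K L g) • w).ord f = w.ord (g⁻¹ • f) := by
  have := Place.ord_smul (MulSemiringAction.toAlgEquiv K L g) w (g⁻¹ • f)
  rwa [MulSemiringAction.toAlgEquiv_apply, smul_inv_smul] at this

/-- Rational functions of a fixed element are fixed. -/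
lemma cnt_fixed_of_mem_adjoin (t' : L) (htfix : ∀ g : G, g • t' = t') {x : L} (hx : x ∈ K⟮t'⟯)
    (g : G) : g • x = x := by
  have h1 : K⟮t'⟯ ≤ FixedPoints.intermediateField (F := K) (E := L) G :=
    IntermediateField.adjoin_simple_le_iff.mpr (fun g => htfix g)
  exact (h1 hx) g

end cntAux

section cntMain

variable {K F : Type*} [Field K] [IsAlgClosed K] [CharZero K] [Field F] [Algebra K F]
variable {L : Type*} [Field L] [Algebra K L]
  {G : Type*} [Group G] [Finite G] [MulSemiringAction G L] [SMulCommClass G K L]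

/-- `[L : K(t')] = |G|` when `K(t')` is the fixed field of `G`. -/
theorem cnt_finrank_top [FaithfulSMul G L] (t' : L)
    (hfix : ∀ f : L, (∀ g : G, g • f = f) → f ∈ K⟮t'⟯) (htfix : ∀ g : G, g • t' = t') :
    FiniteDimensional K⟮t'⟯ L ∧ Module.finrank K⟮t'⟯ L = Nat.card G := by
  have h := cnt_finrank (F := K⟮t'⟯) (L := L) (G := G)
    (fun x hx => ⟨⟨x, hfix x hx⟩, rfl⟩) ⊤
    (fun g => ⟨fun _ f => cnt_fixed_of_mem_adjoin t' htfix f.2 g, fun _ => Subgroup.mem_top g⟩)
  refine ⟨h.1, ?_⟩
  rw [h.2, Subgroup.card_top]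

/-- The degree of `F` over `K(t)`. -/
theorem cnt_degree [Algebra F L] [IsScalarTower K F L] [FaithfulSMul G L]
    (t : F) (hfix : ∀ f : L, (∀ g : G, g • f = f) → f ∈ K⟮algebraMap F L t⟯)
    (htfix : ∀ g : G, g • algebraMap F L t = algebraMap F L t)
    (H : Subgroup G)
    (hH : ∀ g : G, g ∈ H ↔ ∀ f : F, g • algebraMap F L f = algebraMap F L f) :
    FiniteDimensional F L ∧ FiniteDimensional K⟮t⟯ F ∧ Module.finrank K⟮t⟯ F = H.index := by
  classical
  have hrangeF : ∀ x : L, x ∈ K⟮algebraMap F L t⟯ → x ∈ Set.range (algebraMap F L) := by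
    intro x hx
    have h1 : K⟮algebraMap F L t⟯ ≤ (IsScalarTower.toAlgHom K F L).fieldRange :=
      IntermediateField.adjoin_simple_le_iff.mpr ⟨t, rfl⟩
    obtain ⟨f, hf⟩ := h1 hx
    exact ⟨f, hf⟩
  obtain ⟨hfin, hrank⟩ := cnt_finrank (F := F) (L := L) (G := G)
    (fun x hx => hrangeF x (hfix x hx)) H hH
  obtain ⟨hfin', hrank'⟩ := cnt_finrank_top (K := K) (algebraMap F L t) hfix htfix
  have hmap : (K⟮t⟯).map (IsScalarTower.toAlgHom K F L) = K⟮algebraMap F L t⟯ := by
    rw [IntermediateField.adjoin_map, Set.image_singleton]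
    rfl
  let e : K⟮t⟯ ≃+* K⟮algebraMap F L t⟯ :=
    ((K⟮t⟯).equivMap (IsScalarTower.toAlgHom K F L)).toRingEquiv.trans
      (IntermediateField.equivOfEq hmap).toRingEquiv
  have hc : (algebraMap K⟮algebraMap F L t⟯ L).comp e.toRingHom
      = (RingEquiv.refl L).toRingHom.comp (algebraMap K⟮t⟯ L) := by
    ext x; rfl
  have h1 : Module.finrank K⟮t⟯ L = Module.finrank K⟮algebraMap F L t⟯ L :=
    Algebra.finrank_eq_of_equiv_equiv e (RingEquiv.refl L) hc
  haveI : Module.Finite K⟮t⟯ L := by
    refine Module.Finite.of_equiv_equiv e.symm (RingEquiv.refl L) ?_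
    ext y
    have := congrArg (algebraMap K⟮algebraMap F L t⟯ L) (e.apply_symm_apply y)
    exact this
  haveI hfinF : FiniteDimensional K⟮t⟯ F := FiniteDimensional.left K⟮t⟯ F L
  refine ⟨hfin, hfinF, ?_⟩
  have h2 : Module.finrank K⟮t⟯ F * Module.finrank F L = Module.finrank K⟮t⟯ L :=
    Module.finrank_mul_finrank K⟮t⟯ F L
  rw [h1, hrank', hrank, ← Subgroup.card_mul_index H, mul_comm] at h2
  exact Nat.eq_of_mul_eq_mul_left Nat.card_pos h2

/-- `G` acts transitively on the zeros of `t'`. -/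
theorem cnt_transitive (t' : L) (ht' : Transcendental K t') [FiniteDimensional K⟮t'⟯ L]
    (hfix : ∀ f : L, (∀ g : G, g • f = f) → f ∈ K⟮t'⟯) (htfix : ∀ g : G, g • t' = t')
    (w w' : Place K L) (hw : 0 < w.ord t') (hw' : 0 < w'.ord t') :
    ∃ g : G, (MulSemiringAction.toAlgEquiv K L g) • w = w' :=
  exists_smul_place_eq t' ht' htfix w w' hw hw'
    (fun f hf => cnt_mem_iff_of_rat t' ht' (hfix f hf) w w' hw hw')

/-- The order of `t'` at `w` is the order of the stabiliser of `w`. -/
theorem cnt_card_stab (t' : L) (ht' : Transcendental K t') [FiniteDimensional K⟮t'⟯ L]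
    (hfix : ∀ f : L, (∀ g : G, g • f = f) → f ∈ K⟮t'⟯) (htfix : ∀ g : G, g • t' = t')
    (hcard : Module.finrank K⟮t'⟯ L = Nat.card G) (w : Place K L) (hw : 0 < w.ord t')
    (D : Subgroup G)
    (hD : ∀ g : G, g ∈ D ↔ (MulSemiringAction.toAlgEquiv K L g) • w = w) :
    (Nat.card D : ℤ) = w.ord t' := by
  classical
  letI : MulAction G (Place K L) :=
    MulAction.compHom (Place K L) (MulSemiringAction.toAlgAut G K L)
  have hsmul : ∀ (g : G) (u : Place K L), g • u = (MulSemiringAction.toAlgEquiv K L g) • u :=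
    fun _ _ => rfl
  have hZ : MulAction.orbit G w = {u : Place K L | 0 < u.ord t'} := by
    ext u
    constructor
    · rintro ⟨g, rfl⟩
      show 0 < (g • w).ord t'
      rw [hsmul, cnt_ord_smul, htfix]
      exact hw
    · intro hu
      obtain ⟨g, hg⟩ := cnt_transitive t' ht' hfix htfix w u hw hu
      exact ⟨g, hg⟩
  have hstab : MulAction.stabilizer G w = D := by
    ext g
    rw [MulAction.mem_stabilizer_iff, hD, hsmul]
  have hidx : D.index = {u : Place K L | 0 < u.ord t'}.ncard := by
    rw [← hstab, ← hZ]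
    exact MulAction.index_stabilizer G w
  have hfinZ : {u : Place K L | 0 < u.ord t'}.Finite := finite_zeros t' ht'
  have hsum := sum_ord_zeros t' ht'
  rw [finsum_mem_eq_finite_toFinset_sum _ hfinZ] at hsum
  have hconst : ∀ u ∈ hfinZ.toFinset, u.ord t' = w.ord t' := by
    intro u hu
    rw [Set.Finite.mem_toFinset] at hu
    obtain ⟨g, rfl⟩ := cnt_transitive t' ht' hfix htfix w u hw hu
    rw [cnt_ord_smul, htfix]
  rw [Finset.sum_congr rfl hconst, Finset.sum_const, ← Set.ncard_eq_toFinset_card _ hfinZ, ← hidx,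
    hcard, ← Subgroup.card_mul_index D, nsmul_eq_mul] at hsum
  have hidx0 : (D.index : ℤ) ≠ 0 := by
    exact_mod_cast Subgroup.index_ne_zero_of_finite
  push_cast at hsum
  have h3 : (D.index : ℤ) * w.ord t' = (D.index : ℤ) * (Nat.card D : ℤ) := by
    rw [hsum]; ring
  exact (mul_left_cancel₀ hidx0 h3).symm

end cntMain

section cntOrb

variable {K F : Type*} [Field K] [IsAlgClosed K] [CharZero K] [Field F] [Algebra K F]
variable {L : Type*} [Field L] [Algebra K L]
  {G : Type*} [Group G] [Finite G] [MulSemiringAction G L] [SMulCommClass G K L]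

/-- The restriction to `F` of the `g`-translate of a place of `L`. -/
theorem cnt_res_exists [Algebra F L] [IsScalarTower K F L] (t : F)
    (htfix : ∀ g : G, g • algebraMap F L t = algebraMap F L t)
    (w : Place K L) (hw : 0 < w.ord (algebraMap F L t)) (g : G) :
    ∃ v : Place K F, ∀ f : F, f ∈ v.toValuationSubring ↔
      g • algebraMap F L f ∈ w.toValuationSubring := by
  have hne : ∀ f : F, f ≠ 0 → g • algebraMap F L f ≠ 0 := fun f hf =>
    (smul_ne_zero_iff_ne g).mpr ((_root_.map_ne_zero _).mpr hf)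
  have ht0 : t ≠ 0 := by
    intro h0
    rw [h0, map_zero, Place.ord_zero] at hw
    exact lt_irrefl _ hw
  obtain ⟨v, e, he, hv⟩ := exists_place_of_ord (K := K) (F := F)
    (fun f => w.ord (g • algebraMap F L f))
    (fun f f' hf hf' => by
      show w.ord (g • algebraMap F L (f * f')) = _
      rw [map_mul, smul_mul', w.ord_mul (hne f hf) (hne f' hf')])
    (fun f f' hf hf' hff' => by
      show min (w.ord (g • algebraMap F L f)) (w.ord (g • algebraMap F L f'))
        ≤ w.ord (g • algebraMap F L (f + f'))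
      rw [map_add, smul_add]
      refine ord_add_ge w ?_
      rw [← smul_add, ← map_add]
      exact hne _ hff')
    (fun c hc => by
      show w.ord (g • algebraMap F L (algebraMap K F c)) = 0
      rw [← IsScalarTower.algebraMap_apply K F L, smul_algebraMap]
      exact ord_algebraMap w c)
    ⟨t, ht0, by
      show w.ord (g • algebraMap F L t) ≠ 0
      rw [htfix g]; exact hw.ne'⟩
  refine ⟨v, fun f => ?_⟩
  by_cases hf : f = 0
  · subst hf
    simp only [map_zero, smul_zero]
    exact ⟨fun _ => w.toValuationSubring.zero_mem, fun _ => v.toValuationSubring.zero_mem⟩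
  · have h1 : w.ord (g • algebraMap F L f) = e * v.ord f := hv f hf
    rw [mem_iff_ord_nonneg, mem_iff_ord_nonneg, h1]
    constructor
    · intro h; positivity
    · intro h; exact nonneg_of_mul_nonneg_right h he

/-- The places of `F` over the zero of `t` are in bijection with the orbits of the stabiliser
`D` of `w` on `G ⧸ H`. -/
theorem cnt_card_orbits [Algebra F L] [IsScalarTower K F L] [FaithfulSMul G L]
    (t : F) (ht : Transcendental K t) [FiniteDimensional K⟮t⟯ F] [FiniteDimensional F L]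
    [FiniteDimensional K⟮algebraMap F L t⟯ L]
    (hfix : ∀ f : L, (∀ g : G, g • f = f) → f ∈ K⟮algebraMap F L t⟯)
    (htfix : ∀ g : G, g • algebraMap F L t = algebraMap F L t)
    (H : Subgroup G)
    (hH : ∀ g : G, g ∈ H ↔ ∀ f : F, g • algebraMap F L f = algebraMap F L f)
    (w : Place K L) (hw : 0 < w.ord (algebraMap F L t))
    (D : Subgroup G)
    (hD : ∀ g : G, g ∈ D ↔ (MulSemiringAction.toAlgEquiv K L g) • w = w) :
    Set.ncard {v : Place K F | 0 < v.ord t}
      = Nat.card (MulAction.orbitRel.Quotient D (G ⧸ H)) := by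
  classical
  have ht' : Transcendental K (algebraMap F L t) :=
    (transcendental_algebraMap_iff (algebraMap F L).injective).mpr ht
  have hrangeF : ∀ x : L, (∀ g : G, g • x = x) → x ∈ Set.range (algebraMap F L) := by
    intro x hx
    have h1 : K⟮algebraMap F L t⟯ ≤ (IsScalarTower.toAlgHom K F L).fieldRange :=
      IntermediateField.adjoin_simple_le_iff.mpr ⟨t, rfl⟩
    obtain ⟨f, hf⟩ := h1 (hfix x hx)
    exact ⟨f, hf⟩
  letI : MulAction G (Place K L) :=
    MulAction.compHom (Place K L) (MulSemiringAction.toAlgAut G K L)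
  have hsmul : ∀ (g : G) (u : Place K L), g • u = (MulSemiringAction.toAlgEquiv K L g) • u :=
    fun _ _ => rfl
  have hmem_smul : ∀ (g : G) (x : L),
      x ∈ (g • w).toValuationSubring ↔ g⁻¹ • x ∈ w.toValuationSubring := by
    intro g x
    rw [mem_iff_ord_nonneg, mem_iff_ord_nonneg, hsmul, cnt_ord_smul]
  choose res hres using fun g : G => cnt_res_exists (K := K) t htfix w hw g
  have hres_pos : ∀ g, 0 < (res g).ord t := by
    intro g
    by_contra hcon
    push Not at hcon
    have h1 : t⁻¹ ∈ (res g).toValuationSubring := by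
      rw [mem_iff_ord_nonneg, Place.ord_inv]; omega
    rw [hres, map_inv₀, smul_inv'', htfix, mem_iff_ord_nonneg, Place.ord_inv] at h1
    omega
  have hDmem : ∀ d ∈ D, ∀ x : L, d • x ∈ w.toValuationSubring ↔ x ∈ w.toValuationSubring := by
    intro d hd x
    have h1 := (hD d).mp hd
    have h2 := Place.ord_smul (MulSemiringAction.toAlgEquiv K L d) w x
    rw [h1, MulSemiringAction.toAlgEquiv_apply] at h2
    rw [mem_iff_ord_nonneg, mem_iff_ord_nonneg, h2]
  have hres_eq : ∀ g₁ g₂ : G, (∀ f : F, g₁ • algebraMap F L f ∈ w.toValuationSubring ↔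
      g₂ • algebraMap F L f ∈ w.toValuationSubring) → res g₁ = res g₂ := by
    intro g₁ g₂ h
    apply Place.ext
    ext f
    rw [hres, hres, h]
  have hres_H : ∀ (g : G) (h : G), h ∈ H → res (g * h) = res g := by
    intro g h hh
    apply hres_eq
    intro f
    rw [mul_smul, (hH h).mp hh f]
  have hres_D : ∀ (d : G) (g : G), d ∈ D → res (d * g) = res g := by
    intro d g hd
    apply hres_eq
    intro f
    rw [mul_smul, hDmem d hd]
  let ψ₀ : G → {v : Place K F | 0 < v.ord t} := fun g => ⟨res g, hres_pos g⟩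
  let ψ₁ : G ⧸ H → {v : Place K F | 0 < v.ord t} := fun q => Quotient.liftOn' q ψ₀ (by
    intro a b hab
    rw [QuotientGroup.leftRel_apply] at hab
    apply Subtype.ext
    show res a = res b
    have hb : b = a * (a⁻¹ * b) := by group
    rw [hb, hres_H a _ hab])
  have hψ₁ : ∀ g : G, ψ₁ (QuotientGroup.mk g) = ψ₀ g := fun g => rfl
  let ψ₂ : MulAction.orbitRel.Quotient D (G ⧸ H) → {v : Place K F | 0 < v.ord t} :=
    fun q => Quotient.liftOn' q ψ₁ (by
      intro a b hab
      have hab' : a ∈ MulAction.orbit D b := hab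
      obtain ⟨⟨d, hd⟩, rfl⟩ := hab'
      induction b using QuotientGroup.induction_on with
      | _ g =>
        show ψ₁ (QuotientGroup.mk (d * g)) = ψ₁ (QuotientGroup.mk g)
        rw [hψ₁, hψ₁]
        exact Subtype.ext (hres_D d g hd))
  have hψ₂ : ∀ g : G, ψ₂ (Quotient.mk'' (QuotientGroup.mk g)) = ψ₀ g := fun g => rfl
  have hbij : Function.Bijective ψ₂ := by
    constructor
    · intro q₁ q₂
      induction q₁ using Quotient.inductionOn' with
      | _ x₁ =>
      induction q₂ using Quotient.inductionOn' with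
      | _ x₂ =>
      induction x₁ using QuotientGroup.induction_on with
      | _ g₁ =>
      induction x₂ using QuotientGroup.induction_on with
      | _ g₂ =>
      intro h
      rw [hψ₂, hψ₂] at h
      have h' : res g₁ = res g₂ := congrArg Subtype.val h
      -- the places `g₁⁻¹ • w` and `g₂⁻¹ • w` agree on `F`
      have hagree : ∀ f : F, algebraMap F L f ∈ (g₁⁻¹ • w).toValuationSubring ↔
          algebraMap F L f ∈ (g₂⁻¹ • w).toValuationSubring := by
        intro f
        rw [hmem_smul, hmem_smul, inv_inv, inv_inv, ← hres, ← hres, h']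
      have hord₁ : 0 < (g₁⁻¹ • w).ord (algebraMap F L t) := by
        rw [hsmul, cnt_ord_smul, htfix]; exact hw
      have hord₂ : 0 < (g₂⁻¹ • w).ord (algebraMap F L t) := by
        rw [hsmul, cnt_ord_smul, htfix]; exact hw
      obtain ⟨h₀, hh₀⟩ := exists_smul_place_eq (K := K) (G := H) (algebraMap F L t) ht'
        (fun h => htfix h.1) (g₁⁻¹ • w) (g₂⁻¹ • w) hord₁ hord₂
        (fun x hx => by
          obtain ⟨f, rfl⟩ := cnt_fixed_mem hrangeF H hH x (fun h hh => hx ⟨h, hh⟩)
          exact hagree f)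
      have hh₀' : (h₀ : G) • (g₁⁻¹ • w) = g₂⁻¹ • w := hh₀
      have hd : g₂ * (h₀ : G) * g₁⁻¹ ∈ D := by
        rw [hD, ← hsmul, mul_smul, mul_smul, hh₀', smul_inv_smul]
      apply Quotient.sound'
      show (QuotientGroup.mk g₁ : G ⧸ H) ∈ MulAction.orbit D (QuotientGroup.mk g₂ : G ⧸ H)
      refine ⟨⟨(g₂ * (h₀ : G) * g₁⁻¹)⁻¹, D.inv_mem hd⟩, ?_⟩
      show (QuotientGroup.mk ((g₂ * (h₀ : G) * g₁⁻¹)⁻¹ * g₂) : G ⧸ H) = QuotientGroup.mk g₁
      rw [QuotientGroup.eq]
      have : ((g₂ * (h₀ : G) * g₁⁻¹)⁻¹ * g₂)⁻¹ * g₁ = (h₀ : G) := by group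
      rw [this]
      exact h₀.2
    · rintro ⟨v, hv⟩
      have hv' : 0 < v.ord t := hv
      obtain ⟨w'', hw''⟩ := exists_place_over (K := K) (L := L) t ht v hv'
      have hpos : 0 < w''.ord (algebraMap F L t) := by
        by_contra hcon
        push Not at hcon
        have h1 : (algebraMap F L t)⁻¹ ∈ w''.toValuationSubring := by
          rw [mem_iff_ord_nonneg, Place.ord_inv]; omega
        rw [← map_inv₀, hw'', mem_iff_ord_nonneg, Place.ord_inv] at h1
        omega
      obtain ⟨g, hg⟩ := cnt_transitive (algebraMap F L t) ht' hfix htfix w w'' hw hpos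
      refine ⟨Quotient.mk'' (QuotientGroup.mk g⁻¹), ?_⟩
      rw [hψ₂]
      apply Subtype.ext
      show res g⁻¹ = v
      apply Place.ext
      ext f
      have hg' : g • w = w'' := hg
      rw [hres, ← hw'', ← hg', hmem_smul]
  rw [← Nat.card_coe_set_eq]
  exact (Nat.card_congr (Equiv.ofBijective ψ₂ hbij)).symm

/-- B3 (Count.lean): the number of places of `F` over the zero of `t`. -/
theorem galois_count [Algebra F L] [IsScalarTower K F L] [FaithfulSMul G L]
    (t : F) (ht : Transcendental K t)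
    (hfix : ∀ f : L, (∀ g : G, g • f = f) → f ∈ K⟮algebraMap F L t⟯)
    (htfix : ∀ g : G, g • algebraMap F L t = algebraMap F L t)
    (H : Subgroup G)
    (hH : ∀ g : G, g ∈ H ↔ ∀ f : F, g • algebraMap F L f = algebraMap F L f)
    (w : Place K L) (hw : 0 < w.ord (algebraMap F L t))
    (D : Subgroup G)
    (hD : ∀ g : G, g ∈ D ↔ (MulSemiringAction.toAlgEquiv K L g) • w = w) :
    FiniteDimensional K⟮t⟯ F ∧ Module.finrank K⟮t⟯ F = H.index ∧
    (Nat.card D : ℤ) = w.ord (algebraMap F L t) ∧
    Set.ncard {v : Place K F | 0 < v.ord t}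
      = Nat.card (MulAction.orbitRel.Quotient D (G ⧸ H)) := by
  have ht' : Transcendental K (algebraMap F L t) :=
    (transcendental_algebraMap_iff (algebraMap F L).injective).mpr ht
  obtain ⟨hfinL, hfinF, hdeg⟩ := cnt_degree (K := K) t hfix htfix H hH
  obtain ⟨hfin', hrank'⟩ := cnt_finrank_top (K := K) (algebraMap F L t) hfix htfix
  exact ⟨hfinF, hdeg, cnt_card_stab (algebraMap F L t) ht' hfix htfix hrank' w hw D hD,
    cnt_card_orbits t ht hfix htfix H hH w hw D hD⟩

end cntOrb

end Fermat.Agent.S24
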