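import Mathlib
import Fermat.Prelude.Def_AlgebraicCurve_CanonicalDivisor

/-!
# S24, piece A3 (core, independent of the other pieces): differentials of a function field

* `dif_span_D`, `dif_D_ne_zero`: if `x` is transcendental over `K` (char 0) and `F` is
  finite over `K(x)`, then `Ω[F/K]` is spanned by `D x ≠ 0`.
* `dif_D_mem_span`: Nakayama step, `D a ∈ O_v • D π` for `a ∈ O_v`.
* `dif_ordDifferential_D`: `ord_v (D t) = ord_v t - 1` at a zero of `t` (hypothesis form).
-/

set_option autoImplicit false

namespace Fermat.Agent.S24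

open AlgebraicCurve KaehlerDifferential IntermediateField algebraAdjoinAdjoin Polynomial
open scoped TensorProduct

variable {K F : Type*} [Field K] [Field F] [Algebra K F]

section RankOne

variable [CharZero K] (x : F) [FiniteDimensional K⟮x⟯ F]

/-- `F` is formally étale over `K[x]`. -/
theorem dif_formallyEtale_adjoin : Algebra.FormallyEtale (Algebra.adjoin K {x}) F := by
  have : CharZero F := charZero_of_injective_algebraMap (algebraMap K F).injective
  have : CharZero K⟮x⟯ := charZero_of_injective_algebraMap (algebraMap K K⟮x⟯).injective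
  have h1 : Algebra.FormallyEtale (Algebra.adjoin K {x}) K⟮x⟯ :=
    Algebra.FormallyEtale.of_isLocalization (nonZeroDivisors (Algebra.adjoin K {x}))
  have : Algebra.IsSeparable K⟮x⟯ F := Algebra.IsAlgebraic.isSeparable_of_perfectField
  have h2 : Algebra.FormallyEtale K⟮x⟯ F := Algebra.FormallyEtale.of_isSeparable K⟮x⟯ F
  exact Algebra.FormallyEtale.comp (Algebra.adjoin K {x}) K⟮x⟯ F

/-- The generator `x` of `K[x]`. -/
abbrev difGen : Algebra.adjoin K {x} := ⟨x, Algebra.self_mem_adjoin_singleton K x⟩

omit [CharZero K] [FiniteDimensional K⟮x⟯ F] in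
/-- `Ω[K[x]/K]` is spanned by `D x`. -/
theorem dif_span_adjoin :
    Submodule.span (Algebra.adjoin K {x}) {D K (Algebra.adjoin K {x}) (difGen x)} = ⊤ := by
  rw [eq_top_iff, ← KaehlerDifferential.span_range_derivation, Submodule.span_le]
  rintro _ ⟨a, rfl⟩
  obtain ⟨p, rfl⟩ : ∃ p : K[X], aeval (difGen x) p = a := by
    obtain ⟨a, ha⟩ := a
    obtain ⟨p, rfl⟩ := Algebra.adjoin_mem_exists_aeval _ _ ha
    exact ⟨p, by ext; simp⟩
  rw [Derivation.map_aeval]
  exact Submodule.smul_mem _ _ (Submodule.mem_span_singleton_self _)

/-- (A3a) `Ω[F/K]` is spanned by `D x` when `F` is finite over `K(x)` (char 0). -/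
theorem dif_span_D : Submodule.span F {D K F x} = ⊤ := by
  have := dif_formallyEtale_adjoin (K := K) x
  rw [eq_top_iff]
  rintro ω -
  obtain ⟨t, rfl⟩ := (tensorKaehlerEquivOfFormallyEtale K (Algebra.adjoin K {x}) F).surjective ω
  induction t using TensorProduct.induction_on with
  | zero => simp
  | tmul b η =>
    have hη : η ∈ Submodule.span (Algebra.adjoin K {x})
        {D K (Algebra.adjoin K {x}) (difGen x)} := by
      rw [dif_span_adjoin]; trivial
    obtain ⟨a, rfl⟩ := Submodule.mem_span_singleton.1 hη
    rw [tensorKaehlerEquivOfFormallyEtale_apply, mapBaseChange_tmul, map_smul, map_D]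
    refine Submodule.smul_mem _ _ ?_
    rw [← algebraMap_smul F a]
    exact Submodule.smul_mem _ _ (Submodule.mem_span_singleton_self _)
  | add t₁ t₂ h₁ h₂ =>
    rw [map_add]
    exact Submodule.add_mem _ h₁ h₂

omit [CharZero K] [FiniteDimensional K⟮x⟯ F] in
/-- The derivation `d/dx` of `K[x]` for transcendental `x`. -/
noncomputable def difDeriv (hx : Transcendental K x) :
    Derivation K (Algebra.adjoin K {x}) (Algebra.adjoin K {x}) where
  toLinearMap := (Polynomial.algEquivOfTranscendental K x hx).toLinearMap ∘ₗ
    (Polynomial.derivative (R := K)) ∘ₗ (Polynomial.algEquivOfTranscendental K x hx).symm.toLinearMap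
  map_one_eq_zero' := by simp
  leibniz' a b := by
    simp only [LinearMap.coe_comp, Function.comp_apply, AlgEquiv.toLinearMap_apply, map_mul,
      Polynomial.derivative_mul, map_add, AlgEquiv.apply_symm_apply, smul_eq_mul]
    ring

omit [CharZero K] [FiniteDimensional K⟮x⟯ F] in
theorem difDeriv_gen (hx : Transcendental K x) : difDeriv x hx (difGen x) = 1 := by
  change (Polynomial.algEquivOfTranscendental K x hx)
    (Polynomial.derivative ((Polynomial.algEquivOfTranscendental K x hx).symm (difGen x))) = 1
  rw [Polynomial.algEquivOfTranscendental_symm_gen, Polynomial.derivative_X, map_one]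

/-- (A3a) `D x ≠ 0` in `Ω[F/K]` when `x` is transcendental and `F` is finite over `K(x)`. -/
theorem dif_D_ne_zero (hx : Transcendental K x) : D K F x ≠ 0 := by
  have := dif_formallyEtale_adjoin (K := K) x
  intro h0
  have h1 : tensorKaehlerEquivOfFormallyEtale K (Algebra.adjoin K {x}) F
      ((1 : F) ⊗ₜ D K _ (difGen x)) = 0 := by
    rw [tensorKaehlerEquivOfFormallyEtale_apply, mapBaseChange_tmul, map_D, one_smul]
    exact h0
  have h2 : (1 : F) ⊗ₜ[Algebra.adjoin K {x}] D K _ (difGen x) = 0 :=
    (tensorKaehlerEquivOfFormallyEtale K (Algebra.adjoin K {x}) F).injective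
      (by rw [h1, map_zero])
  have h3 := congrArg (fun t => TensorProduct.rid (Algebra.adjoin K {x}) F
    (LinearMap.lTensor F (difDeriv x hx).liftKaehlerDifferential t)) h2
  simp only [LinearMap.lTensor_tmul, Derivation.liftKaehlerDifferential_comp_D, difDeriv_gen,
    TensorProduct.rid_tmul, one_smul, map_zero] at h3
  exact one_ne_zero h3

end RankOne

/-! ### Integrality of derivatives at a place -/

section Integrality

/-- The chosen uniformizer: `v.dCoord` is `D π` for an irreducible `π` of the valuation ring. -/
theorem dif_exists_irreducible_dCoord (v : Place K F) :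
    ∃ π : v.toValuationSubring, Irreducible π ∧ v.dCoord = D K F (π : F) :=
  ⟨_, (IsDiscreteValuationRing.exists_irreducible v.toValuationSubring).choose_spec, rfl⟩

/-- Nakayama step: if the valuation ring `O_v` is essentially of finite type over `K` and has
residue field `K`, then `D a ∈ O_v • D π` for every `a ∈ O_v` and every uniformizer `π`. -/
theorem dif_D_mem_span (v : Place K F) [Algebra.EssFiniteType K v.toValuationSubring]
    (hres : ∀ a : v.toValuationSubring, ∃ c : K,
      (a : F) - algebraMap K F c ∈ v.toValuationSubring.nonunits)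
    (π : v.toValuationSubring) (hπ : Irreducible π) (a : v.toValuationSubring) :
    ∃ g : v.toValuationSubring, D K F (a : F) = (g : F) • D K F (π : F) := by
  have hfg : (LinearMap.range (KaehlerDifferential.map K K v.toValuationSubring F)).FG := by
    rw [LinearMap.range_eq_map]
    exact (Module.Finite.fg_top).map _
  have hmem : ∀ b : v.toValuationSubring,
      D K F (b : F) ∈ LinearMap.range (KaehlerDifferential.map K K v.toValuationSubring F) :=
    fun b => ⟨D K v.toValuationSubring b, KaehlerDifferential.map_D K K v.toValuationSubring F b⟩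
  have hstep : ∀ b : v.toValuationSubring, D K F (b : F) ∈
      Submodule.span v.toValuationSubring {D K F (π : F)} ⊔
        IsLocalRing.maximalIdeal v.toValuationSubring •
          LinearMap.range (KaehlerDifferential.map K K v.toValuationSubring F) := by
    intro b
    obtain ⟨c, hc⟩ := hres b
    have hc' : b - algebraMap K v.toValuationSubring c ∈
        IsLocalRing.maximalIdeal v.toValuationSubring := by
      rw [ValuationSubring.mem_nonunits_iff_exists_mem_maximalIdeal] at hc
      obtain ⟨hmemA, hm⟩ := hc
      exact hm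
    rw [hπ.maximalIdeal_eq, Ideal.mem_span_singleton'] at hc'
    obtain ⟨b₁, hb₁⟩ := hc'
    have hbF : (b : F) = algebraMap K F c + (b₁ : F) * (π : F) := by
      have := congrArg (fun z : v.toValuationSubring => (z : F)) hb₁
      simp only [MulMemClass.coe_mul, AddSubgroupClass.coe_sub, Place.coe_algebraMap] at this
      rw [this]; ring
    have hD : D K F (b : F) = b₁ • D K F (π : F) + π • D K F (b₁ : F) := by
      rw [hbF, map_add, Derivation.map_algebraMap, zero_add, Derivation.leibniz]
      rfl
    rw [hD]
    refine Submodule.add_mem_sup ?_ ?_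
    · exact Submodule.smul_mem _ _ (Submodule.mem_span_singleton_self _)
    · refine Submodule.smul_mem_smul ?_ (hmem b₁)
      rw [hπ.maximalIdeal_eq]
      exact Ideal.mem_span_singleton_self π
  have hle : LinearMap.range (KaehlerDifferential.map K K v.toValuationSubring F) ≤
      Submodule.span v.toValuationSubring {D K F (π : F)} ⊔
        IsLocalRing.maximalIdeal v.toValuationSubring •
          LinearMap.range (KaehlerDifferential.map K K v.toValuationSubring F) := by
    rintro _ ⟨ω, rfl⟩
    have hω : ω ∈ Submodule.span v.toValuationSubring (Set.range (D K v.toValuationSubring)) := by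
      rw [KaehlerDifferential.span_range_derivation]; trivial
    induction hω using Submodule.span_induction with
    | mem η hη =>
      obtain ⟨b, rfl⟩ := hη
      rw [KaehlerDifferential.map_D]
      exact hstep b
    | zero => rw [map_zero]; exact Submodule.zero_mem _
    | add η₁ η₂ _ _ h₁ h₂ => rw [map_add]; exact Submodule.add_mem _ h₁ h₂
    | smul r η _ h => rw [map_smul]; exact Submodule.smul_mem _ _ h
  have key := Submodule.le_of_le_smul_of_le_jacobson_bot hfg
    (IsLocalRing.maximalIdeal_le_jacobson ⊥) hle
  obtain ⟨g, hg⟩ := Submodule.mem_span_singleton.1 (key (hmem a))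
  exact ⟨g, hg.symm⟩

/-- The order of `D t` at a place where `t` vanishes (hypothesis form). -/
theorem dif_ordDifferential_D [CharZero K] (v : Place K F) [v.DCoordGenerates]
    [Nontrivial Ω[F⁄K]] [Algebra.EssFiniteType K v.toValuationSubring]
    (hres : ∀ a : v.toValuationSubring, ∃ c : K,
      (a : F) - algebraMap K F c ∈ v.toValuationSubring.nonunits)
    (t : F) (ht : 0 < v.ord t) :
    v.differentialCoeff (D K F t) ≠ 0 ∧ v.ordDifferential (D K F t) = v.ord t - 1 := by
  obtain ⟨π, hπ, hdc⟩ := dif_exists_irreducible_dCoord v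
  have ht0 : t ≠ 0 := by
    rintro rfl
    simp at ht
  obtain ⟨u, hu⟩ := v.exists_unit_mul_zpow ht0 hπ
  obtain ⟨n, hn⟩ : ∃ n : ℕ, v.ord t = ((n + 1 : ℕ) : ℤ) := ⟨(v.ord t - 1).toNat, by push_cast; omega⟩
  rw [hn, zpow_natCast] at hu
  obtain ⟨g, hg⟩ := dif_D_mem_span v hres π hπ (u : v.toValuationSubring)
  have hπ0 : (π : F) ≠ 0 := by
    simpa [ne_eq, ZeroMemClass.coe_eq_zero] using hπ.ne_zero
  -- the unit `(n + 1) u + π g`
  have hw : IsUnit (((n + 1 : ℕ) : v.toValuationSubring) * (u : v.toValuationSubring) + π * g) := by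
    by_contra hnu
    have h1 : ((n + 1 : ℕ) : v.toValuationSubring) * (u : v.toValuationSubring) + π * g ∈
        IsLocalRing.maximalIdeal v.toValuationSubring := hnu
    have h2 : π * g ∈ IsLocalRing.maximalIdeal v.toValuationSubring := by
      rw [hπ.maximalIdeal_eq]
      exact Ideal.mul_mem_right _ _ (Ideal.mem_span_singleton_self π)
    have h3 : ((n + 1 : ℕ) : v.toValuationSubring) * (u : v.toValuationSubring) ∈
        IsLocalRing.maximalIdeal v.toValuationSubring := by
      have := (IsLocalRing.maximalIdeal v.toValuationSubring).sub_mem h1 h2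
      simpa using this
    have h4 : IsUnit (((n + 1 : ℕ) : v.toValuationSubring) * (u : v.toValuationSubring)) := by
      refine IsUnit.mul ?_ u.isUnit
      have h5 : IsUnit ((n + 1 : ℕ) : K) := isUnit_iff_ne_zero.2 (Nat.cast_ne_zero.2 (Nat.succ_ne_zero n))
      have := h5.map (algebraMap K v.toValuationSubring)
      rwa [map_natCast] at this
    exact h3 h4
  have hDt : D K F t = ((((hw.unit : v.toValuationSubringˣ) : v.toValuationSubring) : F) *
      (π : F) ^ (n : ℤ)) • v.dCoord := by
    rw [hdc, hu, Derivation.leibniz, Derivation.leibniz_pow, hg, IsUnit.unit_spec]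
    simp only [Nat.add_sub_cancel, zpow_natCast, AddMemClass.coe_add, MulMemClass.coe_mul,
      SubringClass.coe_natCast]
    rw [pow_succ]
    module
  have hcoef := v.differentialCoeff_unique hDt
  refine ⟨?_, ?_⟩
  · rw [hcoef]
    refine mul_ne_zero (fun h => ?_) (zpow_ne_zero _ hπ0)
    exact (hw.unit).ne_zero (Subtype.ext h)
  · rw [Place.ordDifferential, hcoef, v.ord_unit_smul_zpow hw.unit hπ n, hn]
    push_cast
    ring

end Integrality

end Fermat.Agent.S24
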