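import Mathlib
import Fermat.Prelude.Def_AlgebraicCurve_CanonicalDivisor
import Fermat.Agent.S24.DifferentialCore
import Fermat.Agent.S24.PlaceBasic
import Fermat.Agent.S24.FFSetup
import Fermat.Agent.S24.Fiber

/-!
# S24, piece A3: differentials of a function field of one variable

`finrank_kaehler`, `span_D_eq_top`, `dCoordGenerates`, `ordDifferential_D` (and the pole case
`ordDifferential_D_of_neg`).
-/

set_option autoImplicit false

namespace Fermat.Agent.S24

open AlgebraicCurve KaehlerDifferential IntermediateField algebraAdjoinAdjoin Polynomial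
open scoped TensorProduct

variable {K F : Type*} [Field K] [Field F] [Algebra K F]

/-! ### The valuation ring of a place is essentially of finite type -/

section EssFinite

open IsDedekindDomain

variable [CharZero K]

/-- If `t ∈ O_v` is transcendental with `F` finite over `K(t)`, then `O_v` is essentially of
finite type over `K`: it is a localization of the integral closure of `K[t]`. -/
theorem dif_essFiniteType_of_mem (t : F) (ht : Transcendental K t) [FiniteDimensional K⟮t⟯ F]
    (v : Place K F) (htv : t ∈ v.toValuationSubring) :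
    Algebra.EssFiniteType K v.toValuationSubring := by
  letI := polyAlgebra K t
  letI := ratAlgebra K t ht
  haveI := polyAlgebra_isScalarTower K t
  haveI := ratAlgebra_isScalarTower K t ht
  haveI := ratAlgebra_functionField K t ht
  have hX : algebraMap K[X] F X = t := by
    rw [RingHom.algebraMap_toAlgebra]
    simp
  obtain ⟨w, rfl⟩ := exists_placeOfPrime_eq K v (by rw [hX]; exact htv)
  -- the ring of integers lies in the valuation ring
  have hR : ∀ b : FunctionField.ringOfIntegers K F,
      (b : F) ∈ (placeOfPrime K w).toValuationSubring := by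
    intro b
    rw [mem_placeOfPrime_iff]
    refine ⟨b, 1, ?_, by simp⟩
    exact fun h => w.isPrime.ne_top ((Ideal.eq_top_iff_one _).2 h)
  obtain ⟨S, hS⟩ := (Module.Finite.fg_top :
    (⊤ : Submodule K[X] (FunctionField.ringOfIntegers K F)).FG)
  classical
  rw [Algebra.essFiniteType_iff]
  refine ⟨insert ⟨t, htv⟩ (S.image fun b : FunctionField.ringOfIntegers K F => ⟨(b : F), hR b⟩), ?_⟩
  set σ : Finset (placeOfPrime K w).toValuationSubring :=
    insert ⟨t, htv⟩ (S.image fun b : FunctionField.ringOfIntegers K F => ⟨(b : F), hR b⟩) with hσ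
  have hgen : ∀ b : FunctionField.ringOfIntegers K F,
      (⟨(b : F), hR b⟩ : (placeOfPrime K w).toValuationSubring) ∈
        Algebra.adjoin K (σ : Set (placeOfPrime K w).toValuationSubring) := by
    intro b
    have hb : b ∈ Submodule.span K[X] (S : Set (FunctionField.ringOfIntegers K F)) := by
      rw [hS]; trivial
    induction hb using Submodule.span_induction with
    | mem b hb =>
      apply Algebra.subset_adjoin
      rw [hσ, Finset.coe_insert, Finset.coe_image]
      exact Or.inr ⟨b, hb, rfl⟩
    | zero => exact Subalgebra.zero_mem _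
    | add b₁ b₂ _ _ h₁ h₂ => exact Subalgebra.add_mem _ h₁ h₂
    | smul p b _ h =>
      have hp : Polynomial.aeval (⟨t, htv⟩ : (placeOfPrime K w).toValuationSubring) p ∈
          Algebra.adjoin K (σ : Set (placeOfPrime K w).toValuationSubring) := by
        refine Algebra.adjoin_mono ?_ (Polynomial.aeval_mem_adjoin_singleton K _)
        rw [hσ, Finset.coe_insert]
        exact Set.singleton_subset_iff.2 (Or.inl rfl)
      have hmul := Subalgebra.mul_mem _ hp h
      convert hmul using 1
      apply Subtype.ext
      have h1 : ((Polynomial.aeval (⟨t, htv⟩ : (placeOfPrime K w).toValuationSubring) p :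
          (placeOfPrime K w).toValuationSubring) : F) = Polynomial.aeval t p := by
        have := Polynomial.aeval_algHom_apply
          (IsScalarTower.toAlgHom K (placeOfPrime K w).toValuationSubring F)
          (⟨t, htv⟩ : (placeOfPrime K w).toValuationSubring) p
        exact this.symm
      rw [MulMemClass.coe_mul, h1]
      change ((p • b : FunctionField.ringOfIntegers K F) : F) = _
      rw [Algebra.smul_def, MulMemClass.coe_mul]
      rfl
  intro s
  obtain ⟨b, u, hu, hs⟩ := (mem_placeOfPrime_iff K w (s : F)).1 s.2
  have hu0 : (u : F) ≠ 0 := by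
    intro h0
    apply hu
    have : u = 0 := Subtype.ext h0
    rw [this]
    exact Ideal.zero_mem _
  have hinv : (u : F)⁻¹ ∈ (placeOfPrime K w).toValuationSubring := by
    rw [mem_placeOfPrime_iff]
    exact ⟨1, u, hu, by simp⟩
  refine ⟨⟨(u : F), hR u⟩, hgen u, ?_, ?_⟩
  · exact IsUnit.of_mul_eq_one ⟨(u : F)⁻¹, hinv⟩ (Subtype.ext (mul_inv_cancel₀ hu0))
  · have : s * ⟨(u : F), hR u⟩ = ⟨(b : F), hR b⟩ := by
      apply Subtype.ext
      rw [MulMemClass.coe_mul, hs]
      field_simp
    rw [this]
    exact hgen b

end EssFinite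

/-! ### The statements of piece A3 -/

section Final

variable [IsAlgClosed K] [CharZero K]

/-- (A3) `Ω[F/K]` has rank one. -/
theorem finrank_kaehler (x : F) (hx : Transcendental K x) [FiniteDimensional K⟮x⟯ F] :
    Module.finrank F (Ω[F⁄K]) = 1 :=
  (finrank_eq_one_iff_of_nonzero _ (dif_D_ne_zero x hx)).2 (dif_span_D x)

/-- (A3) `Ω[F/K]` is spanned by `D t` for every transcendental `t`. -/
theorem span_D_eq_top (x : F) (hx : Transcendental K x) [FiniteDimensional K⟮x⟯ F] (t : F)
    (ht : Transcendental K t) : Submodule.span F {D K F t} = ⊤ := by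
  haveI := finiteDimensional_adjoin_of_transcendental x hx t ht
  exact dif_span_D t

/-- (A3) The differential of the chosen uniformizer generates `Ω[F/K]`. -/
theorem dCoordGenerates (x : F) (hx : Transcendental K x) [FiniteDimensional K⟮x⟯ F]
    (v : Place K F) : v.DCoordGenerates := by
  obtain ⟨π, hπ, hdc⟩ := dif_exists_irreducible_dCoord v
  refine ⟨?_⟩
  rw [hdc]
  apply span_D_eq_top x hx
  intro halg
  have hint : IsIntegral K (π : F) := halg.isIntegral
  have hdeg := IsAlgClosed.degree_eq_one_of_irreducible K (minpoly.irreducible hint)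
  obtain ⟨c, hc⟩ := minpoly.mem_range_of_degree_eq_one K (π : F) hdeg
  have h1 := v.ord_coe_irreducible hπ
  rw [← hc, ord_algebraMap] at h1
  exact zero_ne_one h1

/-- (A3) The order of `D t` at a zero of `t` is `ord t - 1`. -/
theorem ordDifferential_D (x : F) (hx : Transcendental K x) [FiniteDimensional K⟮x⟯ F]
    (v : Place K F) (t : F) (ht : 0 < v.ord t) :
    v.differentialCoeff (D K F t) ≠ 0 ∧ v.ordDifferential (D K F t) = v.ord t - 1 := by
  haveI := dCoordGenerates x hx v
  haveI : Nontrivial Ω[F⁄K] := nontrivial_of_ne _ _ (dif_D_ne_zero x hx)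
  haveI : Algebra.EssFiniteType K v.toValuationSubring := by
    rcases v.toValuationSubring.mem_or_inv_mem x with h | h
    · exact dif_essFiniteType_of_mem x hx v h
    · have hx' : Transcendental K x⁻¹ := fun halg => hx (by simpa using halg.inv)
      haveI := finiteDimensional_adjoin_of_transcendental x hx x⁻¹ hx'
      exact dif_essFiniteType_of_mem x⁻¹ hx' v h
  exact dif_ordDifferential_D v (fun a => exists_const_sub_mem_nonunits x hx v a a.2) t ht

/-- (A3, extra) The order of `D t` at a pole of `t` is also `ord t - 1`. -/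
theorem ordDifferential_D_of_neg (x : F) (hx : Transcendental K x) [FiniteDimensional K⟮x⟯ F]
    (v : Place K F) (t : F) (ht : v.ord t < 0) :
    v.differentialCoeff (D K F t) ≠ 0 ∧ v.ordDifferential (D K F t) = v.ord t - 1 := by
  haveI := dCoordGenerates x hx v
  haveI : Nontrivial Ω[F⁄K] := nontrivial_of_ne _ _ (dif_D_ne_zero x hx)
  have ht0 : t ≠ 0 := by
    rintro rfl
    simp at ht
  have hs : 0 < v.ord t⁻¹ := by rw [v.ord_inv]; omega
  obtain ⟨h1, h2⟩ := ordDifferential_D x hx v t⁻¹ hs
  have hD : D K F t = (-(t ^ 2)) • D K F t⁻¹ := by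
    have := Derivation.leibniz_inv (D K F) t⁻¹
    rw [inv_inv] at this
    rw [this]
  have hc : v.differentialCoeff (D K F t) = -(t ^ 2) * v.differentialCoeff (D K F t⁻¹) := by
    rw [hD, v.differentialCoeff_smul]
  have hne : -(t ^ 2) ≠ 0 := neg_ne_zero.2 (pow_ne_zero 2 ht0)
  refine ⟨?_, ?_⟩
  · rw [hc]
    exact mul_ne_zero hne h1
  · rw [Place.ordDifferential, hc, v.ord_mul hne h1]
    have h3 : v.ord (-(t ^ 2)) = 2 * v.ord t := by
      have : -(t ^ 2) = (-1 : F) * (t * t) := by ring
      rw [this, v.ord_mul (by simp) (mul_ne_zero ht0 ht0), v.ord_mul ht0 ht0]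
      have h4 : v.ord (-1 : F) = 0 := by
        have := ord_algebraMap v (-1 : K)
        simpa using this
      rw [h4]; ring
    rw [h3]
    rw [Place.ordDifferential] at h2
    rw [h2, v.ord_inv]
    ring

end Final

end Fermat.Agent.S24
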