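import Mathlib
import Fermat.Prelude.Def_AlgebraicCurve_CanonicalDivisor
import Fermat.Agent.S24.PlaceBasic
import Fermat.Agent.S24.Fiber
import Fermat.Agent.S24.Differential

/-!
# S24, piece A4 : degree of principal and canonical divisors (Riemann–Hurwitz for `x : F → P¹`)
-/

set_option autoImplicit false

namespace Fermat.Agent.S24

open AlgebraicCurve KaehlerDifferential
open scoped IntermediateField

variable {K F : Type*} [Field K] [IsAlgClosed K] [CharZero K] [Field F] [Algebra K F]

/-! ### Elementary facts about constants and simple adjunctions -/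

omit [CharZero K] in
/-- Over an algebraically closed field, an algebraic element is a constant. -/
theorem genus_exists_const_of_isAlgebraic {f : F} (hf : IsAlgebraic K f) :
    ∃ c : K, f = algebraMap K F c := by
  have hint : IsIntegral K f := hf.isIntegral
  have hdeg : (minpoly K f).degree = 1 :=
    IsAlgClosed.degree_eq_one_of_irreducible K (minpoly.irreducible hint)
  obtain ⟨c, hc⟩ := minpoly.mem_range_of_degree_eq_one K f hdeg
  exact ⟨c, hc.symm⟩

omit [IsAlgClosed K] [CharZero K] in
theorem genus_transcendental_ne_zero {f : F} (hf : Transcendental K f) : f ≠ 0 := by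
  rintro rfl
  exact hf (by simpa using isAlgebraic_algebraMap (R := K) (A := F) 0)

omit [IsAlgClosed K] [CharZero K] in
theorem genus_transcendental_inv {f : F} (hf : Transcendental K f) : Transcendental K f⁻¹ :=
  fun h => hf (IsAlgebraic.inv_iff.mp h)

omit [IsAlgClosed K] [CharZero K] in
theorem genus_transcendental_sub_const {f : F} (hf : Transcendental K f) (c : K) :
    Transcendental K (f - algebraMap K F c) := by
  intro h
  apply hf
  have := h.add (isAlgebraic_algebraMap (R := K) (A := F) c)
  simpa using this

omit [IsAlgClosed K] [CharZero K] in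
theorem genus_sub_const_ne_zero {f : F} (hf : Transcendental K f) (c : K) :
    f - algebraMap K F c ≠ 0 :=
  genus_transcendental_ne_zero (genus_transcendental_sub_const hf c)

omit [IsAlgClosed K] [CharZero K] in
theorem genus_adjoin_inv (f : F) : K⟮f⁻¹⟯ = K⟮f⟯ := by
  apply le_antisymm
  · rw [IntermediateField.adjoin_simple_le_iff]
    exact inv_mem (IntermediateField.mem_adjoin_simple_self K f)
  · rw [IntermediateField.adjoin_simple_le_iff]
    have h : (f⁻¹)⁻¹ ∈ K⟮f⁻¹⟯ := inv_mem (IntermediateField.mem_adjoin_simple_self K f⁻¹)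
    simpa using h

omit [IsAlgClosed K] [CharZero K] in
theorem genus_adjoin_sub_const (f : F) (c : K) : K⟮f - algebraMap K F c⟯ = K⟮f⟯ := by
  apply le_antisymm
  · rw [IntermediateField.adjoin_simple_le_iff]
    exact sub_mem (IntermediateField.mem_adjoin_simple_self K f) (algebraMap_mem _ c)
  · rw [IntermediateField.adjoin_simple_le_iff]
    have h : (f - algebraMap K F c) + algebraMap K F c ∈ K⟮f - algebraMap K F c⟯ :=
      add_mem (IntermediateField.mem_adjoin_simple_self K _) (algebraMap_mem _ c)
    simpa using h

omit [IsAlgClosed K] [CharZero K] in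
theorem genus_finiteDimensional_inv (f : F) [FiniteDimensional K⟮f⟯ F] :
    FiniteDimensional K⟮f⁻¹⟯ F := by
  rw [genus_adjoin_inv]; infer_instance

omit [IsAlgClosed K] [CharZero K] in
theorem genus_finiteDimensional_sub_const (f : F) (c : K) [FiniteDimensional K⟮f⟯ F] :
    FiniteDimensional K⟮f - algebraMap K F c⟯ F := by
  rw [genus_adjoin_sub_const]; infer_instance

omit [IsAlgClosed K] [CharZero K] in
theorem genus_finrank_inv (f : F) : Module.finrank K⟮f⁻¹⟯ F = Module.finrank K⟮f⟯ F := by
  rw [genus_adjoin_inv]

omit [IsAlgClosed K] [CharZero K] in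
theorem genus_finrank_sub_const (f : F) (c : K) :
    Module.finrank K⟮f - algebraMap K F c⟯ F = Module.finrank K⟮f⟯ F := by
  rw [genus_adjoin_sub_const]

/-! ### Principal divisors -/

theorem finite_support_ord (x : F) (hx : Transcendental K x) [FiniteDimensional K⟮x⟯ F]
    (f : F) (hf : f ≠ 0) : {v : Place K F | v.ord f ≠ 0}.Finite := by
  by_cases hfa : IsAlgebraic K f
  · obtain ⟨c, rfl⟩ := genus_exists_const_of_isAlgebraic hfa
    have : {v : Place K F | v.ord (algebraMap K F c) ≠ 0} = ∅ := by
      ext v
      simp [ord_algebraMap]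
    rw [this]
    exact Set.finite_empty
  · have hft : Transcendental K f := hfa
    haveI : FiniteDimensional K⟮f⟯ F := finiteDimensional_adjoin_of_transcendental x hx f hft
    haveI : FiniteDimensional K⟮f⁻¹⟯ F := genus_finiteDimensional_inv f
    refine ((finite_zeros f hft).union
      (finite_zeros f⁻¹ (genus_transcendental_inv hft))).subset ?_
    intro v hv
    simp only [Set.mem_setOf_eq] at hv
    simp only [Set.mem_union, Set.mem_setOf_eq, v.ord_inv]
    omega

theorem sum_ord_eq_zero (x : F) (hx : Transcendental K x) [FiniteDimensional K⟮x⟯ F]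
    (f : F) (hf : f ≠ 0) : ∑ᶠ v : Place K F, v.ord f = 0 := by
  by_cases hfa : IsAlgebraic K f
  · obtain ⟨c, rfl⟩ := genus_exists_const_of_isAlgebraic hfa
    simp [ord_algebraMap]
  · have hft : Transcendental K f := hfa
    haveI : FiniteDimensional K⟮f⟯ F := finiteDimensional_adjoin_of_transcendental x hx f hft
    haveI : FiniteDimensional K⟮f⁻¹⟯ F := genus_finiteDimensional_inv f
    have hZ := finite_zeros f hft
    have hP := finite_zeros f⁻¹ (genus_transcendental_inv hft)
    have h1 := sum_ord_zeros f hft
    have h2 := sum_ord_zeros f⁻¹ (genus_transcendental_inv hft)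
    rw [genus_finrank_inv] at h2
    rw [finsum_mem_def] at h1 h2
    have key : ∀ v : Place K F, v.ord f =
        Set.indicator {v : Place K F | 0 < v.ord f} (fun v => v.ord f) v
          - Set.indicator {v : Place K F | 0 < v.ord f⁻¹} (fun v => v.ord f⁻¹) v := by
      intro v
      by_cases h1 : 0 < v.ord f
      · have h2 : ¬ 0 < v.ord f⁻¹ := by rw [v.ord_inv]; omega
        rw [Set.indicator_of_mem (by exact h1), Set.indicator_of_notMem (by exact h2)]
        simp
      · by_cases h2 : 0 < v.ord f⁻¹
        · rw [Set.indicator_of_notMem (by exact h1), Set.indicator_of_mem (by exact h2)]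
          rw [v.ord_inv]; simp
        · rw [Set.indicator_of_notMem (by exact h1), Set.indicator_of_notMem (by exact h2)]
          rw [v.ord_inv] at h2
          omega
    rw [finsum_congr key, finsum_sub_distrib, h1, h2, sub_self]
    · exact hZ.subset (fun v hv => by
        by_contra hv'
        exact hv (Set.indicator_of_notMem hv' _))
    · exact hP.subset (fun v hv => by
        by_contra hv'
        exact hv (Set.indicator_of_notMem hv' _))

/-! ### Differentials of the coordinate at the places -/

omit [IsAlgClosed K] [CharZero K] in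
/-- the differential of a constant translate -/
theorem genus_D_sub_const (x : F) (c : K) : D K F (x - algebraMap K F c) = D K F x := by
  rw [map_sub, Derivation.map_algebraMap, sub_zero]

omit [IsAlgClosed K] [CharZero K] in
theorem genus_ord_nonneg_of_zero (x : F) (hx : Transcendental K x) (v : Place K F) (c : K)
    (hv : 0 < v.ord (x - algebraMap K F c)) : 0 ≤ v.ord x := by
  have hx0 : x - algebraMap K F c + algebraMap K F c ≠ 0 := by
    rw [sub_add_cancel]; exact genus_transcendental_ne_zero hx
  have h := ord_add_ge v hx0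
  rw [sub_add_cancel, ord_algebraMap] at h
  have h2 : min (v.ord (x - algebraMap K F c)) 0 = 0 := min_eq_right hv.le
  omega

omit [IsAlgClosed K] [CharZero K] in
theorem genus_zero_unique (x : F) (v : Place K F) (c c' : K)
    (hc : 0 < v.ord (x - algebraMap K F c)) (hc' : 0 < v.ord (x - algebraMap K F c')) :
    c = c' := by
  by_contra hne
  have hsub : (x - algebraMap K F c') + -(x - algebraMap K F c) = algebraMap K F (c - c') := by
    rw [map_sub]; ring
  have hne' : (x - algebraMap K F c') + -(x - algebraMap K F c) ≠ 0 := by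
    rw [hsub]
    exact (map_ne_zero _).mpr (sub_ne_zero.mpr hne)
  have h := ord_add_ge v hne'
  rw [hsub, ord_algebraMap, ord_neg] at h
  have h2 := lt_min hc' hc
  omega

theorem genus_exists_zero (x : F) (hx : Transcendental K x) [FiniteDimensional K⟮x⟯ F]
    (v : Place K F) (hv : 0 ≤ v.ord x) : ∃ c : K, 0 < v.ord (x - algebraMap K F c) := by
  obtain ⟨c, hc⟩ := exists_const_sub_mem_nonunits x hx v x ((mem_iff_ord_nonneg v x).mpr hv)
  exact ⟨c, (mem_nonunits_iff_ord_pos v (genus_sub_const_ne_zero hx c)).mp hc⟩

theorem genus_ordDiff_zero (x : F) (hx : Transcendental K x) [FiniteDimensional K⟮x⟯ F]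
    (v : Place K F) (c : K) (hv : 0 < v.ord (x - algebraMap K F c)) :
    v.ordDifferential (D K F x) = v.ord (x - algebraMap K F c) - 1 := by
  have h := (ordDifferential_D x hx v (x - algebraMap K F c) hv).2
  rwa [genus_D_sub_const] at h

theorem genus_ordDiff_pole (x : F) (hx : Transcendental K x) [FiniteDimensional K⟮x⟯ F]
    (v : Place K F) (hv : v.ord x < 0) :
    v.ordDifferential (D K F x) = v.ord x - 1 := by
  have hx0 : x ≠ 0 := genus_transcendental_ne_zero hx
  haveI : Nontrivial Ω[F⁄K] :=
    Module.nontrivial_of_finrank_pos (R := F) (by rw [finrank_kaehler x hx]; exact one_pos)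
  haveI := dCoordGenerates x hx v
  have hpos : 0 < v.ord x⁻¹ := by rw [v.ord_inv]; omega
  obtain ⟨h1, h2⟩ := ordDifferential_D x hx v x⁻¹ hpos
  have hleib : D K F x = (-x ^ 2) • D K F x⁻¹ :=
    Derivation.leibniz_of_mul_eq_one (D K F) (mul_inv_cancel₀ hx0)
  have hc : (-x ^ 2 : F) ≠ 0 := neg_ne_zero.mpr (pow_ne_zero 2 hx0)
  rw [hleib, v.ordDifferential_smul hc h1, h2, ord_neg, ord_pow, v.ord_inv]
  push_cast
  ring

/-! ### The degree of a canonical divisor -/

/-- Riemann–Hurwitz degree formula for `x : F → P¹`. -/
theorem degree_canonical (x : F) (hx : Transcendental K x) [FiniteDimensional K⟮x⟯ F]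
    (T : Finset K)
    (hT : ∀ c ∉ T, Set.ncard {v : Place K F | 0 < v.ord (x - algebraMap K F c)}
      = Module.finrank K⟮x⟯ F)
    (ω : Ω[F⁄K]) (hω : ω ≠ 0) (D : Divisor K F) (hD : ∀ v, D v = v.ordDifferential ω) :
    Divisor.degree D =
      ∑ c ∈ T, ((Module.finrank K⟮x⟯ F : ℤ)
          - Set.ncard {v : Place K F | 0 < v.ord (x - algebraMap K F c)})
        - Module.finrank K⟮x⟯ F - Set.ncard {v : Place K F | v.ord x < 0} := by
  classical
  haveI : Nontrivial Ω[F⁄K] :=
    Module.nontrivial_of_finrank_pos (R := F) (by rw [finrank_kaehler x hx]; exact one_pos)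
  -- `ω = f • dx`
  obtain ⟨f, hf⟩ : ∃ f : F, f • KaehlerDifferential.D K F x = ω := by
    have : ω ∈ Submodule.span F {KaehlerDifferential.D K F x} := by
      rw [span_D_eq_top x hx x hx]; trivial
    exact Submodule.mem_span_singleton.mp this
  have hf0 : f ≠ 0 := by rintro rfl; exact hω (by rw [← hf, zero_smul])
  have hdx : KaehlerDifferential.D K F x ≠ 0 := by
    intro h; exact hω (by rw [← hf, h, smul_zero])
  -- local orders
  let e : Place K F → ℤ := fun v => v.ordDifferential (KaehlerDifferential.D K F x)
  have hDv : ∀ v, D v = v.ord f + e v := by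
    intro v
    haveI := dCoordGenerates x hx v
    have hcoeff : v.differentialCoeff (KaehlerDifferential.D K F x) ≠ 0 := by
      intro h
      apply hdx
      rw [← v.differentialCoeff_smul_dCoord (KaehlerDifferential.D K F x), h, zero_smul]
    rw [hD v, ← hf, v.ordDifferential_smul hf0 hcoeff]
  -- all places have degree one
  have hdeg : Divisor.degree D = ∑ᶠ v, D v := by
    have h1 : Divisor.degree D = ∑ v ∈ D.support, D v := by
      simp only [Divisor.degree, Finsupp.liftAddHom_apply, Finsupp.sum, AddMonoidHom.coe_mulRight,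
        deg_eq_one x hx, Nat.cast_one, mul_one]
    rw [h1]
    symm
    apply finsum_eq_sum_of_support_subset
    intro v hv
    simpa using hv
  have hsupp_f : (Function.support fun v : Place K F => v.ord f).Finite :=
    finite_support_ord x hx f hf0
  -- the fibres
  have hZfin : ∀ c : K, {v : Place K F | 0 < v.ord (x - algebraMap K F c)}.Finite := fun c => by
    haveI := genus_finiteDimensional_sub_const (K := K) x c
    exact finite_zeros _ (genus_transcendental_sub_const hx c)
  have hPeq : {v : Place K F | v.ord x < 0} = {v : Place K F | 0 < v.ord x⁻¹} := by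
    ext v
    simp only [Set.mem_setOf_eq, v.ord_inv]
    omega
  have hPfin : {v : Place K F | v.ord x < 0}.Finite := by
    rw [hPeq]
    haveI := genus_finiteDimensional_inv (K := K) x
    exact finite_zeros _ (genus_transcendental_inv hx)
  have hZsum : ∀ c : K, ∑ v ∈ (hZfin c).toFinset, v.ord (x - algebraMap K F c)
      = (Module.finrank K⟮x⟯ F : ℤ) := fun c => by
    haveI := genus_finiteDimensional_sub_const (K := K) x c
    have h := sum_ord_zeros (x - algebraMap K F c) (genus_transcendental_sub_const hx c)
    rw [genus_finrank_sub_const, finsum_mem_eq_finite_toFinset_sum _ (hZfin c)] at h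
    exact h
  have hPsum : ∑ v ∈ hPfin.toFinset, v.ord x = -(Module.finrank K⟮x⟯ F : ℤ) := by
    haveI := genus_finiteDimensional_inv (K := K) x
    have h := sum_ord_zeros x⁻¹ (genus_transcendental_inv hx)
    rw [genus_finrank_inv, ← hPeq, finsum_mem_eq_finite_toFinset_sum _ hPfin] at h
    rw [← h, ← Finset.sum_neg_distrib]
    exact Finset.sum_congr rfl (fun v _ => by rw [v.ord_inv, neg_neg])
  have heP : ∀ v ∈ hPfin.toFinset, e v = v.ord x - 1 := by
    intro v hv
    have hv' : v.ord x < 0 := by simpa using hv
    exact genus_ordDiff_pole x hx v hv'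
  have heZ : ∀ c : K, ∀ v ∈ (hZfin c).toFinset, e v = v.ord (x - algebraMap K F c) - 1 := by
    intro c v hv
    have hv' : 0 < v.ord (x - algebraMap K F c) := by simpa using hv
    exact genus_ordDiff_zero x hx v c hv'
  -- generic fibres are unramified
  have hunr : ∀ c ∉ T, ∀ v ∈ (hZfin c).toFinset, v.ord (x - algebraMap K F c) = 1 := by
    intro c hc
    have hcard : ((hZfin c).toFinset.card : ℤ) = (Module.finrank K⟮x⟯ F : ℤ) := by
      rw [← Set.ncard_eq_toFinset_card _ (hZfin c), hT c hc]
    have hsum0 : ∑ v ∈ (hZfin c).toFinset, (v.ord (x - algebraMap K F c) - 1) = 0 := by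
      rw [Finset.sum_sub_distrib, hZsum c, Finset.sum_const, nsmul_eq_mul, mul_one, hcard,
        sub_self]
    have hnonneg : ∀ v ∈ (hZfin c).toFinset, 0 ≤ v.ord (x - algebraMap K F c) - 1 := by
      intro v hv
      have hv' : 0 < v.ord (x - algebraMap K F c) := by simpa using hv
      omega
    intro v hv
    have := (Finset.sum_eq_zero_iff_of_nonneg hnonneg).mp hsum0 v hv
    omega
  -- the support of `e`
  let S : Finset (Place K F) := hPfin.toFinset ∪ T.biUnion (fun c => (hZfin c).toFinset)
  have hsupp_e : Function.support e ⊆ ↑S := by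
    intro v hv
    have hev : e v ≠ 0 := hv
    have hgoal : v ∈ S := by
      by_cases hvP : v.ord x < 0
      · exact Finset.mem_union_left _ (by simpa using hvP)
      · obtain ⟨c, hc⟩ := genus_exists_zero x hx v (not_lt.mp hvP)
        have hcmem : v ∈ (hZfin c).toFinset := by simpa using hc
        refine Finset.mem_union_right _ (Finset.mem_biUnion.mpr ⟨c, ?_, hcmem⟩)
        by_contra hcT
        apply hev
        have h1 := hunr c hcT v hcmem
        have h2 := heZ c v hcmem
        rw [h2, h1, sub_self]
    exact hgoal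
  have hsum_e : ∑ᶠ v, e v = ∑ c ∈ T, ((Module.finrank K⟮x⟯ F : ℤ)
          - Set.ncard {v : Place K F | 0 < v.ord (x - algebraMap K F c)})
        - Module.finrank K⟮x⟯ F - Set.ncard {v : Place K F | v.ord x < 0} := by
    rw [finsum_eq_sum_of_support_subset e hsupp_e]
    have hdisj1 : Disjoint hPfin.toFinset (T.biUnion (fun c => (hZfin c).toFinset)) := by
      rw [Finset.disjoint_left]
      intro v hvP hvZ
      have hvP' : v.ord x < 0 := by simpa using hvP
      obtain ⟨c, _, hc⟩ := Finset.mem_biUnion.mp hvZ
      have hc' : 0 < v.ord (x - algebraMap K F c) := by simpa using hc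
      have := genus_ord_nonneg_of_zero x hx v c hc'
      omega
    have hdisj2 : (T : Set K).PairwiseDisjoint (fun c => (hZfin c).toFinset) := by
      intro c _ c' _ hne
      show Disjoint (hZfin c).toFinset (hZfin c').toFinset
      rw [Finset.disjoint_left]
      intro v hv hv'
      exact hne (genus_zero_unique x v c c' (by simpa using hv) (by simpa using hv'))
    rw [Finset.sum_union hdisj1, Finset.sum_biUnion hdisj2]
    have hA : ∑ v ∈ hPfin.toFinset, e v
        = -(Module.finrank K⟮x⟯ F : ℤ) - Set.ncard {v : Place K F | v.ord x < 0} := by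
      rw [Finset.sum_congr rfl heP, Finset.sum_sub_distrib, hPsum, Finset.sum_const,
        nsmul_eq_mul, mul_one, ← Set.ncard_eq_toFinset_card _ hPfin]
    have hB : ∀ c ∈ T, ∑ v ∈ (hZfin c).toFinset, e v = (Module.finrank K⟮x⟯ F : ℤ)
        - Set.ncard {v : Place K F | 0 < v.ord (x - algebraMap K F c)} := by
      intro c _
      rw [Finset.sum_congr rfl (heZ c), Finset.sum_sub_distrib, hZsum c, Finset.sum_const,
        nsmul_eq_mul, mul_one, ← Set.ncard_eq_toFinset_card _ (hZfin c)]
    rw [hA, Finset.sum_congr rfl hB]
    ring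
  rw [hdeg, finsum_congr hDv, finsum_add_distrib hsupp_f (S.finite_toSet.subset hsupp_e),
    sum_ord_eq_zero x hx f hf0, zero_add, hsum_e]

end Fermat.Agent.S24
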