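import Mathlib
import Fermat.Agent.S28.Defs
import Fermat.Prelude.Def_ModularCurve_ArithmeticGalois

/-!
# S24: shared definitions for the modular realisation (part C)

`Kbar = ℚ̄`, a fixed embedding `iotaK : ℚ̄ → ℂ`, level-`N` expansions with coefficients in `ℚ̄`,
the generators `J(d γ τ)` and the ring `modRing N = ℚ̄[J(d γ τ) : d ∣ N, γ ∈ SL₂(ℤ)]` of
holomorphic functions on the upper half plane.
-/

set_option autoImplicit false

open UpperHalfPlane ModularCurve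
open scoped MatrixGroups

noncomputable section

namespace Fermat.Agent.S24

open Fermat.Agent.S28 (Jfun scaleH HasQExp)

/-- The field of constants `ℚ̄`. -/
abbrev Kbar : Type := AlgebraicClosure ℚ

/-- A fixed embedding `ℚ̄ → ℂ`. -/
def iotaK : Kbar →+* ℂ :=
  letI : Algebra ℚ (AlgebraicClosure ℚ) := AlgebraicClosure.instAlgebra ℚ
  haveI : Algebra.IsAlgebraic ℚ (AlgebraicClosure ℚ) := AlgebraicClosure.isAlgebraic ℚ
  ((IsAlgClosed.lift : AlgebraicClosure ℚ →ₐ[ℚ] ℂ) : AlgebraicClosure ℚ →+* ℂ)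

theorem iotaK_injective : Function.Injective iotaK := iotaK.injective

@[simp] theorem iotaK_algebraMap (r : ℚ) : iotaK (algebraMap ℚ Kbar r) = (r : ℂ) := by
  simp

/-- `ℂ` as a `ℚ̄`-algebra via `iotaK` (to be used as a local instance in the S24 files:
`attribute [local instance] Fermat.Agent.S24.algKC`). -/
@[reducible] def algKC : Algebra Kbar ℂ := iotaK.toAlgebra

/-- `g` has the level-`N` expansion `s` with coefficients in `ℚ̄`. -/
def HasKExp (N : ℕ) (g : ℍ → ℂ) (s : LaurentSeries Kbar) : Prop :=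
  HasQExp N g (coeffMap iotaK s)

/-- "Modular functions of level `N` defined over `ℚ̄`": every `SL₂(ℤ)`-translate has a level-`N`
expansion with coefficients in `ℚ̄`. -/
def IsMod (N : ℕ) (g : ℍ → ℂ) : Prop :=
  ∀ γ : SL(2, ℤ), ∃ s : LaurentSeries Kbar, HasKExp N (fun τ => g (γ • τ)) s

/-- The function `τ ↦ J(d · γτ)`. -/
def Jconj (d : ℕ) [NeZero d] (γ : SL(2, ℤ)) : ℍ → ℂ := fun τ => Jfun (scaleH d (γ • τ))

/-- The generators: all conjugates of `J(dτ)`, `d ∣ N`. -/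
def gens (N : ℕ) : Set (ℍ → ℂ) :=
  {g | ∃ (d : ℕ) (_ : NeZero d) (γ : SL(2, ℤ)), d ∣ N ∧ g = Jconj d γ}

/-- The left action of `SL₂(ℤ)` on functions: `(γ • f)(τ) = f(γ⁻¹τ)`. -/
def actFun (γ : SL(2, ℤ)) (f : ℍ → ℂ) : ℍ → ℂ := fun τ => f (γ⁻¹ • τ)

attribute [local instance] algKC

/-- The ring `ℚ̄[J(d γ τ)]` of modular functions. -/
def modRing (N : ℕ) : Subalgebra Kbar (ℍ → ℂ) := Algebra.adjoin Kbar (gens N)

theorem Jconj_mem_modRing (N : ℕ) (d : ℕ) [NeZero d] (hd : d ∣ N) (γ : SL(2, ℤ)) :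
    Jconj d γ ∈ modRing N :=
  Algebra.subset_adjoin ⟨d, inferInstance, γ, hd, rfl⟩

/-- `J(dτ)` as an element of `modRing N`. -/
def Jelt (N : ℕ) (d : ℕ) [NeZero d] (hd : d ∣ N) : modRing N :=
  ⟨Jconj d 1, Jconj_mem_modRing N d hd 1⟩

/-- The element `j` of the function field `ℚ̄(j(q^d) : d ∣ N) ⊆ ℚ̄((q))`. -/
def jF (N : ℕ) [NeZero N] : modularFunctionFieldBar N :=
  ⟨coeffEmb Kbar jq, coeffEmb_mem_laurentBaseChange Kbar (by
    have h := jqd_mem_full N (one_dvd N)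
    rwa [qExpand_one_apply] at h)⟩

end Fermat.Agent.S24
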