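import Mathlib
import Fermat.Agent.S24.ModDefs
import Fermat.Prelude.Thm_ModularCurve_coeff_jqModC_pow_self
import Fermat.Prelude.Thm_ModularCurve_coeff_jqModC_pow_of_lt

/-!
# S24 (X1): the element `j` of the modular function field is transcendental over `ℚ̄`
-/

set_option autoImplicit false

open ModularCurve

noncomputable section

namespace Fermat.Agent.S24

theorem jtrans_coeff_algebraMap_mul (K : Type*) [Field K] (c : K) (x : LaurentSeries K) (m : ℤ) :
    (algebraMap K (LaurentSeries K) c * x).coeff m = c * x.coeff m := by
  rw [algebraMap_laurentSeries_eq_single]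
  show (HahnSeries.C c * x).coeff m = _
  rw [HahnSeries.C_mul_eq_smul, HahnSeries.coeff_smul, smul_eq_mul]

/-- The coefficient of `aeval (jqModC K) P` at `-(natDegree P)` is the leading coefficient. -/
theorem jtrans_coeff_aeval (K : Type*) [Field K] (P : Polynomial K) :
    (Polynomial.aeval (jqModC K) P).coeff (-(P.natDegree : ℤ)) = P.leadingCoeff := by
  rw [Polynomial.aeval_eq_sum_range]
  have hcoeff : ∀ (s : Finset ℕ) (f : ℕ → LaurentSeries K) (m : ℤ),
      (∑ i ∈ s, f i).coeff m = ∑ i ∈ s, (f i).coeff m := by
    intro s f m
    induction s using Finset.induction_on with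
    | empty => simp
    | insert a s ha ih => rw [Finset.sum_insert ha, Finset.sum_insert ha, HahnSeries.coeff_add, ih]
  rw [hcoeff, Finset.sum_eq_single P.natDegree]
  · rw [Algebra.smul_def, jtrans_coeff_algebraMap_mul, coeff_jqModC_pow_self, mul_one]
    rfl
  · intro i hi hne
    have hlt : i < P.natDegree := by
      have := Finset.mem_range.mp hi
      omega
    rw [Algebra.smul_def, jtrans_coeff_algebraMap_mul, coeff_jqModC_pow_of_lt K (by omega),
      mul_zero]
  · intro hn
    exact absurd (Finset.mem_range.mpr (Nat.lt_succ_self _)) hn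

/-- `jqModC K` is transcendental over the field `K`. -/
theorem jtrans_transcendental_jqModC (K : Type*) [Field K] : Transcendental K (jqModC K) := by
  rw [Transcendental, IsAlgebraic]
  rintro ⟨P, hP, h0⟩
  have h := jtrans_coeff_aeval K P
  rw [h0, HahnSeries.coeff_zero] at h
  exact Polynomial.leadingCoeff_ne_zero.mpr hP h.symm

/-- The underlying Laurent series of `jF N` is `jqModC ℚ̄`. -/
theorem jtrans_coe_jF (N : ℕ) [NeZero N] :
    ((jF N : modularFunctionFieldBar N) : LaurentSeries Kbar) = jqModC Kbar := by
  show coeffEmb Kbar jq = jqModC Kbar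
  rw [← jqModC_rat]
  exact map_jqModC _

/-- (X1) `j` is transcendental over `ℚ̄` in the function field of `X₀(N)`. -/
theorem transcendental_jF (N : ℕ) [NeZero N] : Transcendental Kbar (jF N) := by
  have h := jtrans_transcendental_jqModC Kbar
  rw [← jtrans_coe_jF N] at h
  exact (transcendental_algebraMap_iff
    (algebraMap (modularFunctionFieldBar N) (LaurentSeries Kbar)).injective).mp h

end Fermat.Agent.S24
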