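import Fermat.Agent.S24.ModField

/-!
# S24 piece C5c, second half: the embedding `F ↪ L` of the function field of `X₀(N)` into
`L = Frac (modRing N)`, and its stabiliser `Γ₀(N)`
-/

set_option autoImplicit false

open UpperHalfPlane ModularCurve Polynomial
open scoped MatrixGroups IntermediateField Manifold

noncomputable section

namespace Fermat.Agent.S24

open Fermat.Agent.S28 (Jfun scaleH HasQExp)
open CongruenceSubgroup ModularGroup

attribute [local instance] algKC

/-! ## The expansion at `∞` on `L` -/

/-- The expansion at `∞`, extended to the fraction field. -/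
def expL (N : ℕ) [NeZero N] : ModL N →ₐ[Kbar] LaurentSeries Kbar :=
  IsFractionRing.liftAlgHom (g := expHom N) (expHom_injective N)

theorem expL_algebraMap (N : ℕ) [NeZero N] (g : modRing N) :
    expL N (algebraMap (modRing N) (ModL N) g) = expHom N g :=
  IsFractionRing.lift_algebraMap (expHom_injective N) g

theorem expL_injective (N : ℕ) [NeZero N] : Function.Injective (expL N) :=
  (expL N).toRingHom.injective

theorem modfield_expHom_Jelt (N : ℕ) [NeZero N] (d : ℕ) [NeZero d] (hd : d ∣ N) :
    expHom N (Jelt N d hd) = qExpand Kbar N (coeffEmb Kbar (qExpand ℚ d jq)) :=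
  (expHom_spec N _).unique (hasKExp_Jconj_one N d)

/-- `qExpand` as a `ℚ̄`-algebra homomorphism. -/
def modfieldQExp (N : ℕ) [NeZero N] : LaurentSeries Kbar →ₐ[Kbar] LaurentSeries Kbar :=
  { qExpand Kbar N with
    commutes' := fun c => by
      show qExpand Kbar N (algebraMap Kbar (LaurentSeries Kbar) c) = _
      rw [algebraMap_laurentSeries_eq_single, qExpand_single, mul_zero] }

theorem modfieldQExp_apply (N : ℕ) [NeZero N] (f : LaurentSeries Kbar) :
    modfieldQExp N f = qExpand Kbar N f := rfl

/-- A field of Laurent series containing the level-`N` expansions of the `j(dτ)` contains the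
level-`N` expansion of the whole function field. -/
theorem modfield_qExpand_mem (N : ℕ) [NeZero N]
    (E : IntermediateField Kbar (LaurentSeries Kbar))
    (hE : ∀ (d : ℕ) [NeZero d], d ∣ N →
      qExpand Kbar N (coeffEmb Kbar (qExpand ℚ d jq)) ∈ E)
    {f : LaurentSeries Kbar} (hf : f ∈ modularFunctionFieldBar N) : qExpand Kbar N f ∈ E := by
  have h1 : ∀ x ∈ modularFunctionFieldFull N, qExpand Kbar N (coeffEmb Kbar x) ∈ E := by
    intro x hx
    have hx' : x ∈ Subfield.closure
        (Set.range (algebraMap ℚ (LaurentSeries ℚ)) ∪ divisorExpansions N) := hx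
    have hle : Subfield.closure
        (Set.range (algebraMap ℚ (LaurentSeries ℚ)) ∪ divisorExpansions N)
        ≤ E.toSubfield.comap ((qExpand Kbar N).comp (coeffEmb Kbar)) := by
      rw [Subfield.closure_le]
      rintro y (⟨r, rfl⟩ | ⟨d, hd, hdN, rfl⟩)
      · show (qExpand Kbar N) (coeffEmb Kbar (algebraMap ℚ _ r)) ∈ E
        rw [eq_ratCast, map_ratCast, map_ratCast]
        exact SubfieldClass.ratCast_mem E r
      · exact @hE d hd hdN
    exact hle hx'
  rw [mem_laurentBaseChange_iff] at hf
  have hle : Subfield.closure (Set.range (algebraMap Kbar (LaurentSeries Kbar)) ∪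
      (⇑(coeffEmb Kbar) '' (modularFunctionFieldFull N : Set (LaurentSeries ℚ))))
      ≤ E.toSubfield.comap (qExpand Kbar N) := by
    rw [Subfield.closure_le]
    rintro y (⟨c, rfl⟩ | ⟨x, hx, rfl⟩)
    · show qExpand Kbar N (algebraMap Kbar _ c) ∈ E
      rw [algebraMap_laurentSeries_eq_single, qExpand_single, mul_zero,
        ← algebraMap_laurentSeries_eq_single]
      exact E.algebraMap_mem c
    · exact h1 x hx
  exact hle hf

theorem modfield_qExpand_mem_range (N : ℕ) [NeZero N] {f : LaurentSeries Kbar}
    (hf : f ∈ modularFunctionFieldBar N) : qExpand Kbar N f ∈ (expL N).range := by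
  have h := modfield_qExpand_mem N (expL N).fieldRange (fun d _ hd =>
    ⟨algebraMap (modRing N) (ModL N) (Jelt N d hd), by
      rw [← modfield_expHom_Jelt N d hd]
      exact expL_algebraMap N _⟩) hf
  exact h

/-- The embedding of the function field `ℚ̄(j(q^d) : d ∣ N) ⊆ ℚ̄((q))` into `L`. -/
def embF (N : ℕ) [NeZero N] : modularFunctionFieldBar N →ₐ[Kbar] ModL N :=
  ((AlgEquiv.ofInjectiveField (expL N)).symm.toAlgHom).comp
    (((modfieldQExp N).comp (modularFunctionFieldBar N).val).codRestrict (expL N).range
      (fun f => modfield_qExpand_mem_range N f.2))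

theorem expL_embF (N : ℕ) [NeZero N] (f : modularFunctionFieldBar N) :
    expL N (embF N f) = qExpand Kbar N (f : LaurentSeries Kbar) := by
  set y : (expL N).range := (((modfieldQExp N).comp
    (modularFunctionFieldBar N).val).codRestrict (expL N).range
      (fun f => modfield_qExpand_mem_range N f.2)) f with hy
  have h1 : embF N f = (AlgEquiv.ofInjectiveField (expL N)).symm y := rfl
  have h2 : ((AlgEquiv.ofInjectiveField (expL N))
      ((AlgEquiv.ofInjectiveField (expL N)).symm y) : LaurentSeries Kbar) = y := by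
    rw [AlgEquiv.apply_symm_apply]
  rw [h1]
  exact h2

theorem embF_eq_iff (N : ℕ) [NeZero N] (f : modularFunctionFieldBar N) (x : ModL N) :
    embF N f = x ↔ expL N x = qExpand Kbar N (f : LaurentSeries Kbar) := by
  rw [← expL_embF]
  exact ⟨fun h => by rw [h], fun h => (expL_injective N h).symm⟩

theorem embF_jF (N : ℕ) [NeZero N] : embF N (jF N) = jL N := by
  rw [embF_eq_iff]
  show expL N (algebraMap (modRing N) (ModL N) (Jelt N 1 (one_dvd N))) = _
  rw [expL_algebraMap, modfield_expHom_Jelt, qExpand_one_apply]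
  rfl

/-- The fixed field of one element. -/
def modfieldFix (N : ℕ) [NeZero N] (γ : SL(2, ℤ)) : IntermediateField Kbar (ModL N) where
  carrier := {x | γ • x = x}
  mul_mem' := by
    intro a b ha hb
    simp only [Set.mem_ofPred_eq] at ha hb ⊢
    rw [smul_mul', ha, hb]
  one_mem' := smul_one γ
  add_mem' := by
    intro a b ha hb
    simp only [Set.mem_ofPred_eq] at ha hb ⊢
    rw [smul_add, ha, hb]
  zero_mem' := smul_zero γ
  algebraMap_mem' := fun c => smul_algebraMap γ c
  inv_mem' := by
    intro a ha
    simp only [Set.mem_ofPred_eq] at ha ⊢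
    rw [smul_inv'', ha]

theorem mem_modfieldFix (N : ℕ) [NeZero N] (γ : SL(2, ℤ)) (x : ModL N) :
    x ∈ modfieldFix N γ ↔ γ • x = x := Iff.rfl

theorem embF_stab (N : ℕ) [NeZero N] (γ : SL(2, ℤ)) :
    (∀ f : modularFunctionFieldBar N, γ • embF N f = embF N f) ↔ γ ∈ Gamma0 N := by
  constructor
  · intro h
    apply mem_Gamma0_of_smul_Jelt
    have hmem : coeffEmb Kbar (qExpand ℚ N jq) ∈ modularFunctionFieldBar N :=
      coeffEmb_mem_laurentBaseChange Kbar (jqd_mem_full N dvd_rfl)
    have h1 : embF N ⟨_, hmem⟩ = algebraMap (modRing N) (ModL N) (Jelt N N dvd_rfl) := by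
      rw [embF_eq_iff, expL_algebraMap, modfield_expHom_Jelt]
    have h2 := h ⟨_, hmem⟩
    rw [h1, smul_algebraMap_modL] at h2
    exact IsFractionRing.injective (modRing N) (ModL N) h2
  · intro hγ f
    have h := modfield_qExpand_mem N ((modfieldFix N γ).map (expL N)) (fun d _ hd => by
      rw [IntermediateField.mem_map]
      refine ⟨algebraMap (modRing N) (ModL N) (Jelt N d hd), ?_, ?_⟩
      · rw [mem_modfieldFix, smul_algebraMap_modL, smul_Jelt_of_mem_Gamma0 N d hd γ hγ]
      · rw [expL_algebraMap, modfield_expHom_Jelt]) f.2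
    rw [IntermediateField.mem_map] at h
    obtain ⟨x, hx, hxf⟩ := h
    rw [← embF_eq_iff] at hxf
    rw [hxf]
    exact hx

end Fermat.Agent.S24
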