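import Fermat.Agent.S24.P1

/-!
# S24, piece D3: the number of orbits of `T` on `SL(2,ℤ) ⧸ Γ₀(N)` is the number of cusps

The orbit of the coset of `γ` with first column `(a, c)` is classified by `d = gcd(c, N)` and
the class of `a * (c / d)⁻¹` in `(ℤ / gcd(d, N / d))ˣ`.
-/

set_option autoImplicit false

namespace Fermat.Agent.S24

open scoped MatrixGroups
open CongruenceSubgroup ModularGroup ModularCurve

/-! ### Arithmetic core -/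

section Arith

/-- Uniqueness of a residue `r < g` with `g ∣ r * c₁ - a`, for `c₁` prime to `g`. -/
lemma cusp_r_unique {g : ℕ} {c₁ a : ℤ} (hc : IsCoprime c₁ (g : ℤ)) {r r' : ℕ} (hr : r < g)
    (hr' : r' < g) (h : (g : ℤ) ∣ r * c₁ - a) (h' : (g : ℤ) ∣ r' * c₁ - a) : r = r' := by
  have h1 : (g : ℤ) ∣ ((r : ℤ) - r') * c₁ := by
    have := dvd_sub h h'
    have e : ((r : ℤ) - r') * c₁ = (r * c₁ - a) - (r' * c₁ - a) := by ring
    rw [e]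
    exact this
  have h2 : (g : ℤ) ∣ (r : ℤ) - r' := hc.symm.dvd_of_dvd_mul_right h1
  have h3 : (r : ℤ) - r' = 0 := by
    apply Int.eq_zero_of_abs_lt_dvd h2
    rw [abs_lt]
    constructor <;> omega
  omega

/-- The residue attached to `(a, c₁)` modulo `g`: the class of `a * c₁⁻¹`. -/
noncomputable def cuspRes (g : ℕ) (a c₁ : ℤ) : ℕ := ((a : ZMod g) * ((c₁ : ZMod g))⁻¹).val

lemma cuspRes_lt (g : ℕ) [NeZero g] (a c₁ : ℤ) : cuspRes g a c₁ < g := ZMod.val_lt _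

lemma cuspRes_dvd {g : ℕ} [NeZero g] (a : ℤ) {c₁ : ℤ} (hc : IsCoprime c₁ (g : ℤ)) :
    (g : ℤ) ∣ (cuspRes g a c₁ : ℤ) * c₁ - a := by
  rw [← ZMod.intCast_zmod_eq_zero_iff_dvd]
  push_cast
  rw [cuspRes, ZMod.natCast_zmod_val, mul_assoc, mul_comm ((c₁ : ZMod g))⁻¹,
    ZMod.coe_int_mul_inv_eq_one hc, mul_one, sub_self]

/-- From equal invariants to the orbit relation. -/
lemma cusp_rel_of_inv {d M : ℕ} {a c₁ a' c₁' : ℤ}
    (hc : IsCoprime c₁ (M : ℤ)) (hc' : IsCoprime c₁' (M : ℤ))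
    (h : ((Nat.gcd d M : ℕ) : ℤ) ∣ a * c₁' - a' * c₁) :
    ∃ n : ℤ, ((d * M : ℕ) : ℤ) ∣ (a + n * (d * c₁)) * (d * c₁') - a' * (d * c₁) := by
  obtain ⟨t, ht⟩ := h
  have hb : ((Nat.gcd d M : ℕ) : ℤ) = d * Nat.gcdA d M + M * Nat.gcdB d M :=
    Nat.gcd_eq_gcd_ab d M
  obtain ⟨u, v, huv⟩ := hc.mul_left hc'
  refine ⟨-(t * Nat.gcdA d M * u), t * (Nat.gcdB d M + Nat.gcdA d M * d * v), ?_⟩
  push_cast
  linear_combination (d : ℤ) * ht + (d : ℤ) * t * hb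
    - (t * Nat.gcdA d M * (d : ℤ) ^ 2) * huv

/-- From the orbit relation to the congruence of invariants. -/
lemma cusp_inv_of_rel {d M : ℕ} (hd : 0 < d) {a c₁ a' c₁' n : ℤ}
    (h : ((d * M : ℕ) : ℤ) ∣ (a + n * (d * c₁)) * (d * c₁') - a' * (d * c₁)) :
    ((Nat.gcd d M : ℕ) : ℤ) ∣ a * c₁' - a' * c₁ := by
  have e : (a + n * (d * c₁)) * (d * c₁') - a' * (d * c₁)
      = (d : ℤ) * ((a * c₁' - a' * c₁) + n * d * c₁ * c₁') := by ring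
  rw [e] at h
  push_cast at h
  have hd' : (d : ℤ) ≠ 0 := by exact_mod_cast hd.ne'
  have h1 : (M : ℤ) ∣ (a * c₁' - a' * c₁) + n * d * c₁ * c₁' :=
    (mul_dvd_mul_iff_left hd').1 h
  have hgM : ((Nat.gcd d M : ℕ) : ℤ) ∣ (M : ℤ) := by exact_mod_cast Nat.gcd_dvd_right d M
  have hgd : ((Nat.gcd d M : ℕ) : ℤ) ∣ (d : ℤ) := by exact_mod_cast Nat.gcd_dvd_left d M
  have h2 : ((Nat.gcd d M : ℕ) : ℤ) ∣ n * d * c₁ * c₁' :=
    Dvd.dvd.mul_right (Dvd.dvd.mul_right (Dvd.dvd.mul_left hgd n) c₁) c₁'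
  exact (Int.dvd_add_left h2).1 (hgM.trans h1)

/-- The relation `N ∣ a c' - a' c` between coprime pairs forces `gcd(c, N) ∣ gcd(c', N)`. -/
lemma cusp_gcd_dvd {N : ℕ} {a c a' c' : ℤ} (hac : IsCoprime a c)
    (h : (N : ℤ) ∣ a * c' - a' * c) : Int.gcd c N ∣ Int.gcd c' N := by
  have h1 : ((Int.gcd c N : ℕ) : ℤ) ∣ c := Int.gcd_dvd_left c N
  have h2 : ((Int.gcd c N : ℕ) : ℤ) ∣ (N : ℤ) := Int.gcd_dvd_right c N
  have h3 : ((Int.gcd c N : ℕ) : ℤ) ∣ a * c' := by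
    have e : a * c' = (a * c' - a' * c) + a' * c := by ring
    rw [e]
    exact dvd_add (h2.trans h) (Dvd.dvd.mul_left h1 a')
  have hcop : IsCoprime ((Int.gcd c N : ℕ) : ℤ) a :=
    (IsCoprime.of_isCoprime_of_dvd_right hac h1).symm
  have h4 : ((Int.gcd c N : ℕ) : ℤ) ∣ c' := hcop.dvd_of_dvd_mul_left h3
  exact Int.natCast_dvd_natCast.1 (Int.dvd_coe_gcd h4 h2)

lemma cusp_gcd_eq {N : ℕ} {a c a' c' : ℤ} (hac : IsCoprime a c) (hac' : IsCoprime a' c')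
    (h : (N : ℤ) ∣ a * c' - a' * c) : Int.gcd c N = Int.gcd c' N := by
  apply Nat.dvd_antisymm (cusp_gcd_dvd hac h)
  apply cusp_gcd_dvd hac'
  have e : a' * c - a * c' = -(a * c' - a' * c) := by ring
  rw [e]
  exact (dvd_neg).2 h

/-- Decomposition `c = d * c₁`, `N = d * M` with `d = gcd(c, N)` and `c₁` prime to `M`. -/
lemma cusp_decomp {N : ℕ} (hN : N ≠ 0) (c : ℤ) :
    0 < Int.gcd c N ∧ N = Int.gcd c N * (N / Int.gcd c N) ∧
      c = (Int.gcd c N : ℤ) * (c / (Int.gcd c N : ℤ)) ∧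
      IsCoprime (c / (Int.gcd c N : ℤ)) ((N / Int.gcd c N : ℕ) : ℤ) := by
  have hd : 0 < Int.gcd c N := Int.gcd_pos_of_ne_zero_right _ (by exact_mod_cast hN)
  have h1 : ((Int.gcd c N : ℕ) : ℤ) ∣ c := Int.gcd_dvd_left c N
  have h2 : Int.gcd c N ∣ N := Int.natCast_dvd_natCast.1 (Int.gcd_dvd_right c N)
  refine ⟨hd, (Nat.mul_div_cancel' h2).symm, (Int.mul_ediv_cancel' h1).symm, ?_⟩
  rw [Int.isCoprime_iff_gcd_eq_one, Int.natCast_div]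
  exact Int.gcd_div_gcd_div_gcd hd

/-- Lifting a residue prime to `g` to an integer prime to a multiple `d` of `g`. -/
lemma cusp_lift {g d : ℕ} (hd : d ≠ 0) (hgd : g ∣ d) {r : ℕ} (hr : Nat.Coprime r g) :
    ∃ a : ℕ, Nat.Coprime a d ∧ (g : ℤ) ∣ (r : ℤ) - a := by
  have : NeZero d := ⟨hd⟩
  obtain ⟨u, hu⟩ := ZMod.unitsMap_surjective hgd (ZMod.unitOfCoprime r hr)
  refine ⟨(u : ZMod d).val, ZMod.val_coe_unit_coprime u, ?_⟩
  have h1 : ((u : ZMod d).cast : ZMod g) = (r : ZMod g) := by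
    have := congrArg (fun x : (ZMod g)ˣ => (x : ZMod g)) hu
    simpa [ZMod.unitsMap_val] using this
  rw [← ZMod.intCast_zmod_eq_zero_iff_dvd]
  push_cast
  rw [ZMod.natCast_val, h1, sub_self]

end Arith

/-! ### The invariant of a coset -/

section Orbits

variable (N : ℕ)

/-- The invariant `(d, r)` of a matrix with first column `(a, c)`: `d = gcd(c, N)` and `r` the
residue of `a * (c / d)⁻¹` modulo `gcd(d, N / d)`. -/
noncomputable def cuspInv (γ : SL(2, ℤ)) : Σ _ : ℕ, ℕ :=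
  ⟨Int.gcd (γ 1 0) N,
    cuspRes (Nat.gcd (Int.gcd (γ 1 0) N) (N / Int.gcd (γ 1 0) N)) (γ 0 0)
      (γ 1 0 / (Int.gcd (γ 1 0) N : ℤ))⟩

lemma cuspInv_spec [NeZero N] (γ : SL(2, ℤ)) :
    ∃ (d : ℕ) (c₁ : ℤ), 0 < d ∧ d = Int.gcd (γ 1 0) N ∧ N = d * (N / d) ∧ γ 1 0 = d * c₁ ∧
      IsCoprime c₁ ((N / d : ℕ) : ℤ) ∧
      cuspInv N γ = ⟨d, cuspRes (Nat.gcd d (N / d)) (γ 0 0) c₁⟩ := by
  obtain ⟨hd, hNd, hcd, hcop⟩ := cusp_decomp (NeZero.ne N) (γ 1 0)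
  exact ⟨_, _, hd, rfl, hNd, hcd, hcop, rfl⟩

/-- Two matrices have the same invariant iff their cosets are in the same `T`-orbit. -/
theorem cuspInv_eq_iff [NeZero N] (γ γ' : SL(2, ℤ)) :
    cuspInv N γ = cuspInv N γ' ↔
      ∃ n : ℤ, (N : ℤ) ∣ (γ 0 0 + n * γ 1 0) * γ' 1 0 - γ' 0 0 * γ 1 0 := by
  obtain ⟨d, c₁, hd, hdg, hN1, hc, hcop, hinv⟩ := cuspInv_spec N γ
  obtain ⟨d', c₁', hd', hdg', hN1', hc', hcop', hinv'⟩ := cuspInv_spec N γ'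
  have hac := p1_isCoprime_col γ
  have hac' := p1_isCoprime_col γ'
  rw [hinv, hinv']
  constructor
  · intro h
    obtain ⟨hdd, hrr⟩ := Sigma.mk.inj_iff.1 h
    subst hdd
    have hrr : cuspRes (Nat.gcd d (N / d)) (γ 0 0) c₁ = cuspRes (Nat.gcd d (N / d)) (γ' 0 0) c₁' :=
      eq_of_heq hrr
    have hg0 : Nat.gcd d (N / d) ≠ 0 := (Nat.gcd_pos_of_pos_left _ hd).ne'
    have : NeZero (Nat.gcd d (N / d)) := ⟨hg0⟩
    have hgM : ((Nat.gcd d (N / d) : ℕ) : ℤ) ∣ ((N / d : ℕ) : ℤ) := by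
      exact_mod_cast Nat.gcd_dvd_right d (N / d)
    have hcg : IsCoprime c₁ ((Nat.gcd d (N / d) : ℕ) : ℤ) :=
      IsCoprime.of_isCoprime_of_dvd_right hcop hgM
    have hcg' : IsCoprime c₁' ((Nat.gcd d (N / d) : ℕ) : ℤ) :=
      IsCoprime.of_isCoprime_of_dvd_right hcop' hgM
    have h1 := cuspRes_dvd (γ 0 0) hcg
    have h2 := cuspRes_dvd (γ' 0 0) hcg'
    rw [← hrr] at h2
    have h3 : ((Nat.gcd d (N / d) : ℕ) : ℤ) ∣ γ 0 0 * c₁' - γ' 0 0 * c₁ := by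
      have e : γ 0 0 * c₁' - γ' 0 0 * c₁
          = ((cuspRes (Nat.gcd d (N / d)) (γ 0 0) c₁ : ℤ) * c₁' - γ' 0 0) * c₁
            - ((cuspRes (Nat.gcd d (N / d)) (γ 0 0) c₁ : ℤ) * c₁ - γ 0 0) * c₁' := by ring
      rw [e]
      exact dvd_sub (Dvd.dvd.mul_right h2 _) (Dvd.dvd.mul_right h1 _)
    obtain ⟨n, hn⟩ := cusp_rel_of_inv hcop hcop' h3
    refine ⟨n, ?_⟩
    rw [← hN1] at hn
    rw [hc, hc']
    exact hn
  · rintro ⟨n, hn⟩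
    have hdd : d = d' := by
      rw [hdg, hdg']
      exact cusp_gcd_eq (hac.add_mul_right_left n) hac' hn
    subst hdd
    have hg0 : Nat.gcd d (N / d) ≠ 0 := (Nat.gcd_pos_of_pos_left _ hd).ne'
    have : NeZero (Nat.gcd d (N / d)) := ⟨hg0⟩
    have hgM : ((Nat.gcd d (N / d) : ℕ) : ℤ) ∣ ((N / d : ℕ) : ℤ) := by
      exact_mod_cast Nat.gcd_dvd_right d (N / d)
    have hcg : IsCoprime c₁ ((Nat.gcd d (N / d) : ℕ) : ℤ) :=
      IsCoprime.of_isCoprime_of_dvd_right hcop hgM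
    have hcg' : IsCoprime c₁' ((Nat.gcd d (N / d) : ℕ) : ℤ) :=
      IsCoprime.of_isCoprime_of_dvd_right hcop' hgM
    have hn' : ((d * (N / d) : ℕ) : ℤ) ∣
        (γ 0 0 + n * (d * c₁)) * (d * c₁') - γ' 0 0 * (d * c₁) := by
      rw [← hN1, ← hc, ← hc']
      exact hn
    have h3 := cusp_inv_of_rel hd hn'
    have h1 := cuspRes_dvd (γ 0 0) hcg
    have h2 := cuspRes_dvd (γ' 0 0) hcg'
    have h4 : ((Nat.gcd d (N / d) : ℕ) : ℤ) ∣
        ((cuspRes (Nat.gcd d (N / d)) (γ' 0 0) c₁' : ℤ) * c₁ - γ 0 0) * c₁' := by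
      have e : ((cuspRes (Nat.gcd d (N / d)) (γ' 0 0) c₁' : ℤ) * c₁ - γ 0 0) * c₁'
          = ((cuspRes (Nat.gcd d (N / d)) (γ' 0 0) c₁' : ℤ) * c₁' - γ' 0 0) * c₁
            - (γ 0 0 * c₁' - γ' 0 0 * c₁) := by ring
      rw [e]
      exact dvd_sub (Dvd.dvd.mul_right h2 _) h3
    have h5 : ((Nat.gcd d (N / d) : ℕ) : ℤ) ∣
        (cuspRes (Nat.gcd d (N / d)) (γ' 0 0) c₁' : ℤ) * c₁ - γ 0 0 :=
      hcg'.symm.dvd_of_dvd_mul_right h4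
    have hr := cusp_r_unique hcg (cuspRes_lt _ _ _) (cuspRes_lt _ _ _) h1 h5
    rw [hr]

/-- The finite set of invariants. -/
def cuspSet : Finset (Σ _ : ℕ, ℕ) :=
  N.divisors.sigma (fun d =>
    (Finset.range (Nat.gcd d (N / d))).filter (fun r => (Nat.gcd d (N / d)).Coprime r))

lemma cusp_card_cuspSet : (cuspSet N).card = cuspCount N := by
  rw [cuspSet, Finset.card_sigma, cuspCount]
  refine Finset.sum_congr rfl fun d _ => ?_
  rw [Nat.totient_eq_card_coprime]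

lemma cuspInv_mem [NeZero N] (γ : SL(2, ℤ)) : cuspInv N γ ∈ cuspSet N := by
  obtain ⟨d, c₁, hd, hdg, hN1, hc, hcop, hinv⟩ := cuspInv_spec N γ
  have hac := p1_isCoprime_col γ
  have hg0 : Nat.gcd d (N / d) ≠ 0 := (Nat.gcd_pos_of_pos_left _ hd).ne'
  have : NeZero (Nat.gcd d (N / d)) := ⟨hg0⟩
  have hgM : ((Nat.gcd d (N / d) : ℕ) : ℤ) ∣ ((N / d : ℕ) : ℤ) := by
    exact_mod_cast Nat.gcd_dvd_right d (N / d)
  have hgd : ((Nat.gcd d (N / d) : ℕ) : ℤ) ∣ (d : ℤ) := by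
    exact_mod_cast Nat.gcd_dvd_left d (N / d)
  have hcg : IsCoprime c₁ ((Nat.gcd d (N / d) : ℕ) : ℤ) :=
    IsCoprime.of_isCoprime_of_dvd_right hcop hgM
  have hag : IsCoprime (γ 0 0) ((Nat.gcd d (N / d) : ℕ) : ℤ) :=
    IsCoprime.of_isCoprime_of_dvd_right hac (hc ▸ Dvd.dvd.mul_right hgd c₁)
  rw [hinv, cuspSet, Finset.mem_sigma, Finset.mem_filter, Finset.mem_range]
  refine ⟨Nat.mem_divisors.2 ⟨Dvd.intro _ hN1.symm, NeZero.ne N⟩, cuspRes_lt _ _ _, ?_⟩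
  obtain ⟨k, hk⟩ := cuspRes_dvd (γ 0 0) hcg
  obtain ⟨u, v, huv⟩ := hag
  have hr : IsCoprime ((cuspRes (Nat.gcd d (N / d)) (γ 0 0) c₁ : ℕ) : ℤ)
      ((Nat.gcd d (N / d) : ℕ) : ℤ) :=
    ⟨u * c₁, v - u * k, by linear_combination huv + u * hk⟩
  exact (Nat.isCoprime_iff_coprime.1 hr).symm

lemma cusp_exists_cuspInv_eq [NeZero N] {x : Σ _ : ℕ, ℕ} (hx : x ∈ cuspSet N) :
    ∃ γ : SL(2, ℤ), cuspInv N γ = x := by
  obtain ⟨d, r⟩ := x
  rw [cuspSet, Finset.mem_sigma, Finset.mem_filter, Finset.mem_range] at hx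
  obtain ⟨hdN, hr, hcop⟩ := hx
  have hdN' : d ∣ N := Nat.dvd_of_mem_divisors hdN
  have hd0 : d ≠ 0 := fun h => (NeZero.ne N) (by rw [h] at hdN'; exact Nat.eq_zero_of_zero_dvd hdN')
  have hg0 : Nat.gcd d (N / d) ≠ 0 := (Nat.gcd_pos_of_pos_left _ (Nat.pos_of_ne_zero hd0)).ne'
  have : NeZero (Nat.gcd d (N / d)) := ⟨hg0⟩
  obtain ⟨a, ha, hra⟩ := cusp_lift hd0 (Nat.gcd_dvd_left d (N / d)) hcop.symm
  obtain ⟨γ, hγ0, hγ1⟩ := p1_exists_col (Nat.isCoprime_iff_coprime.2 ha)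
  refine ⟨γ, ?_⟩
  have hg : Int.gcd (d : ℤ) (N : ℤ) = d := by
    rw [Int.gcd_natCast_natCast]
    exact Nat.gcd_eq_left hdN'
  have hdd : (d : ℤ) / (d : ℤ) = 1 := Int.ediv_self (by exact_mod_cast hd0)
  unfold cuspInv
  rw [hγ0, hγ1, hg, hdd]
  congr 1
  refine cusp_r_unique (g := Nat.gcd d (N / d)) (c₁ := 1) (a := (a : ℤ)) isCoprime_one_left
    (cuspRes_lt _ _ _) hr (cuspRes_dvd (a : ℤ) isCoprime_one_left) ?_
  rw [mul_one]
  exact hra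

end Orbits

/-! ### The count -/

/-- (D3) The number of `T`-orbits on `SL(2,ℤ) ⧸ Γ₀(N)` is the number of cusps. -/
theorem orbCount_T (N : ℕ) [NeZero N] : orbCount N T = cuspCount N := by
  let G : SL(2, ℤ) ⧸ Gamma0 N → Σ _ : ℕ, ℕ := Quotient.lift (cuspInv N) (by
    intro γ γ' h
    have h1 : (QuotientGroup.mk γ : SL(2, ℤ) ⧸ Gamma0 N) = QuotientGroup.mk γ' :=
      Quotient.sound h
    rw [p1_mk_eq_iff] at h1
    exact (cuspInv_eq_iff N γ γ').2 ⟨0, by simpa using h1⟩)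
  have hG : ∀ γ : SL(2, ℤ), G (QuotientGroup.mk γ) = cuspInv N γ := fun γ => rfl
  have hrange : Set.range G = ↑(cuspSet N) := by
    ext x
    constructor
    · rintro ⟨y, rfl⟩
      obtain ⟨γ, rfl⟩ := QuotientGroup.mk_surjective y
      rw [hG]
      exact cuspInv_mem N γ
    · intro hx
      obtain ⟨γ, rfl⟩ := cusp_exists_cuspInv_eq N hx
      exact ⟨QuotientGroup.mk γ, hG γ⟩
  have key : ∀ s : Setoid (SL(2, ℤ) ⧸ Gamma0 N), s = Setoid.ker G →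
      Nat.card (Quotient s) = cuspCount N := by
    rintro _ rfl
    rw [Nat.card_congr (Setoid.quotientKerEquivRange G), hrange, Nat.card_coe_set_eq,
      Set.ncard_coe_finset, cusp_card_cuspSet]
  unfold orbCount cycOrbits MulAction.orbitRel.Quotient
  refine key _ ?_
  ext x y
  obtain ⟨γ, rfl⟩ := QuotientGroup.mk_surjective x
  obtain ⟨γ', rfl⟩ := QuotientGroup.mk_surjective y
  rw [Setoid.ker_def, hG, hG, eq_comm, cuspInv_eq_iff, MulAction.orbitRel_apply,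
    MulAction.mem_orbit_iff]
  constructor
  · rintro ⟨⟨g, hg⟩, h⟩
    obtain ⟨n, rfl⟩ := Subgroup.mem_zpowers_iff.1 hg
    refine ⟨n, ?_⟩
    have h1 : (QuotientGroup.mk (T ^ n * γ') : SL(2, ℤ) ⧸ Gamma0 N) = QuotientGroup.mk γ := h
    rw [p1_mk_eq_iff, p1_T_zpow_mul_apply_00, p1_T_zpow_mul_apply_10] at h1
    exact h1
  · rintro ⟨n, hn⟩
    refine ⟨⟨T ^ n, Subgroup.mem_zpowers_iff.2 ⟨n, rfl⟩⟩, ?_⟩
    change (QuotientGroup.mk (T ^ n * γ') : SL(2, ℤ) ⧸ Gamma0 N) = QuotientGroup.mk γ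
    rw [p1_mk_eq_iff, p1_T_zpow_mul_apply_00, p1_T_zpow_mul_apply_10]
    exact hn

end Fermat.Agent.S24
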