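import Fermat.Agent.S24.OrbDefs

/-!
# S24: the coset space `SL(2,ℤ) ⧸ Γ₀(N)` as a projective line over `ℤ/N`

Basic API: the coset of `γ` only depends on the first column `(a, c)` of `γ` up to the relation
`a c' ≡ a' c (mod N)`; formulas for the first column of `S * γ`, `T * γ`; existence of matrices
with a prescribed coprime first column.
-/

set_option autoImplicit false

namespace Fermat.Agent.S24

open scoped MatrixGroups
open CongruenceSubgroup ModularGroup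

/-- Membership in `Γ₀(N)` as an integer divisibility. -/
theorem p1_mem_Gamma0_iff (N : ℕ) (γ : SL(2, ℤ)) : γ ∈ Gamma0 N ↔ (N : ℤ) ∣ γ 1 0 := by
  rw [Gamma0_mem, ZMod.intCast_zmod_eq_zero_iff_dvd]

/-- Lower left entry of `γ⁻¹ * γ'`. -/
theorem p1_inv_mul_apply_10 (γ γ' : SL(2, ℤ)) :
    (γ⁻¹ * γ') 1 0 = γ 0 0 * γ' 1 0 - γ' 0 0 * γ 1 0 := by
  rw [Matrix.SpecialLinearGroup.coe_mul, Matrix.SpecialLinearGroup.coe_inv,
    Matrix.adjugate_fin_two, Matrix.mul_apply, Fin.sum_univ_two]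
  simp
  ring

/-- **Coset criterion**: `γ Γ₀(N) = γ' Γ₀(N)` iff `a c' ≡ a' c (mod N)` for the first columns. -/
theorem p1_mk_eq_iff (N : ℕ) (γ γ' : SL(2, ℤ)) :
    (QuotientGroup.mk γ : SL(2, ℤ) ⧸ Gamma0 N) = QuotientGroup.mk γ' ↔
      (N : ℤ) ∣ γ 0 0 * γ' 1 0 - γ' 0 0 * γ 1 0 := by
  rw [QuotientGroup.eq, p1_mem_Gamma0_iff, p1_inv_mul_apply_10]

/-- The action of `SL(2,ℤ)` on the coset space is left multiplication. -/
theorem p1_smul_mk (N : ℕ) (δ γ : SL(2, ℤ)) :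
    δ • (QuotientGroup.mk γ : SL(2, ℤ) ⧸ Gamma0 N) = QuotientGroup.mk (δ * γ) := rfl

theorem p1_S_mul_apply_00 (γ : SL(2, ℤ)) : (S * γ) 0 0 = -γ 1 0 := by
  simp [ModularGroup.S, Matrix.mul_apply, Fin.sum_univ_two]

theorem p1_S_mul_apply_10 (γ : SL(2, ℤ)) : (S * γ) 1 0 = γ 0 0 := by
  simp [ModularGroup.S, Matrix.mul_apply, Fin.sum_univ_two]

theorem p1_T_mul_apply_00 (γ : SL(2, ℤ)) : (T * γ) 0 0 = γ 0 0 + γ 1 0 := by
  simp [ModularGroup.T, Matrix.mul_apply, Fin.sum_univ_two]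

theorem p1_T_mul_apply_10 (γ : SL(2, ℤ)) : (T * γ) 1 0 = γ 1 0 := by
  simp [ModularGroup.T, Matrix.mul_apply, Fin.sum_univ_two]

theorem p1_T_zpow_mul_apply_00 (n : ℤ) (γ : SL(2, ℤ)) :
    (T ^ n * γ) 0 0 = γ 0 0 + n * γ 1 0 := by
  simp [ModularGroup.coe_T_zpow, Matrix.mul_apply, Fin.sum_univ_two]

theorem p1_T_zpow_mul_apply_10 (n : ℤ) (γ : SL(2, ℤ)) : (T ^ n * γ) 1 0 = γ 1 0 := by
  simp [ModularGroup.coe_T_zpow, Matrix.mul_apply, Fin.sum_univ_two]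

theorem p1_ST_mul_apply_00 (γ : SL(2, ℤ)) : (S * T * γ) 0 0 = -γ 1 0 := by
  simp [ModularGroup.S, ModularGroup.T, Matrix.mul_apply, Fin.sum_univ_two]

theorem p1_ST_mul_apply_10 (γ : SL(2, ℤ)) : (S * T * γ) 1 0 = γ 0 0 + γ 1 0 := by
  simp [ModularGroup.S, ModularGroup.T, Matrix.mul_apply, Fin.sum_univ_two]

/-- The first column of an element of `SL(2,ℤ)` is coprime. -/
theorem p1_isCoprime_col (γ : SL(2, ℤ)) : IsCoprime (γ 0 0) (γ 1 0) := by
  refine ⟨γ 1 1, -γ 0 1, ?_⟩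
  have h := γ.det_coe
  rw [Matrix.det_fin_two] at h
  linarith

/-- Every coprime pair is the first column of an element of `SL(2,ℤ)`. -/
theorem p1_exists_col {a c : ℤ} (h : IsCoprime a c) : ∃ γ : SL(2, ℤ), γ 0 0 = a ∧ γ 1 0 = c :=
  h.exists_SL2_col 0

/-- The coset space is generated by the classes of matrices: induction principle. -/
theorem p1_induction (N : ℕ) {motive : SL(2, ℤ) ⧸ Gamma0 N → Prop}
    (h : ∀ γ : SL(2, ℤ), motive (QuotientGroup.mk γ)) (x : SL(2, ℤ) ⧸ Gamma0 N) : motive x :=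
  QuotientGroup.induction_on x h

end Fermat.Agent.S24
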