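/-
S24 piece D2: orbits of `S` and `S * T` on `SL(2,ℤ) ⧸ Γ₀(N)`:
`2 * orbCount N S = |SL(2,ℤ) ⧸ Γ₀(N)| + nuTwo N`,
`3 * orbCount N (S * T) = |SL(2,ℤ) ⧸ Γ₀(N)| + 2 * nuThree N`.
-/
import Fermat.Agent.S24.P1
import Fermat.Agent.S24.Index

set_option autoImplicit false

namespace Fermat.Agent.S24

open scoped MatrixGroups
open CongruenceSubgroup ModularGroup ModularCurve

/-! ### Orbits of a permutation of prime order -/

section Perm

variable {X : Type*} [Fintype X] [DecidableEq X]

/-- The number of orbits (cycles, including fixed points) of a permutation. -/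
noncomputable def ell_orbits (σ : Equiv.Perm X) : ℕ :=
  Nat.card (MulAction.orbitRel.Quotient (Subgroup.zpowers σ) X)

/-- Auxiliary invariant separating the orbits of `σ`. -/
def ell_phi (σ : Equiv.Perm X) (x : X) : Equiv.Perm X × Option X :=
  (σ.cycleOf x, if σ x = x then some x else none)

lemma ell_phi_eq_iff (σ : Equiv.Perm X) (x y : X) :
    ell_phi σ x = ell_phi σ y ↔ σ.SameCycle x y := by
  constructor
  · intro h
    have h1 : σ.cycleOf x = σ.cycleOf y := congrArg Prod.fst h
    have h2 : (if σ x = x then some x else none) = (if σ y = y then some y else none) :=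
      congrArg Prod.snd h
    by_cases hx : σ x = x
    · rw [if_pos hx] at h2
      by_cases hy : σ y = y
      · rw [if_pos hy] at h2
        rw [Option.some.inj h2]
      · rw [if_neg hy] at h2
        exact absurd h2 (by simp)
    · rw [if_neg hx] at h2
      by_cases hy : σ y = y
      · rw [if_pos hy] at h2
        exact absurd h2 (by simp)
      · exact (Equiv.Perm.sameCycle_iff_cycleOf_eq_of_mem_support
          (Equiv.Perm.mem_support.mpr hx) (Equiv.Perm.mem_support.mpr hy)).mpr h1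
  · intro h
    have h1 : σ.cycleOf x = σ.cycleOf y := h.cycleOf_eq
    have h2 := h.apply_eq_self_iff
    by_cases hx : σ x = x
    · have hxy : x = y := h.eq_of_left hx
      subst hxy
      rfl
    · have hy : ¬ σ y = y := fun hy => hx (h2.mpr hy)
      simp only [ell_phi, h1, if_neg hx, if_neg hy]

omit [Fintype X] [DecidableEq X] in
lemma ell_orbitRel_iff (σ : Equiv.Perm X) (x y : X) :
    MulAction.orbitRel (Subgroup.zpowers σ) X x y ↔ σ.SameCycle y x := by
  rw [MulAction.orbitRel_apply, MulAction.mem_orbit_iff]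
  constructor
  · rintro ⟨⟨τ, k, rfl⟩, rfl⟩
    exact ⟨k, rfl⟩
  · rintro ⟨k, rfl⟩
    exact ⟨⟨σ ^ k, k, rfl⟩, rfl⟩

lemma ell_orbits_eq_card_image (σ : Equiv.Perm X) :
    ell_orbits σ = (Finset.univ.image (ell_phi σ)).card := by
  classical
  let ψ : MulAction.orbitRel.Quotient (Subgroup.zpowers σ) X → Equiv.Perm X × Option X :=
    fun q => Quotient.liftOn' q (ell_phi σ) (by
      intro x y h
      exact (ell_phi_eq_iff σ x y).mpr ((ell_orbitRel_iff σ x y).mp h).symm)
  have hinj : Function.Injective ψ := by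
    intro q q' h
    induction q using Quotient.inductionOn' with
    | h x =>
      induction q' using Quotient.inductionOn' with
      | h y =>
        apply Quotient.sound'
        exact (ell_orbitRel_iff σ x y).mpr ((ell_phi_eq_iff σ x y).mp h).symm
  have hrange : Set.range ψ = ↑(Finset.univ.image (ell_phi σ)) := by
    ext z
    simp only [Set.mem_range, Finset.coe_image, Finset.coe_univ, Set.image_univ]
    constructor
    · rintro ⟨q, rfl⟩
      induction q using Quotient.inductionOn' with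
      | h x => exact ⟨x, rfl⟩
    · rintro ⟨x, rfl⟩
      exact ⟨Quotient.mk'' x, rfl⟩
  rw [ell_orbits, ← Nat.card_range_of_injective hinj, hrange, Nat.card_coe_set_eq,
    Set.ncard_coe_finset]

/-- The number of orbits is the number of nontrivial cycles plus the number of fixed points. -/
lemma ell_orbits_eq (σ : Equiv.Perm X) :
    ell_orbits σ = σ.cycleFactorsFinset.card + (Finset.univ.filter (fun x => σ x = x)).card := by
  classical
  have himage : Finset.univ.image (ell_phi σ)
      = σ.cycleFactorsFinset.image (fun c => (c, (none : Option X)))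
        ∪ (Finset.univ.filter (fun x => σ x = x)).image
            (fun x => ((1 : Equiv.Perm X), some x)) := by
    ext z
    simp only [Finset.mem_image, Finset.mem_univ, true_and, Finset.mem_union,
      Finset.mem_filter]
    constructor
    · rintro ⟨x, rfl⟩
      by_cases hx : σ x = x
      · right
        refine ⟨x, hx, ?_⟩
        simp only [ell_phi, if_pos hx, (Equiv.Perm.cycleOf_eq_one_iff σ).mpr hx]
      · left
        refine ⟨σ.cycleOf x, Equiv.Perm.cycleOf_mem_cycleFactorsFinset_iff.mpr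
          (Equiv.Perm.mem_support.mpr hx), ?_⟩
        simp only [ell_phi, if_neg hx]
    · rintro (⟨c, hc, rfl⟩ | ⟨x, hx, rfl⟩)
      · obtain ⟨x, hx⟩ := (Equiv.Perm.mem_cycleFactorsFinset_iff.mp hc).1.nonempty_support
        have hx' : σ x ≠ x :=
          Equiv.Perm.mem_support.mp (Equiv.Perm.mem_cycleFactorsFinset_support_le hc hx)
        refine ⟨x, ?_⟩
        simp only [ell_phi, if_neg hx', ← Equiv.Perm.cycle_is_cycleOf hx hc]
      · refine ⟨x, ?_⟩
        simp only [ell_phi, if_pos hx, (Equiv.Perm.cycleOf_eq_one_iff σ).mpr hx]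
  have hdisj : Disjoint (σ.cycleFactorsFinset.image (fun c => (c, (none : Option X))))
      ((Finset.univ.filter (fun x => σ x = x)).image
        (fun x => ((1 : Equiv.Perm X), some x))) := by
    rw [Finset.disjoint_left]
    rintro z hz hz'
    obtain ⟨c, -, rfl⟩ := Finset.mem_image.mp hz
    obtain ⟨x, -, hx⟩ := Finset.mem_image.mp hz'
    simp at hx
  rw [ell_orbits_eq_card_image, himage, Finset.card_union_of_disjoint hdisj,
    Finset.card_image_of_injective _ (fun c c' h => congrArg Prod.fst h),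
    Finset.card_image_of_injective _ (fun x x' h => Option.some.inj (congrArg Prod.snd h))]

/-- Orbit count of a permutation `σ` with `σ ^ p = 1`, `p` prime. -/
lemma ell_prime_count (σ : Equiv.Perm X) (p : ℕ) (hp : p.Prime) (hσ : σ ^ p = 1) :
    p * ell_orbits σ
      = Fintype.card X + (p - 1) * (Finset.univ.filter (fun x => σ x = x)).card := by
  have h1 : (Finset.univ.filter (fun x => σ x = x)).card + σ.support.card = Fintype.card X := by
    have := Finset.card_filter_add_card_filter_not (s := (Finset.univ : Finset X))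
      (fun x => σ x = x)
    rw [Finset.card_univ] at this
    rw [← this]
    rfl
  have h2 : Multiset.card σ.cycleType = σ.cycleFactorsFinset.card := by
    rw [Equiv.Perm.cycleType_def, Multiset.card_map]
    rfl
  have h3 : σ.cycleType = Multiset.replicate (Multiset.card σ.cycleType) p := by
    rw [Multiset.eq_replicate]
    refine ⟨rfl, fun c hc => ?_⟩
    have hdvd : c ∣ p := (Equiv.Perm.dvd_of_mem_cycleType hc).trans (orderOf_dvd_of_pow_eq_one hσ)
    have h2c := Equiv.Perm.two_le_of_mem_cycleType hc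
    rcases (Nat.dvd_prime hp).mp hdvd with h | h
    · omega
    · exact h
  have h4 : σ.support.card = σ.cycleFactorsFinset.card * p := by
    rw [← Equiv.Perm.sum_cycleType, h3, Multiset.sum_replicate, h2, smul_eq_mul]
  rw [ell_orbits_eq, ← h1, h4]
  have hp1 : 1 ≤ p := hp.one_lt.le
  obtain ⟨q, rfl⟩ : ∃ q, p = q + 1 := ⟨p - 1, by omega⟩
  simp only [Nat.add_sub_cancel]
  ring

end Perm

/-! ### Group actions -/

section Action

variable {G Y : Type*} [Group G] [MulAction G Y]

lemma ell_cycOrbits_eq [Fintype Y] (g : G) :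
    cycOrbits Y g = ell_orbits (MulAction.toPermHom G Y g) := by
  unfold cycOrbits ell_orbits
  apply Nat.card_congr
  apply Quotient.congrRight
  intro x y
  change x ∈ MulAction.orbit (Subgroup.zpowers g) y ↔
    x ∈ MulAction.orbit (Subgroup.zpowers (MulAction.toPermHom G Y g)) y
  rw [MulAction.mem_orbit_iff, MulAction.mem_orbit_iff]
  constructor
  · rintro ⟨⟨τ, k, rfl⟩, rfl⟩
    refine ⟨⟨(MulAction.toPermHom G Y g) ^ k, k, rfl⟩, ?_⟩
    change ((MulAction.toPermHom G Y g) ^ k) y = (g ^ k) • y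
    rw [← map_zpow]
    rfl
  · rintro ⟨⟨τ, k, rfl⟩, rfl⟩
    refine ⟨⟨g ^ k, k, rfl⟩, ?_⟩
    change (g ^ k) • y = ((MulAction.toPermHom G Y g) ^ k) y
    rw [← map_zpow]
    rfl

/-- If `g ^ p` acts trivially (`p` prime) on a finite `G`-set `Y`, then
`p * #orbits = |Y| + (p - 1) * #fixed points`. -/
theorem ell_count_of_pow_trivial [Finite Y] (g : G) (p : ℕ) (hp : p.Prime)
    (hg : ∀ y : Y, g ^ p • y = y) :
    p * cycOrbits Y g = Nat.card Y + (p - 1) * Nat.card {y : Y // g • y = y} := by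
  classical
  have := Fintype.ofFinite Y
  have hσ : (MulAction.toPermHom G Y g) ^ p = 1 := by
    rw [← map_pow]
    ext y
    exact hg y
  rw [ell_cycOrbits_eq, ell_prime_count _ p hp hσ, Nat.card_eq_fintype_card,
    Nat.card_eq_fintype_card, Fintype.card_subtype]
  rfl

end Action

/-! ### Fixed cosets and roots of quadratics -/

/-- If `δ` fixes the coset of `γ` (first column `(a, c)`) exactly when `N ∣ a² + t a c + c²`,
then the fixed cosets of `δ` correspond to the roots of `x² + t x + 1` in `ZMod N`. -/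
theorem ell_card_fixed (N : ℕ) [NeZero N] (δ : SL(2, ℤ)) (t : ℤ)
    (hδ : ∀ γ : SL(2, ℤ),
      δ • (QuotientGroup.mk γ : SL(2, ℤ) ⧸ Gamma0 N) = QuotientGroup.mk γ ↔
        (N : ℤ) ∣ γ 0 0 ^ 2 + t * γ 0 0 * γ 1 0 + γ 1 0 ^ 2) :
    Nat.card {y : SL(2, ℤ) ⧸ Gamma0 N // δ • y = y}
      = Nat.card {x : ZMod N // x ^ 2 + (t : ZMod N) * x + 1 = 0} := by
  symm
  have hlift : ∀ x : ZMod N, ∃ γ : SL(2, ℤ), ((γ 0 0 : ℤ) : ZMod N) = x ∧ γ 1 0 = 1 := by
    intro x
    obtain ⟨a, rfl⟩ := ZMod.intCast_surjective x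
    obtain ⟨γ, h0, h1⟩ := p1_exists_col (isCoprime_one_right : IsCoprime a 1)
    exact ⟨γ, by rw [h0], h1⟩
  choose Γ hΓ0 hΓ1 using hlift
  have hfix : ∀ x : ZMod N, x ^ 2 + (t : ZMod N) * x + 1 = 0 →
      δ • (QuotientGroup.mk (Γ x) : SL(2, ℤ) ⧸ Gamma0 N) = QuotientGroup.mk (Γ x) := by
    intro x hx
    rw [hδ, hΓ1, ← ZMod.intCast_zmod_eq_zero_iff_dvd]
    push_cast
    rw [hΓ0]
    linear_combination hx
  let f : {x : ZMod N // x ^ 2 + (t : ZMod N) * x + 1 = 0} →
      {y : SL(2, ℤ) ⧸ Gamma0 N // δ • y = y} :=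
    fun x => ⟨QuotientGroup.mk (Γ x.1), hfix x.1 x.2⟩
  apply Nat.card_eq_of_bijective f
  constructor
  · rintro ⟨x, hx⟩ ⟨x', hx'⟩ h
    have h' : (QuotientGroup.mk (Γ x) : SL(2, ℤ) ⧸ Gamma0 N) = QuotientGroup.mk (Γ x') :=
      congrArg Subtype.val h
    rw [p1_mk_eq_iff, hΓ1, hΓ1, ← ZMod.intCast_zmod_eq_zero_iff_dvd] at h'
    push_cast at h'
    rw [hΓ0, hΓ0] at h'
    apply Subtype.ext
    change x = x'
    linear_combination h'
  · rintro ⟨y, hy⟩
    obtain ⟨γ, rfl⟩ := QuotientGroup.mk_surjective y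
    have hdiv := (hδ γ).mp hy
    rw [← ZMod.intCast_zmod_eq_zero_iff_dvd] at hdiv
    push_cast at hdiv
    obtain ⟨u, v, huv⟩ := p1_isCoprime_col γ
    have huv' : (u : ZMod N) * (γ 0 0 : ZMod N) + (v : ZMod N) * (γ 1 0 : ZMod N) = 1 := by
      have := congrArg (Int.cast : ℤ → ZMod N) huv
      push_cast at this
      exact this
    set A : ZMod N := (γ 0 0 : ZMod N) with hA
    set C : ZMod N := (γ 1 0 : ZMod N) with hC
    set U : ZMod N := (u : ZMod N) with hU
    set V : ZMod N := (v : ZMod N) with hV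
    set T : ZMod N := (t : ZMod N) with hT
    set w : ZMod N := -U ^ 2 * T * A - U ^ 2 * C + 2 * U * V * A + V ^ 2 * C with hw
    have hwC : w * C = 1 := by
      rw [hw]
      linear_combination (-U ^ 2) * hdiv + (U * A + V * C + 1) * huv'
    have hx : (A * w) ^ 2 + T * (A * w) + 1 = 0 := by
      linear_combination (w ^ 2) * hdiv - (T * A * w + 1 + w * C) * hwC
    refine ⟨⟨A * w, hx⟩, ?_⟩
    apply Subtype.ext
    change (QuotientGroup.mk (Γ (A * w)) : SL(2, ℤ) ⧸ Gamma0 N) = QuotientGroup.mk γ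
    rw [p1_mk_eq_iff, hΓ1, ← ZMod.intCast_zmod_eq_zero_iff_dvd]
    push_cast
    rw [hΓ0]
    linear_combination A * hwC

/-! ### The elements `S` and `S * T` -/

theorem ell_orbCount_S (N : ℕ) [NeZero N] :
    2 * orbCount N S = Nat.card (SL(2, ℤ) ⧸ Gamma0 N) + nuTwo N := by
  have h := ell_count_of_pow_trivial (G := SL(2, ℤ)) (Y := SL(2, ℤ) ⧸ Gamma0 N) S 2
    Nat.prime_two (by
      intro y
      obtain ⟨γ, rfl⟩ := QuotientGroup.mk_surjective y
      have h0 : (S * (S * γ)) 0 0 * γ 1 0 - γ 0 0 * (S * (S * γ)) 1 0 = 0 := by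
        simp only [p1_S_mul_apply_00, p1_S_mul_apply_10]
        ring
      rw [pow_two, mul_smul, p1_smul_mk, p1_smul_mk, p1_mk_eq_iff, h0]
      exact dvd_zero _)
  have hfix := ell_card_fixed N S 0 (by
    intro γ
    rw [p1_smul_mk, p1_mk_eq_iff, p1_S_mul_apply_00, p1_S_mul_apply_10]
    have : -γ 1 0 * γ 1 0 - γ 0 0 * γ 0 0 = -(γ 0 0 ^ 2 + 0 * γ 0 0 * γ 1 0 + γ 1 0 ^ 2) := by
      ring
    rw [this, dvd_neg])
  have e : Nat.card {x : ZMod N // x ^ 2 + ((0 : ℤ) : ZMod N) * x + 1 = 0}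
      = Nat.card {x : ZMod N // x ^ 2 + 1 = 0} :=
    Nat.card_congr (Equiv.subtypeEquivRight (fun x => by simp))
  rw [orbCount, h, hfix, e, nuTwo]
  norm_num

theorem ell_orbCount_ST (N : ℕ) [NeZero N] :
    3 * orbCount N (S * T) = Nat.card (SL(2, ℤ) ⧸ Gamma0 N) + 2 * nuThree N := by
  have h := ell_count_of_pow_trivial (G := SL(2, ℤ)) (Y := SL(2, ℤ) ⧸ Gamma0 N) (S * T) 3
    Nat.prime_three (by
      intro y
      obtain ⟨γ, rfl⟩ := QuotientGroup.mk_surjective y
      have h0 : (S * T * (S * T * (S * T * γ))) 0 0 * γ 1 0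
          - γ 0 0 * (S * T * (S * T * (S * T * γ))) 1 0 = 0 := by
        simp only [p1_ST_mul_apply_00, p1_ST_mul_apply_10]
        ring
      rw [pow_succ, pow_two, mul_smul, mul_smul, p1_smul_mk, p1_smul_mk, p1_smul_mk,
        p1_mk_eq_iff, h0]
      exact dvd_zero _)
  have hfix := ell_card_fixed N (S * T) 1 (by
    intro γ
    rw [p1_smul_mk, p1_mk_eq_iff, p1_ST_mul_apply_00, p1_ST_mul_apply_10]
    have : -γ 1 0 * γ 1 0 - γ 0 0 * (γ 0 0 + γ 1 0)
        = -(γ 0 0 ^ 2 + 1 * γ 0 0 * γ 1 0 + γ 1 0 ^ 2) := by ring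
    rw [this, dvd_neg])
  have e : Nat.card {x : ZMod N // x ^ 2 + ((1 : ℤ) : ZMod N) * x + 1 = 0}
      = Nat.card {x : ZMod N // x ^ 2 + x + 1 = 0} :=
    Nat.card_congr (Equiv.subtypeEquivRight (fun x => by simp))
  rw [orbCount, h, hfix, e, nuThree]

/-- **D2**, orbits of `S`. -/
theorem orbCount_S (N : ℕ) [NeZero N] : 2 * orbCount N S = dedekindPsi N + nuTwo N := by
  rw [ell_orbCount_S, card_quot_Gamma0]

/-- **D2**, orbits of `S * T`. -/
theorem orbCount_ST (N : ℕ) [NeZero N] :
    3 * orbCount N (S * T) = dedekindPsi N + 2 * nuThree N := by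
  rw [ell_orbCount_ST, card_quot_Gamma0]

end Fermat.Agent.S24
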