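import Mathlib
import Fermat.Prelude.Def_ModularCurve_GenusNumerics

/-!
# S24: shared definitions for the orbit-counting pieces (D1–D4)
-/

set_option autoImplicit false

namespace Fermat.Agent.S24

open scoped MatrixGroups
open CongruenceSubgroup

/-- Number of orbits of the cyclic group generated by `g` on a `G`-set `X`. -/
noncomputable def cycOrbits {G : Type*} [Group G] (X : Type*) [MulAction G X] (g : G) : ℕ :=
  Nat.card (MulAction.orbitRel.Quotient (Subgroup.zpowers g) X)

/-- Number of orbits of the cyclic group generated by `δ` acting by left multiplication on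
`SL(2,ℤ) ⧸ Γ₀(N)`. -/
noncomputable def orbCount (N : ℕ) (δ : SL(2, ℤ)) : ℕ :=
  cycOrbits (SL(2, ℤ) ⧸ Gamma0 N) δ

end Fermat.Agent.S24
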