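import Mathlib
import Fermat.Agent.S24.OrbDefs

/-!
# S24, piece D4: Ree's inequality for two permutations

For permutations `a b` of a finite set `X`, with `c(π)` the number of cycles of `π` (fixed
points included) and `k` the number of orbits of the group generated by `a` and `b`:

* `ree_inequality`: `c(a) + c(b) + c(a * b) ≤ |X| + 2 k`;
* `ree_parity`: `c(a) + c(b) + c(a * b) ≡ |X| (mod 2)`.

The proof peels transpositions off `b`: multiplying a permutation by a transposition `(x y)`
changes its number of cycles by `-1` (if `x`, `y` lie in different cycles, which are then merged)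
or `+1` (if they lie in the same cycle, which is then split).
-/

set_option autoImplicit false
set_option linter.unusedSectionVars false

namespace Fermat.Agent.S24

open Equiv Equiv.Perm

section Merge

variable {X : Type*}

/-- The setoid obtained from `r` by identifying the classes of `x` and `y`. -/
def reeMerge (r : Setoid X) (x y : X) : Setoid X where
  r u v := r u v ∨ (r u x ∧ r v y) ∨ (r u y ∧ r v x)
  iseqv := by
    refine ⟨fun u => Or.inl (r.refl u), ?_, ?_⟩
    · rintro u v (h | ⟨h1, h2⟩ | ⟨h1, h2⟩)
      · exact Or.inl (r.symm h)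
      · exact Or.inr (Or.inr ⟨h2, h1⟩)
      · exact Or.inr (Or.inl ⟨h2, h1⟩)
    · rintro u v w (h | ⟨h1, h2⟩ | ⟨h1, h2⟩) (h' | ⟨h1', h2'⟩ | ⟨h1', h2'⟩)
      · exact Or.inl (r.trans h h')
      · exact Or.inr (Or.inl ⟨r.trans h h1', h2'⟩)
      · exact Or.inr (Or.inr ⟨r.trans h h1', h2'⟩)
      · exact Or.inr (Or.inl ⟨h1, r.trans (r.symm h') h2⟩)
      · exact Or.inl (r.trans h1 (r.trans (r.trans (r.symm h1') h2) (r.symm h2')))
      · exact Or.inl (r.trans h1 (r.symm h2'))
      · exact Or.inr (Or.inr ⟨h1, r.trans (r.symm h') h2⟩)
      · exact Or.inl (r.trans h1 (r.symm h2'))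
      · exact Or.inl (r.trans h1 (r.trans (r.trans (r.symm h1') h2) (r.symm h2')))

lemma reeMerge_apply (r : Setoid X) (x y u v : X) :
    reeMerge r x y u v ↔ r u v ∨ (r u x ∧ r v y) ∨ (r u y ∧ r v x) := Iff.rfl

lemma le_reeMerge (r : Setoid X) (x y : X) : r ≤ reeMerge r x y :=
  Setoid.le_def.mpr fun h => Or.inl h

lemma reeMerge_rel (r : Setoid X) (x y : X) : reeMerge r x y x y :=
  Or.inr (Or.inl ⟨r.refl x, r.refl y⟩)

/-- Universal property of `reeMerge`. -/
lemma reeMerge_le_iff (r T : Setoid X) (x y : X) : reeMerge r x y ≤ T ↔ r ≤ T ∧ T x y := by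
  constructor
  · intro h
    exact ⟨(le_reeMerge r x y).trans h, Setoid.le_def.mp h (reeMerge_rel r x y)⟩
  · rintro ⟨h1, h2⟩
    rw [Setoid.le_def]
    rintro u v (h | ⟨h3, h4⟩ | ⟨h3, h4⟩)
    · exact Setoid.le_def.mp h1 h
    · exact T.trans (Setoid.le_def.mp h1 h3) (T.trans h2 (T.symm (Setoid.le_def.mp h1 h4)))
    · exact T.trans (Setoid.le_def.mp h1 h3) (T.trans (T.symm h2) (T.symm (Setoid.le_def.mp h1 h4)))

lemma reeMerge_eq_self (r : Setoid X) {x y : X} (h : r x y) : reeMerge r x y = r :=
  le_antisymm ((reeMerge_le_iff r r x y).mpr ⟨le_rfl, h⟩) (le_reeMerge r x y)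

lemma sup_reeMerge (s r : Setoid X) (x y : X) : s ⊔ reeMerge r x y = reeMerge (s ⊔ r) x y := by
  apply le_antisymm
  · apply sup_le
    · exact le_sup_left.trans (le_reeMerge _ x y)
    · rw [reeMerge_le_iff]
      exact ⟨le_sup_right.trans (le_reeMerge _ x y), reeMerge_rel _ x y⟩
  · rw [reeMerge_le_iff]
    refine ⟨sup_le le_sup_left ((le_reeMerge r x y).trans le_sup_right), ?_⟩
    exact Setoid.le_def.mp (le_sup_right : reeMerge r x y ≤ s ⊔ reeMerge r x y)
      (reeMerge_rel r x y)

/-- The number of classes of a setoid. -/
noncomputable def reeClasses (r : Setoid X) : ℕ := Nat.card (Quotient r)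

/-- Merging two distinct classes decreases the number of classes by one. -/
lemma reeClasses_reeMerge [Finite X] (r : Setoid X) {x y : X} (h : ¬ r x y) :
    reeClasses (reeMerge r x y) + 1 = reeClasses r := by
  classical
  unfold reeClasses
  rw [← Finite.card_option]
  -- the map `Quotient r → Option (Quotient (reeMerge r x y))`
  let f : Quotient r → Quotient (reeMerge r x y) :=
    Quotient.map' id (fun a b hab => Or.inl hab)
  let g : Quotient r → Option (Quotient (reeMerge r x y)) :=
    fun c => if c = Quotient.mk r y then none else some (f c)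
  have hf : ∀ u : X, f (Quotient.mk r u) = Quotient.mk (reeMerge r x y) u := fun u => rfl
  symm
  apply Nat.card_eq_of_bijective g
  constructor
  · intro c c' hcc
    induction c using Quotient.inductionOn with | _ u => ?_
    induction c' using Quotient.inductionOn with | _ v => ?_
    by_cases hu : Quotient.mk r u = Quotient.mk r y
    · by_cases hv : Quotient.mk r v = Quotient.mk r y
      · rw [hu, hv]
      · simp only [g, hu, hv, if_true, if_false] at hcc
        exact absurd hcc (by simp)
    · by_cases hv : Quotient.mk r v = Quotient.mk r y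
      · simp only [g, hu, hv, if_true, if_false] at hcc
        exact absurd hcc (by simp)
      · simp only [g, hu, hv, if_false, Option.some.injEq] at hcc
        rw [hf, hf] at hcc
        have h1 : reeMerge r x y u v := Quotient.exact hcc
        have hu' : ¬ r u y := fun hc => hu (Quotient.sound hc)
        have hv' : ¬ r v y := fun hc => hv (Quotient.sound hc)
        rcases h1 with h1 | ⟨_, h2⟩ | ⟨h2, _⟩
        · exact Quotient.sound h1
        · exact absurd h2 hv'
        · exact absurd h2 hu'
  · intro d
    cases d with
    | none =>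
      refine ⟨Quotient.mk r y, ?_⟩
      simp [g]
    | some d =>
      induction d using Quotient.inductionOn with | _ u => ?_
      by_cases hu : Quotient.mk r u = Quotient.mk r y
      · refine ⟨Quotient.mk r x, ?_⟩
        have hx : Quotient.mk r x ≠ Quotient.mk r y := fun hc => h (Quotient.exact hc)
        simp only [g, hx, if_false, Option.some.injEq]
        rw [hf]
        apply Quotient.sound
        have huy : r u y := Quotient.exact hu
        exact Or.inr (Or.inl ⟨r.refl x, huy⟩)
      · refine ⟨Quotient.mk r u, ?_⟩
        simp only [g, hu, if_false, Option.some.injEq]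
        rfl

lemma reeClasses_reeMerge_le [Finite X] (r : Setoid X) (x y : X) :
    reeClasses (reeMerge r x y) ≤ reeClasses r := by
  by_cases h : r x y
  · rw [reeMerge_eq_self r h]
  · have := reeClasses_reeMerge r h
    omega

end Merge

section Cycles

variable {X : Type*} [Fintype X] [DecidableEq X]

/-- To show that the cycle relation of `σ` is contained in a setoid, it suffices to check the
generators `z ~ σ z`. -/
lemma ree_sameCycle_le (σ : Perm X) (R : Setoid X) (h : ∀ z, R z (σ z)) :
    SameCycle.setoid σ ≤ R := by
  rw [Setoid.le_def]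
  intro u v huv
  obtain ⟨i, rfl⟩ := SameCycle.exists_nat_pow_eq (f := σ) huv
  induction i with
  | zero => exact R.refl u
  | succ n ih =>
    rw [pow_succ', Perm.mul_apply]
    exact R.trans (ih ⟨n, rfl⟩) (h _)

lemma ree_mul_swap_apply_left (π : Perm X) (x y : X) : (π * swap x y) x = π y := by
  rw [Perm.mul_apply, swap_apply_left]

lemma ree_mul_swap_apply_right (π : Perm X) (x y : X) : (π * swap x y) y = π x := by
  rw [Perm.mul_apply, swap_apply_right]

lemma ree_mul_swap_apply_of_ne (π : Perm X) {x y z : X} (hx : z ≠ x) (hy : z ≠ y) :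
    (π * swap x y) z = π z := by
  rw [Perm.mul_apply, swap_apply_of_ne_of_ne hx hy]

/-- If `x` and `y` lie in different cycles of `π`, they lie in the same cycle of
`π * swap x y`. -/
lemma ree_sameCycle_mul_swap_of_not (π : Perm X) {x y : X} (h : ¬ SameCycle π x y) :
    SameCycle (π * swap x y) x y := by
  by_contra hcon
  have key : ∀ i : ℕ, SameCycle (π * swap x y) y ((π ^ (i + 1)) x) := by
    intro i
    induction i with
    | zero =>
      rw [zero_add, pow_one, ← ree_mul_swap_apply_right π x y]
      exact (sameCycle_apply_right).mpr (SameCycle.refl _ _)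
    | succ n ih =>
      have hx : (π ^ (n + 1)) x ≠ x := by
        intro hc
        rw [hc] at ih
        exact hcon ih.symm
      have hy : (π ^ (n + 1)) x ≠ y := by
        intro hc
        exact h ⟨(n + 1 : ℕ), by rw [zpow_natCast]; exact hc⟩
      have e : (π ^ (n + 1 + 1)) x = (π * swap x y) ((π ^ (n + 1)) x) := by
        rw [ree_mul_swap_apply_of_ne π hx hy, pow_succ' π (n + 1), Perm.mul_apply]
      rw [e]
      exact (sameCycle_apply_right).mpr ih
  have hpos := orderOf_pos π
  have h1 := key (orderOf π - 1)
  rw [Nat.sub_add_cancel hpos, pow_orderOf_eq_one, Perm.one_apply] at h1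
  exact hcon h1.symm

/-- If `x` and `y` lie in different cycles of `π`, the cycle relation of `π * swap x y` is obtained
by merging these two cycles. -/
lemma ree_setoid_mul_swap_of_not (π : Perm X) {x y : X} (h : ¬ SameCycle π x y) :
    SameCycle.setoid (π * swap x y) = reeMerge (SameCycle.setoid π) x y := by
  have hxy : x ≠ y := fun hc => h (hc ▸ SameCycle.refl _ _)
  apply le_antisymm
  · apply ree_sameCycle_le
    intro z
    by_cases hzx : z = x
    · rw [hzx, ree_mul_swap_apply_left]
      refine Or.inr (Or.inl ⟨SameCycle.refl _ _, ?_⟩)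
      exact (sameCycle_apply_left).mpr (SameCycle.refl _ _)
    · by_cases hzy : z = y
      · rw [hzy, ree_mul_swap_apply_right]
        refine Or.inr (Or.inr ⟨SameCycle.refl _ _, ?_⟩)
        exact (sameCycle_apply_left).mpr (SameCycle.refl _ _)
      · rw [ree_mul_swap_apply_of_ne π hzx hzy]
        exact Or.inl ((sameCycle_apply_right).mpr (SameCycle.refl _ _))
  · have hσ : SameCycle (π * swap x y) x y := ree_sameCycle_mul_swap_of_not π h
    rw [reeMerge_le_iff]
    refine ⟨?_, hσ⟩
    apply ree_sameCycle_le
    intro z
    change SameCycle (π * swap x y) z (π z)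
    by_cases hzx : z = x
    · rw [hzx, ← ree_mul_swap_apply_right π x y]
      exact (sameCycle_apply_right).mpr hσ
    · by_cases hzy : z = y
      · rw [hzy, ← ree_mul_swap_apply_left π x y]
        exact (sameCycle_apply_right).mpr hσ.symm
      · rw [← ree_mul_swap_apply_of_ne π hzx hzy]
        exact (sameCycle_apply_right).mpr (SameCycle.refl _ _)

/-- If `x ≠ y` lie in the same cycle of `π`, they lie in different cycles of `π * swap x y`. -/
lemma ree_not_sameCycle_mul_swap (π : Perm X) {x y : X} (h : SameCycle π x y) (hxy : x ≠ y) :
    ¬ SameCycle (π * swap x y) x y := by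
  classical
  have hex : ∃ j : ℕ, (π ^ j) x = y := SameCycle.exists_nat_pow_eq h
  set j := Nat.find hex with hj
  have hjy : (π ^ j) x = y := Nat.find_spec hex
  have hmin : ∀ i, i < j → (π ^ i) x ≠ y := fun i hi => Nat.find_min hex hi
  -- the set of `π ^ i x`, `1 ≤ i ≤ j`
  let S : Set X := {z | ∃ i : ℕ, 1 ≤ i ∧ i ≤ j ∧ (π ^ i) x = z}
  have hxS : x ∉ S := by
    rintro ⟨i, hi1, hij, hix⟩
    have h1 : (π ^ (j - i)) x = y := by
      have h2 : (π ^ (j - i)) ((π ^ i) x) = (π ^ j) x := by
        rw [← Perm.mul_apply, ← pow_add, Nat.sub_add_cancel hij]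
      rw [hix] at h2
      rw [h2, hjy]
    exact hmin (j - i) (by omega) h1
  have hj1 : 1 ≤ j := by
    rcases Nat.eq_zero_or_pos j with h0 | h0
    · rw [h0, pow_zero, Perm.one_apply] at hjy
      exact absurd hjy hxy
    · exact h0
  have hyS : y ∈ S := ⟨j, hj1, le_rfl, hjy⟩
  have hstab : ∀ z ∈ S, (π * swap x y) z ∈ S := by
    rintro z ⟨i, hi1, hij, hiz⟩
    rcases Nat.lt_or_ge i j with hlt | hge
    · have hzy : z ≠ y := by rw [← hiz]; exact hmin i hlt
      have hzx : z ≠ x := by
        intro hc
        exact hxS ⟨i, hi1, hij, hc ▸ hiz⟩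
      rw [ree_mul_swap_apply_of_ne π hzx hzy]
      refine ⟨i + 1, by omega, by omega, ?_⟩
      rw [pow_succ', Perm.mul_apply, hiz]
    · have hij' : i = j := le_antisymm hij hge
      have hzy : z = y := by rw [← hiz, hij', hjy]
      rw [hzy, ree_mul_swap_apply_right]
      exact ⟨1, le_rfl, hj1, by rw [pow_one]⟩
  intro hcon
  obtain ⟨n, hn⟩ := SameCycle.exists_nat_pow_eq hcon.symm
  have hall : ∀ n : ℕ, ((π * swap x y) ^ n) y ∈ S := by
    intro n
    induction n with
    | zero => simpa using hyS
    | succ n ih =>
      rw [pow_succ', Perm.mul_apply]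
      exact hstab _ ih
  exact hxS (hn ▸ hall n)

/-- The number of cycles of a permutation (fixed points included). -/
noncomputable def reeCycles (π : Perm X) : ℕ := reeClasses (SameCycle.setoid π)

/-- Multiplying by a transposition joining two cycles. -/
lemma reeCycles_mul_swap_of_not (π : Perm X) {x y : X} (h : ¬ SameCycle π x y) :
    reeCycles (π * swap x y) + 1 = reeCycles π := by
  unfold reeCycles
  rw [ree_setoid_mul_swap_of_not π h]
  exact reeClasses_reeMerge _ h

/-- Multiplying by a transposition splitting a cycle. -/
lemma reeCycles_mul_swap_of_sameCycle (π : Perm X) {x y : X} (h : SameCycle π x y)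
    (hxy : x ≠ y) : reeCycles (π * swap x y) = reeCycles π + 1 := by
  have h1 := reeCycles_mul_swap_of_not (π * swap x y) (ree_not_sameCycle_mul_swap π h hxy)
  rw [mul_swap_mul_self] at h1
  exact h1.symm

lemma reeCycles_mul_swap_le (π : Perm X) (x y : X) :
    reeCycles (π * swap x y) ≤ reeCycles π + 1 := by
  by_cases hxy : x = y
  · subst hxy
    have e : π * swap x x = π := by
      rw [swap_self]
      exact mul_one π
    rw [e]
    exact Nat.le_succ _
  by_cases h : SameCycle π x y
  · exact (reeCycles_mul_swap_of_sameCycle π h hxy).le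
  · have := reeCycles_mul_swap_of_not π h
    omega

lemma reeCycles_one : reeCycles (1 : Perm X) = Fintype.card X := by
  unfold reeCycles reeClasses
  rw [← Nat.card_eq_fintype_card]
  symm
  apply Nat.card_eq_of_bijective (Quotient.mk (SameCycle.setoid (1 : Perm X)))
  constructor
  · intro u v huv
    have : SameCycle (1 : Perm X) u v := Quotient.exact huv
    exact sameCycle_one.mp this
  · exact Quotient.mk_surjective

/-- The sign of a permutation in terms of its number of cycles. -/
lemma ree_sign_eq (π : Perm X) :
    Perm.sign π = (-1 : ℤˣ) ^ (reeCycles π + Fintype.card X) := by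
  induction π using swap_induction_on' with
  | one =>
    rw [reeCycles_one, Perm.sign_one, ← two_mul, pow_mul]
    simp
  | mul_swap f x y hxy ih =>
    rw [Perm.sign_mul, Perm.sign_swap hxy, ih]
    by_cases h : SameCycle f x y
    · rw [reeCycles_mul_swap_of_sameCycle f h hxy]
      rw [show reeCycles f + 1 + Fintype.card X = (reeCycles f + Fintype.card X) + 1 by ring,
        pow_succ]
    · have h1 := reeCycles_mul_swap_of_not f h
      rw [← h1]
      rw [show reeCycles (f * swap x y) + 1 + Fintype.card X =
        (reeCycles (f * swap x y) + Fintype.card X) + 1 by ring, pow_succ, mul_assoc]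
      simp

/-- The number of orbits of the group generated by two permutations. -/
noncomputable def reeOrbits (a b : Perm X) : ℕ :=
  reeClasses (SameCycle.setoid a ⊔ SameCycle.setoid b)

lemma ree_setoid_mul_le (a b : Perm X) :
    SameCycle.setoid (a * b) ≤ SameCycle.setoid a ⊔ SameCycle.setoid b := by
  apply ree_sameCycle_le
  intro z
  rw [Perm.mul_apply]
  have h1 : (SameCycle.setoid a ⊔ SameCycle.setoid b) z (b z) :=
    Setoid.le_def.mp le_sup_right ((sameCycle_apply_right).mpr (SameCycle.refl _ _))
  have h2 : (SameCycle.setoid a ⊔ SameCycle.setoid b) (b z) (a (b z)) :=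
    Setoid.le_def.mp le_sup_left ((sameCycle_apply_right).mpr (SameCycle.refl _ _))
  exact (SameCycle.setoid a ⊔ SameCycle.setoid b).trans h1 h2

lemma ree_setoid_one_le (r : Setoid X) : SameCycle.setoid (1 : Perm X) ≤ r := by
  rw [Setoid.le_def]
  intro u v huv
  have : u = v := sameCycle_one.mp huv
  rw [this]

/-- **Ree's inequality** for two permutations. -/
theorem ree_perm_inequality (a b : Perm X) :
    reeCycles a + reeCycles b + reeCycles (a * b) ≤ Fintype.card X + 2 * reeOrbits a b := by
  induction hn : b.support.card using Nat.strong_induction_on generalizing b with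
  | _ n ih =>
    by_cases hb : b = 1
    · subst hb
      have e : SameCycle.setoid a ⊔ SameCycle.setoid (1 : Perm X) = SameCycle.setoid a :=
        sup_eq_left.mpr (ree_setoid_one_le _)
      rw [mul_one, reeCycles_one]
      unfold reeOrbits
      rw [e]
      unfold reeCycles
      omega
    · -- pick a point moved by `b`
      obtain ⟨x, hx⟩ : ∃ x, b x ≠ x := by
        by_contra hcon
        push Not at hcon
        exact hb (Perm.ext hcon)
      set y := b.symm x with hy
      have hby : b y = x := by rw [hy]; exact b.apply_symm_apply x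
      have hxy : x ≠ y := by
        intro hc
        rw [← hc] at hby
        exact hx hby
      set b' := b * swap x y with hb'
      have hb'x : b' x = x := by rw [hb', ree_mul_swap_apply_left, hby]
      have hbb' : b = b' * swap x y := by rw [hb', mul_swap_mul_self]
      -- the support of `b'` is strictly smaller
      have hsupp : b'.support.card < n := by
        rw [← hn]
        apply Finset.card_lt_card
        rw [Finset.ssubset_iff_of_subset]
        · refine ⟨x, Perm.mem_support.mpr hx, ?_⟩
          rw [Perm.mem_support]
          exact fun hc => hc hb'x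
        · intro z hz
          rw [Perm.mem_support] at hz ⊢
          by_cases hzx : z = x
          · rw [hzx] at hz
            exact absurd hb'x hz
          · by_cases hzy : z = y
            · rw [hzy, hby]
              exact hxy
            · rwa [hb', ree_mul_swap_apply_of_ne b hzx hzy] at hz
      have IH := ih _ hsupp b' rfl
      -- `x` and `y` are in different cycles of `b'`
      have hnot : ¬ SameCycle b' x y := fun hc => hxy (hc.eq_of_left hb'x)
      have hcb : reeCycles b + 1 = reeCycles b' := by
        rw [hbb']
        exact reeCycles_mul_swap_of_not b' hnot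
      have hsetb : SameCycle.setoid b = reeMerge (SameCycle.setoid b') x y := by
        rw [hbb']
        exact ree_setoid_mul_swap_of_not b' hnot
      have hsup : SameCycle.setoid a ⊔ SameCycle.setoid b =
          reeMerge (SameCycle.setoid a ⊔ SameCycle.setoid b') x y := by
        rw [hsetb, sup_reeMerge]
      have hab : a * b = (a * b') * swap x y := by
        rw [mul_assoc]
        exact congrArg (fun c => a * c) hbb'
      by_cases hs : (SameCycle.setoid a ⊔ SameCycle.setoid b') x y
      · have hk : reeOrbits a b = reeOrbits a b' := by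
          unfold reeOrbits
          rw [hsup, reeMerge_eq_self _ hs]
        have hcab : reeCycles (a * b) ≤ reeCycles (a * b') + 1 := by
          rw [hab]
          exact reeCycles_mul_swap_le _ x y
        rw [hk]
        omega
      · have hk : reeOrbits a b + 1 = reeOrbits a b' := by
          unfold reeOrbits
          rw [hsup]
          exact reeClasses_reeMerge _ hs
        have hnot' : ¬ SameCycle (a * b') x y := fun hc =>
          hs (Setoid.le_def.mp (ree_setoid_mul_le a b') hc)
        have hcab : reeCycles (a * b) + 1 = reeCycles (a * b') := by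
          rw [hab]
          exact reeCycles_mul_swap_of_not _ hnot'
        omega

/-- The parity statement accompanying Ree's inequality. -/
theorem ree_perm_parity (a b : Perm X) :
    (reeCycles a + reeCycles b + reeCycles (a * b)) % 2 = Fintype.card X % 2 := by
  have h1 := ree_sign_eq a
  have h2 := ree_sign_eq b
  have h3 := ree_sign_eq (a * b)
  rw [Perm.sign_mul, h1, h2, ← pow_add] at h3
  have h4 : (-1 : ℤˣ) ^ (reeCycles a + Fintype.card X + (reeCycles b + Fintype.card X) +
      (reeCycles (a * b) + Fintype.card X)) = 1 := by
    rw [pow_add, h3, ← pow_add, ← two_mul, pow_mul]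
    simp
  have h5 : Even (reeCycles a + Fintype.card X + (reeCycles b + Fintype.card X) +
      (reeCycles (a * b) + Fintype.card X)) := by
    by_contra hodd
    rw [Nat.not_even_iff_odd] at hodd
    rw [hodd.neg_one_pow] at h4
    exact absurd h4 (by decide)
  rw [Nat.even_iff] at h5
  omega

end Cycles

section Action

variable {G X : Type*} [Group G] [MulAction G X]

/-- The orbit relation of the cyclic group generated by `g` is the cycle relation of the
permutation induced by `g`. -/
lemma ree_orbitRel_zpowers (g : G) :
    MulAction.orbitRel (Subgroup.zpowers g) X = SameCycle.setoid (MulAction.toPerm g) := by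
  ext u v
  rw [MulAction.orbitRel_apply, MulAction.mem_orbit_iff]
  change _ ↔ SameCycle (MulAction.toPerm g) u v
  constructor
  · rintro ⟨⟨h, hh⟩, rfl⟩
    obtain ⟨i, rfl⟩ := Subgroup.mem_zpowers_iff.mp hh
    refine SameCycle.symm ⟨i, ?_⟩
    have e : (MulAction.toPerm g : Perm X) ^ i = MulAction.toPerm (g ^ i) :=
      (map_zpow (MulAction.toPermHom G X) g i).symm
    rw [e]
    rfl
  · intro h
    obtain ⟨i, hi⟩ := h.symm
    refine ⟨⟨g ^ i, Subgroup.zpow_mem_zpowers g i⟩, ?_⟩
    have e : (MulAction.toPerm g : Perm X) ^ i = MulAction.toPerm (g ^ i) :=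
      (map_zpow (MulAction.toPermHom G X) g i).symm
    rw [e] at hi
    exact hi

lemma ree_cycOrbits_eq [Fintype X] [DecidableEq X] (g : G) :
    cycOrbits X g = reeCycles (MulAction.toPerm g : Perm X) := by
  unfold cycOrbits reeCycles reeClasses MulAction.orbitRel.Quotient
  rw [ree_orbitRel_zpowers]

/-- (D4) **Ree's inequality** for a finite transitive `G`-set, `G` generated by `a` and `b`. -/
theorem ree_inequality {G X : Type*} [Group G] [MulAction G X] [Finite X]
    [MulAction.IsPretransitive G X] (a b : G) (hgen : Subgroup.closure {a, b} = ⊤) :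
    cycOrbits X a + cycOrbits X b + cycOrbits X (a * b) ≤ Nat.card X + 2 := by
  classical
  have : Fintype X := Fintype.ofFinite X
  rw [ree_cycOrbits_eq a, ree_cycOrbits_eq b, ree_cycOrbits_eq (a * b), Nat.card_eq_fintype_card]
  have hmul : (MulAction.toPerm (a * b) : Perm X) = MulAction.toPerm a * MulAction.toPerm b :=
    map_mul (MulAction.toPermHom G X) a b
  rw [hmul]
  have h1 := ree_perm_inequality (MulAction.toPerm a : Perm X) (MulAction.toPerm b)
  -- the group generated by `a`, `b` is transitive: at most one orbit
  have hk : reeOrbits (MulAction.toPerm a : Perm X) (MulAction.toPerm b) ≤ 1 := by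
    unfold reeOrbits reeClasses
    set s := SameCycle.setoid (MulAction.toPerm a : Perm X) ⊔
      SameCycle.setoid (MulAction.toPerm b : Perm X) with hs
    have hstep : ∀ g : G, ∀ u : X, s u (g • u) := by
      intro g
      have hg : g ∈ Subgroup.closure ({a, b} : Set G) := by rw [hgen]; exact Subgroup.mem_top g
      induction hg using Subgroup.closure_induction with
      | mem g hg =>
        intro u
        rcases hg with rfl | rfl
        · exact Setoid.le_def.mp le_sup_left
            ((sameCycle_apply_right).mpr (SameCycle.refl (MulAction.toPerm g : Perm X) u))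
        · exact Setoid.le_def.mp le_sup_right
            ((sameCycle_apply_right).mpr (SameCycle.refl (MulAction.toPerm g : Perm X) u))
      | one =>
        intro u
        rw [one_smul]
      | mul g h _ _ ihg ihh =>
        intro u
        rw [mul_smul]
        exact s.trans (ihh u) (ihg (h • u))
      | inv g _ ihg =>
        intro u
        have := ihg (g⁻¹ • u)
        rw [smul_inv_smul] at this
        exact s.symm this
    have : Subsingleton (Quotient s) := by
      constructor
      intro c c'
      induction c using Quotient.inductionOn with | _ u => ?_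
      induction c' using Quotient.inductionOn with | _ v => ?_
      obtain ⟨g, rfl⟩ := MulAction.exists_smul_eq G u v
      exact Quotient.sound (hstep g u)
    exact Finite.card_le_one_iff_subsingleton.mpr inferInstance
  omega

/-- (D4) The parity statement accompanying Ree's inequality. -/
theorem ree_parity {G X : Type*} [Group G] [MulAction G X] [Finite X] (a b : G) :
    Even (Nat.card X + cycOrbits X a + cycOrbits X b + cycOrbits X (a * b)) := by
  classical
  have : Fintype X := Fintype.ofFinite X
  rw [ree_cycOrbits_eq a, ree_cycOrbits_eq b, ree_cycOrbits_eq (a * b), Nat.card_eq_fintype_card]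
  have hmul : (MulAction.toPerm (a * b) : Perm X) = MulAction.toPerm a * MulAction.toPerm b :=
    map_mul (MulAction.toPermHom G X) a b
  rw [hmul]
  have h1 := ree_perm_parity (MulAction.toPerm a : Perm X) (MulAction.toPerm b)
  rw [Nat.even_iff]
  omega

end Action

end Fermat.Agent.S24
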