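import Fermat.Agent.S24.Index
import Fermat.Agent.S24.Elliptic
import Fermat.Agent.S24.Cusps
import Fermat.Agent.S24.Ree

/-!
# S24: the numerical part of the genus formula

From the orbit counts of `S`, `S * T`, `T` on `SL(2,ℤ) ⧸ Γ₀(N)` (pieces D1–D4) we get that
`ψ(N) + 2 - r_S - r_{ST} - r_T` is a nonnegative even number `2 g`, with `g = genusFormula N`.
-/

set_option autoImplicit false

namespace Fermat.Agent.S24

open scoped MatrixGroups
open CongruenceSubgroup ModularGroup ModularCurve

/-- Ree's inequality and parity for the triple `(S, T, S * T)` acting on `SL(2,ℤ) ⧸ Γ₀(N)`: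
there is `g : ℕ` with `ψ(N) + 2 = r_S + r_{ST} + r_T + 2 g`. -/
theorem num_exists_genus (N : ℕ) [NeZero N] :
    ∃ g : ℕ, dedekindPsi N + 2 = orbCount N S + orbCount N (S * T) + orbCount N T + 2 * g := by
  have hle := ree_inequality (G := SL(2, ℤ)) (X := SL(2, ℤ) ⧸ Gamma0 N) S T
    SpecialLinearGroup.SL2Z_generators
  have hpar := ree_parity (G := SL(2, ℤ)) (X := SL(2, ℤ) ⧸ Gamma0 N) S T
  rw [card_quot_Gamma0] at hle hpar
  change orbCount N S + orbCount N T + orbCount N (S * T) ≤ dedekindPsi N + 2 at hle
  change Even (dedekindPsi N + orbCount N S + orbCount N T + orbCount N (S * T)) at hpar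
  obtain ⟨m, hm⟩ := hpar
  refine ⟨(dedekindPsi N + 2 - (orbCount N S + orbCount N (S * T) + orbCount N T)) / 2, ?_⟩
  omega

/-- The number `g` of `num_exists_genus` is given by the genus formula. -/
theorem num_genus_eq (N : ℕ) [NeZero N] {g : ℕ}
    (hg : dedekindPsi N + 2 = orbCount N S + orbCount N (S * T) + orbCount N T + 2 * g) :
    (g : ℚ) = genusFormula N := by
  have hS := orbCount_S N
  have hST := orbCount_ST N
  have hT := orbCount_T N
  have hg' : (dedekindPsi N : ℚ) + 2
      = orbCount N S + orbCount N (S * T) + orbCount N T + 2 * g := by exact_mod_cast hg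
  have hS' : (2 : ℚ) * orbCount N S = dedekindPsi N + nuTwo N := by exact_mod_cast hS
  have hST' : (3 : ℚ) * orbCount N (S * T) = dedekindPsi N + 2 * nuThree N := by
    exact_mod_cast hST
  have hT' : (orbCount N T : ℚ) = cuspCount N := by exact_mod_cast hT
  unfold genusFormula
  linarith

/-- The numerical assembly: if the canonical degree is given by the Riemann–Hurwitz formula
`deg K = (ψ - r_S) + (ψ - r_{ST}) - ψ - r_T`, then `(deg K + 2).toNat / 2 = genusFormula N`. -/
theorem genus_numerics (N : ℕ) [NeZero N] (degK : ℤ)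
    (h : degK = ((dedekindPsi N : ℤ) - orbCount N S) + ((dedekindPsi N : ℤ) - orbCount N (S * T))
      - dedekindPsi N - orbCount N T) :
    (((degK + 2).toNat / 2 : ℕ) : ℚ) = genusFormula N := by
  obtain ⟨g, hg⟩ := num_exists_genus N
  have h2 : degK + 2 = 2 * (g : ℤ) := by
    have hg' : (dedekindPsi N : ℤ) + 2
        = orbCount N S + orbCount N (S * T) + orbCount N T + 2 * g := by exact_mod_cast hg
    rw [h]
    linarith
  have h3 : (degK + 2).toNat / 2 = g := by
    rw [h2]
    have : (2 * (g : ℤ)).toNat = 2 * g := by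
      have : (2 * (g : ℤ)) = ((2 * g : ℕ) : ℤ) := by push_cast; ring
      rw [this, Int.toNat_natCast]
    rw [this]
    omega
  rw [h3]
  exact num_genus_eq N hg

end Fermat.Agent.S24
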