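import Mathlib
import Fermat.Agent.S24.OrbDefs

/-!
# S24: transfer lemmas for cyclic orbit counts

* `cycOrbits_congr`: an equivariant bijection preserves the number of cyclic orbits.
* `cycOrbits_map`: orbits of `ρ δ` on `G ⧸ H` versus orbits of `δ` on `Γ ⧸ H.comap ρ` for a
  surjective homomorphism `ρ : Γ →* G`.
* `card_orbits_eq_cycOrbits_of_le`: a finite subgroup `D` containing `g` with
  `Nat.card D ≤ orderOf g` has the same orbits as the cyclic group generated by `g`.
-/

set_option autoImplicit false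

namespace Fermat.Agent.S24

/-- Membership in an orbit of the cyclic group generated by `g`. -/
theorem transfer_orbitRel_zpowers_iff {G : Type*} [Group G] {X : Type*} [MulAction G X] (g : G)
    (a b : X) :
    MulAction.orbitRel (Subgroup.zpowers g) X a b ↔ ∃ k : ℤ, g ^ k • b = a := by
  rw [MulAction.orbitRel_apply, MulAction.mem_orbit_iff]
  constructor
  · rintro ⟨⟨x, hx⟩, h⟩
    obtain ⟨k, rfl⟩ := Subgroup.mem_zpowers_iff.mp hx
    exact ⟨k, h⟩
  · rintro ⟨k, h⟩
    exact ⟨⟨g ^ k, Subgroup.zpow_mem_zpowers g k⟩, h⟩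

/-- An equivariant map commutes with integer powers. -/
theorem transfer_map_zpow_smul {G₁ G₂ : Type*} [Group G₁] [Group G₂] {X Y : Type*}
    [MulAction G₁ X] [MulAction G₂ Y] (e : X → Y) (g₁ : G₁) (g₂ : G₂)
    (h : ∀ x, e (g₁ • x) = g₂ • e x) (k : ℤ) (x : X) :
    e (g₁ ^ k • x) = g₂ ^ k • e x := by
  have hnat : ∀ (n : ℕ) (x : X), e (g₁ ^ n • x) = g₂ ^ n • e x := by
    intro n
    induction n with
    | zero => intro x; simp
    | succ n ih =>
      intro x
      rw [pow_succ, pow_succ, mul_smul, mul_smul, ih, h]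
  have hinv : ∀ (n : ℕ) (x : X), e ((g₁ ^ n)⁻¹ • x) = (g₂ ^ n)⁻¹ • e x := by
    intro n x
    have := hnat n ((g₁ ^ n)⁻¹ • x)
    rw [smul_inv_smul] at this
    rw [this, inv_smul_smul]
  obtain ⟨n, rfl | rfl⟩ := Int.eq_nat_or_neg k
  · simpa using hnat n x
  · simpa using hinv n x

/-- An equivariant bijection preserves the number of cyclic orbits. -/
theorem cycOrbits_congr {G₁ G₂ : Type*} [Group G₁] [Group G₂] {X Y : Type*}
    [MulAction G₁ X] [MulAction G₂ Y] (e : X ≃ Y) (g₁ : G₁) (g₂ : G₂)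
    (h : ∀ x, e (g₁ • x) = g₂ • e x) :
    cycOrbits X g₁ = cycOrbits Y g₂ := by
  unfold cycOrbits
  refine Nat.card_congr (Quotient.congr e ?_)
  intro a b
  change MulAction.orbitRel (Subgroup.zpowers g₁) X a b ↔
    MulAction.orbitRel (Subgroup.zpowers g₂) Y (e a) (e b)
  rw [transfer_orbitRel_zpowers_iff, transfer_orbitRel_zpowers_iff]
  constructor
  · rintro ⟨k, rfl⟩
    exact ⟨k, (transfer_map_zpow_smul e g₁ g₂ h k b).symm⟩
  · rintro ⟨k, hk⟩
    refine ⟨k, e.injective ?_⟩
    rw [transfer_map_zpow_smul e g₁ g₂ h k b, hk]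

/-- The canonical map `Γ ⧸ H.comap ρ → G ⧸ H`. -/
noncomputable def transferQuotMap {Γ G : Type*} [Group Γ] [Group G] (ρ : Γ →* G)
    (H : Subgroup G) : Γ ⧸ H.comap ρ → G ⧸ H :=
  Quotient.map' ρ (by
    intro a b hab
    rw [QuotientGroup.leftRel_apply] at hab ⊢
    simpa using hab)

@[simp] theorem transferQuotMap_mk {Γ G : Type*} [Group Γ] [Group G] (ρ : Γ →* G)
    (H : Subgroup G) (x : Γ) :
    transferQuotMap ρ H (x : Γ ⧸ H.comap ρ) = (ρ x : G ⧸ H) := rfl

theorem transferQuotMap_bijective {Γ G : Type*} [Group Γ] [Group G] (ρ : Γ →* G)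
    (hρ : Function.Surjective ρ) (H : Subgroup G) :
    Function.Bijective (transferQuotMap ρ H) := by
  constructor
  · intro a b
    induction a using QuotientGroup.induction_on with
    | H a =>
      induction b using QuotientGroup.induction_on with
      | H b =>
        intro hab
        rw [transferQuotMap_mk, transferQuotMap_mk, QuotientGroup.eq] at hab
        rw [QuotientGroup.eq]
        simpa using hab
  · intro y
    induction y using QuotientGroup.induction_on with
    | H y =>
      obtain ⟨x, rfl⟩ := hρ y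
      exact ⟨(x : Γ ⧸ H.comap ρ), rfl⟩

theorem transferQuotMap_smul {Γ G : Type*} [Group Γ] [Group G] (ρ : Γ →* G)
    (H : Subgroup G) (δ : Γ) (x : Γ ⧸ H.comap ρ) :
    transferQuotMap ρ H (δ • x) = ρ δ • transferQuotMap ρ H x := by
  induction x using QuotientGroup.induction_on with
  | H x =>
    rw [MulAction.Quotient.smul_mk, transferQuotMap_mk, transferQuotMap_mk,
      MulAction.Quotient.smul_mk, smul_eq_mul, smul_eq_mul, map_mul]

/-- (X2) Orbits of `ρ δ` on `G ⧸ H` correspond to orbits of `δ` on `Γ ⧸ H.comap ρ`. -/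
theorem cycOrbits_map {Γ G : Type*} [Group Γ] [Group G] (ρ : Γ →* G)
    (hρ : Function.Surjective ρ) (H : Subgroup G) (δ : Γ) :
    cycOrbits (G ⧸ H) (ρ δ) = cycOrbits (Γ ⧸ H.comap ρ) δ :=
  (cycOrbits_congr (Equiv.ofBijective _ (transferQuotMap_bijective ρ hρ H)) δ (ρ δ)
    (transferQuotMap_smul ρ H δ)).symm

/-- (X2') A finite subgroup `D` containing `g` with `Nat.card D ≤ orderOf g` is the cyclic group
generated by `g`, so its orbits are the cyclic orbits of `g`. -/
theorem card_orbits_eq_cycOrbits_of_le {G X : Type*} [Group G] [MulAction G X] (D : Subgroup G)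
    [Finite D] (g : G) (hg : g ∈ D) (hcard : Nat.card D ≤ orderOf g) :
    Nat.card (MulAction.orbitRel.Quotient D X) = cycOrbits X g := by
  have hle : Subgroup.zpowers g ≤ D := (Subgroup.zpowers_le).mpr hg
  have heq : Subgroup.zpowers g = D :=
    Subgroup.eq_of_le_of_card_ge hle (by rw [Nat.card_zpowers]; exact hcard)
  subst heq
  rfl

end Fermat.Agent.S24
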