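import Fermat.Agent.S24.PlaceBasic

/-!
# S24 piece C6, general part: places of a fraction field from an integer valuation on a domain
-/

set_option autoImplicit false

namespace Fermat.Agent.S24

open AlgebraicCurve

section

variable {R L : Type*} [CommRing R] [IsDomain R] [Field L] [Algebra R L] [IsFractionRing R L]

/-- Every element of the fraction field is a quotient with nonzero denominator. -/
theorem anp_exists_div (f : L) :
    ∃ a b : R, b ≠ 0 ∧ f = algebraMap R L a / algebraMap R L b := by
  obtain ⟨a, b, hb, h⟩ := IsFractionRing.div_surjective (A := R) f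
  exact ⟨a, b, nonZeroDivisors.ne_zero hb, h.symm⟩

theorem anp_algebraMap_ne_zero {a : R} (ha : a ≠ 0) : algebraMap R L a ≠ 0 := by
  rw [Ne, map_eq_zero_iff _ (IsFractionRing.injective R L)]
  exact ha

/-- The extension of an additive "order" function from a domain to its fraction field. -/
noncomputable def anpOrd (L : Type*) [Field L] [Algebra R L] [IsFractionRing R L] (v : R → ℤ)
    (f : L) : ℤ :=
  v (Classical.choose (anp_exists_div (R := R) f)) -
    v (Classical.choose (Classical.choose_spec (anp_exists_div (R := R) f)))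

theorem anpOrd_div (v : R → ℤ)
    (hmul : ∀ x y : R, x ≠ 0 → y ≠ 0 → v (x * y) = v x + v y)
    {a b : R} (ha : a ≠ 0) (hb : b ≠ 0) :
    anpOrd L v (algebraMap R L a / algebraMap R L b) = v a - v b := by
  set f : L := algebraMap R L a / algebraMap R L b with hf
  obtain ⟨hb', hf'⟩ := Classical.choose_spec (Classical.choose_spec (anp_exists_div (R := R) f))
  set a' := Classical.choose (anp_exists_div (R := R) f) with ha'def
  set b' := Classical.choose (Classical.choose_spec (anp_exists_div (R := R) f)) with hb'def
  have hbL : algebraMap R L b ≠ 0 := anp_algebraMap_ne_zero hb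
  have hb'L : algebraMap R L b' ≠ 0 := anp_algebraMap_ne_zero hb'
  have hcross : a * b' = a' * b := by
    apply IsFractionRing.injective R L
    rw [map_mul, map_mul]
    have h1 : algebraMap R L a / algebraMap R L b = algebraMap R L a' / algebraMap R L b' := by
      rw [← hf]; exact hf'
    field_simp at h1
    rw [h1, mul_comm]
  have ha'0 : a' ≠ 0 := by
    rintro h0
    rw [h0, zero_mul] at hcross
    exact (mul_ne_zero ha hb') hcross
  have h2 := hmul a b' ha hb'
  have h3 := hmul a' b ha'0 hb
  rw [hcross] at h2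
  show v a' - v b' = v a - v b
  linarith

variable (v : R → ℤ)
  (hmul : ∀ x y : R, x ≠ 0 → y ≠ 0 → v (x * y) = v x + v y)
  (hadd : ∀ x y : R, x ≠ 0 → y ≠ 0 → x + y ≠ 0 → min (v x) (v y) ≤ v (x + y))

include hmul in
theorem anp_v_one : v 1 = 0 := by
  have := hmul 1 1 one_ne_zero one_ne_zero
  rw [mul_one] at this
  linarith

include hmul in
theorem anpOrd_algebraMap {a : R} (ha : a ≠ 0) : anpOrd L v (algebraMap R L a) = v a := by
  have h := anpOrd_div (L := L) v hmul ha one_ne_zero
  rw [map_one, div_one, anp_v_one v hmul, sub_zero] at h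
  exact h

include hmul in
theorem anpOrd_mul {f g : L} (hf : f ≠ 0) (hg : g ≠ 0) :
    anpOrd L v (f * g) = anpOrd L v f + anpOrd L v g := by
  obtain ⟨a, b, hb, rfl⟩ := anp_exists_div (R := R) f
  obtain ⟨c, d, hd, rfl⟩ := anp_exists_div (R := R) g
  have ha : a ≠ 0 := by
    rintro rfl
    simp at hf
  have hc : c ≠ 0 := by
    rintro rfl
    simp at hg
  have e : algebraMap R L a / algebraMap R L b * (algebraMap R L c / algebraMap R L d) =
      algebraMap R L (a * c) / algebraMap R L (b * d) := by
    rw [map_mul, map_mul, div_mul_div_comm]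
  rw [e, anpOrd_div v hmul (mul_ne_zero ha hc) (mul_ne_zero hb hd), anpOrd_div v hmul ha hb,
    anpOrd_div v hmul hc hd, hmul a c ha hc, hmul b d hb hd]
  ring

include hmul hadd in
theorem anpOrd_add {f g : L} (hf : f ≠ 0) (hg : g ≠ 0) (hfg : f + g ≠ 0) :
    min (anpOrd L v f) (anpOrd L v g) ≤ anpOrd L v (f + g) := by
  obtain ⟨a, b, hb, rfl⟩ := anp_exists_div (R := R) f
  obtain ⟨c, d, hd, rfl⟩ := anp_exists_div (R := R) g
  have ha : a ≠ 0 := by
    rintro rfl
    simp at hf
  have hc : c ≠ 0 := by
    rintro rfl
    simp at hg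
  have hbL : algebraMap R L b ≠ 0 := anp_algebraMap_ne_zero hb
  have hdL : algebraMap R L d ≠ 0 := anp_algebraMap_ne_zero hd
  have e : algebraMap R L a / algebraMap R L b + algebraMap R L c / algebraMap R L d =
      algebraMap R L (a * d + c * b) / algebraMap R L (b * d) := by
    rw [map_add, map_mul, map_mul, map_mul]
    field_simp
  have hsum : a * d + c * b ≠ 0 := by
    intro h0
    rw [e, h0, map_zero, zero_div] at hfg
    exact hfg rfl
  rw [e, anpOrd_div v hmul hsum (mul_ne_zero hb hd), anpOrd_div v hmul ha hb,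
    anpOrd_div v hmul hc hd, hmul b d hb hd]
  have h1 := hadd (a * d) (c * b) (mul_ne_zero ha hd) (mul_ne_zero hc hb) hsum
  rw [hmul a d ha hd, hmul c b hc hb] at h1
  have h2 : min (v a - v b) (v c - v d) = min (v a + v d) (v c + v b) - (v b + v d) := by
    rw [← min_sub_sub_right]
    congr 1 <;> ring
  rw [h2]
  linarith

end

/-- **Places from integer valuations.**  An integer valuation `v` on a `K`-algebra domain `R`
which is trivial on `K` and nontrivial defines a place `w` of the fraction field with
`v = e * w.ord`; the place is fixed by every automorphism preserving `v`. -/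
theorem anp_exists_place {K R L : Type*} [Field K] [CommRing R] [IsDomain R] [Algebra K R]
    [Field L] [Algebra R L] [IsFractionRing R L] [Algebra K L] [IsScalarTower K R L]
    (v : R → ℤ)
    (hmul : ∀ x y : R, x ≠ 0 → y ≠ 0 → v (x * y) = v x + v y)
    (hadd : ∀ x y : R, x ≠ 0 → y ≠ 0 → x + y ≠ 0 → min (v x) (v y) ≤ v (x + y))
    (hK : ∀ c : K, c ≠ 0 → v (algebraMap K R c) = 0)
    (hnt : ∃ x : R, x ≠ 0 ∧ v x ≠ 0) :
    ∃ (w : Place K L) (e : ℤ), 0 < e ∧
      (∀ x : R, x ≠ 0 → v x = e * w.ord (algebraMap R L x)) ∧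
      (∀ (σ : L ≃ₐ[K] L) (s : R → R),
        (∀ x, σ.symm (algebraMap R L x) = algebraMap R L (s x)) →
        (∀ x, x ≠ 0 → v (s x) = v x) → σ • w = w) := by
  have hKinj : Function.Injective (algebraMap K R) := (algebraMap K R).injective
  obtain ⟨w, e, he, hw⟩ := exists_place_of_ord (K := K) (F := L) (anpOrd L v)
    (fun f g hf hg => anpOrd_mul v hmul hf hg)
    (fun f g hf hg hfg => anpOrd_add v hmul hadd hf hg hfg)
    (fun c hc => by
      rw [IsScalarTower.algebraMap_apply K R L,
        anpOrd_algebraMap v hmul (fun h => hc (hKinj (by rw [h, map_zero])))]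
      exact hK c hc)
    (by
      obtain ⟨x, hx, hvx⟩ := hnt
      exact ⟨algebraMap R L x, anp_algebraMap_ne_zero hx, by
        rwa [anpOrd_algebraMap v hmul hx]⟩)
  refine ⟨w, e, he, fun x hx => ?_, fun σ s hs hvs => ?_⟩
  · rw [← hw _ (anp_algebraMap_ne_zero hx), anpOrd_algebraMap v hmul hx]
  · refine place_ext_ord fun f => ?_
    rw [ord_smul_place]
    rcases eq_or_ne f 0 with rfl | hf
    · simp
    · have hσf : σ.symm f ≠ 0 := by
        rw [Ne, map_eq_zero_iff _ σ.symm.injective]
        exact hf
      obtain ⟨a, b, hb, rfl⟩ := anp_exists_div (R := R) f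
      have ha : a ≠ 0 := by
        rintro rfl
        simp at hf
      have hsne : ∀ x : R, x ≠ 0 → s x ≠ 0 := by
        intro x hx h0
        have h1 := hs x
        rw [h0, map_zero, map_eq_zero_iff _ σ.symm.injective] at h1
        exact anp_algebraMap_ne_zero hx h1
      have e1 : σ.symm (algebraMap R L a / algebraMap R L b) =
          algebraMap R L (s a) / algebraMap R L (s b) := by
        rw [map_div₀, hs, hs]
      have e2 : anpOrd L v (σ.symm (algebraMap R L a / algebraMap R L b)) =
          anpOrd L v (algebraMap R L a / algebraMap R L b) := by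
        rw [e1, anpOrd_div v hmul (hsne a ha) (hsne b hb), anpOrd_div v hmul ha hb, hvs a ha,
          hvs b hb]
      rw [hw _ hσf, hw _ hf] at e2
      have e3 : w.ord (σ.symm (algebraMap R L a / algebraMap R L b)) =
          w.ord (algebraMap R L a / algebraMap R L b) :=
        mul_left_cancel₀ he.ne' e2
      rw [e3]

end Fermat.Agent.S24
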