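import Mathlib
import Fermat.Prelude.Def_AlgebraicCurve_CanonicalDivisor

/-!
# S24: local computation of orders of differentials at a place (support for piece A3)

For a place `v` of `F/K` whose valuation ring `O` has residue field `K` and a finite module of
Kähler differentials `Ω[O⁄K]` (e.g. `O` essentially of finite type over `K`), in characteristic
zero: `Ω[O⁄K]` is generated by `dπ`, the differential `dπ` generates `Ω[F⁄K]`, and
`ord_v (dt) = ord_v t - 1` whenever `ord_v t ≠ 0`.
-/

set_option autoImplicit false

namespace Fermat.Agent.S24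

open AlgebraicCurve KaehlerDifferential

variable {K F : Type*} [Field K] [Field F] [Algebra K F]

/-- The uniformizer chosen by the prelude (`Place.uniformizer` is private there). -/
noncomputable def diffUnif (v : Place K F) : v.toValuationSubring :=
  (IsDiscreteValuationRing.exists_irreducible v.toValuationSubring).choose

theorem diffUnif_irreducible (v : Place K F) : Irreducible (diffUnif v) :=
  (IsDiscreteValuationRing.exists_irreducible v.toValuationSubring).choose_spec

theorem diff_dCoord_eq (v : Place K F) :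
    v.dCoord = D K F ((diffUnif v : v.toValuationSubring) : F) := rfl

/-- The residue field of the place is the field of constants. -/
def ResidueConst (v : Place K F) : Prop :=
  ∀ a : v.toValuationSubring, ∃ c : K,
    a - algebraMap K v.toValuationSubring c ∈ IsLocalRing.maximalIdeal v.toValuationSubring

/-- Nakayama: `Ω[O⁄K]` is generated by the differential of a uniformizer. -/
theorem diff_span_D_unif (v : Place K F)
    (hfin : Module.Finite v.toValuationSubring Ω[v.toValuationSubring⁄K])
    (hres : ResidueConst v) :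
    Submodule.span v.toValuationSubring {D K v.toValuationSubring (diffUnif v)} = ⊤ := by
  set π := diffUnif v with hπdef
  have hπ := diffUnif_irreducible v
  have hmax : IsLocalRing.maximalIdeal v.toValuationSubring = Ideal.span {π} := hπ.maximalIdeal_eq
  refine eq_top_iff.mpr ?_
  refine Submodule.le_of_le_smul_of_le_jacobson_bot
    (I := IsLocalRing.maximalIdeal v.toValuationSubring) (Module.finite_def.mp hfin)
    (by rw [IsLocalRing.jacobson_eq_maximalIdeal ⊥ bot_ne_top]) ?_
  have hspan := KaehlerDifferential.span_range_derivation K v.toValuationSubring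
  rw [← hspan, Submodule.span_le]
  rintro _ ⟨u, rfl⟩
  obtain ⟨c, hc⟩ := hres u
  rw [hmax, Ideal.mem_span_singleton'] at hc
  obtain ⟨u₁, hu₁⟩ := hc
  have h1 : u = algebraMap K v.toValuationSubring c + u₁ * π := by rw [hu₁]; ring
  have h2 : D K v.toValuationSubring u =
      u₁ • D K v.toValuationSubring π + π • D K v.toValuationSubring u₁ := by
    conv_lhs => rw [h1]
    rw [map_add, Derivation.map_algebraMap, zero_add, Derivation.leibniz]
  rw [SetLike.mem_coe, h2, hspan]
  refine Submodule.add_mem_sup (Submodule.smul_mem _ _ (Submodule.mem_span_singleton_self _)) ?_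
  refine Submodule.smul_mem_smul ?_ Submodule.mem_top
  rw [hmax]
  exact Ideal.mem_span_singleton_self π

/-- The differential of an element of the valuation ring is an integral multiple of `dπ`. -/
theorem diff_D_mem (v : Place K F)
    (hfin : Module.Finite v.toValuationSubring Ω[v.toValuationSubring⁄K])
    (hres : ResidueConst v) (u : v.toValuationSubring) :
    ∃ g : v.toValuationSubring, D K F (u : F) = (g : F) • v.dCoord := by
  have hu : D K v.toValuationSubring u ∈
      Submodule.span v.toValuationSubring {D K v.toValuationSubring (diffUnif v)} := by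
    rw [diff_span_D_unif v hfin hres]
    trivial
  obtain ⟨g, hg⟩ := Submodule.mem_span_singleton.mp hu
  refine ⟨g, ?_⟩
  have h1 := congrArg (KaehlerDifferential.map K K v.toValuationSubring F) hg
  rw [map_smul, KaehlerDifferential.map_D, KaehlerDifferential.map_D] at h1
  rw [diff_dCoord_eq]
  exact h1.symm

/-- `dπ` generates `Ω[F⁄K]`. -/
theorem diff_dCoordGenerates (v : Place K F)
    (hfin : Module.Finite v.toValuationSubring Ω[v.toValuationSubring⁄K])
    (hres : ResidueConst v) : v.DCoordGenerates := by
  refine ⟨eq_top_iff.mpr ?_⟩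
  rw [← KaehlerDifferential.span_range_derivation K F, Submodule.span_le]
  rintro _ ⟨f, rfl⟩
  -- write `f = a / b` with `a, b` in the valuation ring
  obtain ⟨a, b, hb, rfl⟩ : ∃ a b : v.toValuationSubring, (b : F) ≠ 0 ∧ f = (a : F) / (b : F) := by
    rcases v.toValuationSubring.mem_or_inv_mem f with hf | hf
    · exact ⟨⟨f, hf⟩, 1, by simp, by simp⟩
    · by_cases hf0 : f = 0
      · exact ⟨0, 1, by simp, by simp [hf0]⟩
      · exact ⟨1, ⟨f⁻¹, hf⟩, by simpa using hf0, by simp⟩
  obtain ⟨ga, hga⟩ := diff_D_mem v hfin hres a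
  obtain ⟨gb, hgb⟩ := diff_D_mem v hfin hres b
  rw [SetLike.mem_coe, div_eq_mul_inv, Derivation.leibniz, Derivation.leibniz_inv, hga, hgb]
  refine Submodule.add_mem _ (Submodule.smul_mem _ _ ?_) (Submodule.smul_mem _ _ ?_)
  · exact Submodule.smul_mem _ _ (Submodule.smul_mem _ _ (Submodule.mem_span_singleton_self _))
  · exact Submodule.smul_mem _ _ (Submodule.mem_span_singleton_self _)

/-- For `t` vanishing at `v`: `dt = c • dπ` with `ord_v c = ord_v t - 1`. -/
theorem diff_exists_coeff_of_pos [CharZero K] (v : Place K F)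
    (hfin : Module.Finite v.toValuationSubring Ω[v.toValuationSubring⁄K])
    (hres : ResidueConst v) {t : F} (ht : 0 < v.ord t) :
    ∃ c : F, c ≠ 0 ∧ D K F t = c • v.dCoord ∧ v.ord c = v.ord t - 1 := by
  set π := diffUnif v with hπdef
  have hπ := diffUnif_irreducible v
  have hπ0 : (π : F) ≠ 0 := by simpa using hπ.ne_zero
  have ht0 : t ≠ 0 := by
    rintro rfl
    simp at ht
  obtain ⟨u, hu⟩ := v.exists_unit_mul_zpow ht0 hπ
  obtain ⟨k, hk⟩ : ∃ k : ℕ, v.ord t = (k : ℤ) + 1 := ⟨(v.ord t - 1).toNat, by omega⟩
  rw [hk] at hu ⊢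
  obtain ⟨g, hg⟩ := diff_D_mem v hfin hres (u : v.toValuationSubring)
  -- the coefficient of `dt` with respect to `dπ`
  set w : v.toValuationSubring :=
    (u : v.toValuationSubring) * algebraMap K v.toValuationSubring ((k : K) + 1) + π * g with hw
  have hwunit : IsUnit w := by
    have h1 : IsUnit ((u : v.toValuationSubring) * algebraMap K v.toValuationSubring ((k : K) + 1)) :=
      u.isUnit.mul ((isUnit_iff_ne_zero.mpr (by exact_mod_cast Nat.succ_ne_zero k)).map _)
    by_contra hnot
    have h2 : w ∈ IsLocalRing.maximalIdeal v.toValuationSubring := hnot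
    have h3 : π * g ∈ IsLocalRing.maximalIdeal v.toValuationSubring :=
      Ideal.mul_mem_right _ _ hπ.not_isUnit
    have h4 := (IsLocalRing.maximalIdeal v.toValuationSubring).sub_mem h2 h3
    rw [hw, add_sub_cancel_right] at h4
    exact h4 h1
  have hDpow : D K F ((π : F) ^ (k + 1)) = (((k : F) + 1) * (π : F) ^ k) • D K F (π : F) := by
    rw [Derivation.leibniz_pow, Nat.add_sub_cancel, ← Nat.cast_smul_eq_nsmul F, smul_smul]
    push_cast
    rfl
  have hcoef : D K F t = ((w : F) * (π : F) ^ k) • v.dCoord := by
    have hz : (π : F) ^ ((k : ℤ) + 1) = (π : F) ^ (k + 1) := by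
      rw [← zpow_natCast]; push_cast; rfl
    rw [hu, hz, Derivation.leibniz, hDpow, hg, diff_dCoord_eq, smul_smul, smul_smul, ← add_smul]
    congr 1
    rw [hw]
    push_cast
    ring
  have hw0 : (w : F) ≠ 0 := by simpa using hwunit.ne_zero
  refine ⟨(w : F) * (π : F) ^ k, mul_ne_zero hw0 (pow_ne_zero _ hπ0), hcoef, ?_⟩
  have h5 := v.ord_unit_smul_zpow hwunit.unit hπ k
  rw [zpow_natCast, IsUnit.unit_spec] at h5
  rw [h5]
  ring

/-- For `t` with `ord_v t ≠ 0`: `dt = c • dπ` with `ord_v c = ord_v t - 1`. -/
theorem diff_exists_coeff [CharZero K] (v : Place K F)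
    (hfin : Module.Finite v.toValuationSubring Ω[v.toValuationSubring⁄K])
    (hres : ResidueConst v) {t : F} (ht : v.ord t ≠ 0) :
    ∃ c : F, c ≠ 0 ∧ D K F t = c • v.dCoord ∧ v.ord c = v.ord t - 1 := by
  rcases lt_or_gt_of_ne ht with hneg | hpos
  · have ht0 : t ≠ 0 := by
      rintro rfl
      simp at ht
    have hs : 0 < v.ord t⁻¹ := by rw [v.ord_inv]; omega
    obtain ⟨c, hc0, hc, hcord⟩ := diff_exists_coeff_of_pos v hfin hres hs
    have hsq : (-t ^ 2 : F) ≠ 0 := neg_ne_zero.mpr (pow_ne_zero 2 ht0)
    refine ⟨-t ^ 2 * c, mul_ne_zero hsq hc0, ?_, ?_⟩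
    · have h1 := (D K F).leibniz_of_mul_eq_one (mul_inv_cancel₀ ht0)
      rw [h1, hc, smul_smul]
    · rw [v.ord_mul hsq hc0, hcord, v.ord_inv, neg_eq_neg_one_mul, mul_comm,
        v.ord_mul (pow_ne_zero 2 ht0) (by norm_num), ← zpow_natCast, v.ord_zpow]
      have h1 : v.ord (-1 : F) = 0 := by
        have h2 : v.ord ((-1 : F) * (-1 : F)) = v.ord (-1 : F) + v.ord (-1 : F) :=
          v.ord_mul (by norm_num) (by norm_num)
        rw [show ((-1 : F) * (-1 : F)) = 1 by ring, v.ord_one] at h2
        omega
      rw [h1]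
      push_cast
      ring
  · exact diff_exists_coeff_of_pos v hfin hres hpos

/-- `ord_v (dt) = ord_v t - 1` whenever `ord_v t ≠ 0`. -/
theorem diff_ordDifferential_D [CharZero K] [Nontrivial Ω[F⁄K]] (v : Place K F)
    (hfin : Module.Finite v.toValuationSubring Ω[v.toValuationSubring⁄K])
    (hres : ResidueConst v) {t : F} (ht : v.ord t ≠ 0) :
    v.ordDifferential (D K F t) = v.ord t - 1 := by
  haveI : v.DCoordGenerates := diff_dCoordGenerates v hfin hres
  obtain ⟨c, -, hc, hcord⟩ := diff_exists_coeff v hfin hres ht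
  rw [Place.ordDifferential, v.differentialCoeff_unique hc, hcord]

/-- `ord_v (f • dt) = ord_v f + ord_v t - 1` whenever `ord_v t ≠ 0` and `f ≠ 0`. -/
theorem diff_ordDifferential_smul_D [CharZero K] [Nontrivial Ω[F⁄K]] (v : Place K F)
    (hfin : Module.Finite v.toValuationSubring Ω[v.toValuationSubring⁄K])
    (hres : ResidueConst v) {t : F} (ht : v.ord t ≠ 0) {f : F} (hf : f ≠ 0) :
    v.ordDifferential (f • D K F t) = v.ord f + v.ord t - 1 := by
  haveI : v.DCoordGenerates := diff_dCoordGenerates v hfin hres
  obtain ⟨c, hc0, hc, hcord⟩ := diff_exists_coeff v hfin hres ht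
  rw [Place.ordDifferential, v.differentialCoeff_unique (f := f * c) (by rw [hc, smul_smul]),
    v.ord_mul hf hc0, hcord]
  ring

/-- In characteristic zero, a finitely generated field extension containing a transcendental
element has nonzero Kähler differentials. -/
theorem diff_nontrivial_kaehler [Algebra.EssFiniteType K F] (x : F) (hx : Transcendental K x) :
    Nontrivial Ω[F⁄K] := by
  by_contra hnt
  rw [not_nontrivial_iff_subsingleton] at hnt
  haveI : Algebra.FormallyUnramified K F := ⟨hnt⟩
  haveI : Module.Finite K F := Algebra.FormallyUnramified.finite_of_free K F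
  exact hx (Algebra.IsAlgebraic.isAlgebraic x)

end Fermat.Agent.S24
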